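import Fermat.Agent.S36.Val.Interface

/-!
# S36 / Val, task VAL-G1 : calculus of `GInt`, `gred` and the valuation of `gv` (`Stmt_GVApi`)
-/

set_option autoImplicit false

namespace Fermat.Agent.S36.Val

open Fermat.Agent
open Fermat.Agent.S24 (Qbar FF)
open Fermat.Agent.INJ.Inst (kA)
open Fermat.Agent.INJ.Inst.Gauss (IsRatio red rho inc red_eq isRatio_inc isRatio_zero isRatio_one
  inc_single rho_single)

variable {A : ValuationSubring Qbar}

theorem gint_of_ratio {x : LaurentSeries Qbar} {f g : LaurentSeries A}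
    (hg : rho (resA A) g ≠ 0) (h : x * inc A g = inc A f) : GInt A x := ⟨f, g, hg, h⟩

theorem gred_of_ratio {x : LaurentSeries Qbar} {f g : LaurentSeries A}
    (hg : rho (resA A) g ≠ 0) (h : x * inc A g = inc A f) :
    gred A x = rho (resA A) f / rho (resA A) g := red_eq ⟨hg, h⟩

theorem gint_inc (y : LaurentSeries A) : GInt A (inc A y) := ⟨y, 1, isRatio_inc y⟩

theorem gred_inc (y : LaurentSeries A) : gred A (inc A y) = rho (resA A) y := by
  rw [gred, red_eq (isRatio_inc y), map_one, div_one]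

theorem GInt.zero : GInt A 0 := ⟨0, 1, isRatio_zero⟩

theorem GInt.one : GInt A 1 := ⟨1, 1, isRatio_one⟩

theorem gred_zero : gred A 0 = 0 := by
  rw [gred, red_eq isRatio_zero, map_zero, zero_div]

theorem gred_one : gred A 1 = 1 := by
  rw [gred, red_eq isRatio_one, map_one, div_one]

theorem GInt.add {x y : LaurentSeries Qbar} (hx : GInt A x) (hy : GInt A y) : GInt A (x + y) := by
  obtain ⟨f, g, h1⟩ := hx
  obtain ⟨f', g', h2⟩ := hy
  exact ⟨_, _, h1.add h2⟩

theorem gred_add {x y : LaurentSeries Qbar} (hx : GInt A x) (hy : GInt A y) :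
    gred A (x + y) = gred A x + gred A y := by
  obtain ⟨f, g, h1⟩ := hx
  obtain ⟨f', g', h2⟩ := hy
  unfold gred
  rw [red_eq h1, red_eq h2, red_eq (h1.add h2), map_add, map_mul, map_mul, map_mul,
    div_add_div _ _ h1.1 h2.1]
  congr 1
  ring

theorem GInt.mul {x y : LaurentSeries Qbar} (hx : GInt A x) (hy : GInt A y) : GInt A (x * y) := by
  obtain ⟨f, g, h1⟩ := hx
  obtain ⟨f', g', h2⟩ := hy
  exact ⟨_, _, h1.mul h2⟩

theorem gred_mul {x y : LaurentSeries Qbar} (hx : GInt A x) (hy : GInt A y) :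
    gred A (x * y) = gred A x * gred A y := by
  obtain ⟨f, g, h1⟩ := hx
  obtain ⟨f', g', h2⟩ := hy
  unfold gred
  rw [red_eq h1, red_eq h2, red_eq (h1.mul h2), map_mul, map_mul, div_mul_div_comm]

theorem GInt.neg {x : LaurentSeries Qbar} (hx : GInt A x) : GInt A (-x) := by
  obtain ⟨f, g, h1⟩ := hx
  exact ⟨_, _, h1.neg⟩

theorem gred_neg {x : LaurentSeries Qbar} (hx : GInt A x) : gred A (-x) = - gred A x := by
  obtain ⟨f, g, h1⟩ := hx
  unfold gred
  rw [red_eq h1, red_eq h1.neg, map_neg, neg_div]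

theorem GInt.sub {x y : LaurentSeries Qbar} (hx : GInt A x) (hy : GInt A y) : GInt A (x - y) := by
  rw [sub_eq_add_neg]; exact hx.add hy.neg

theorem gred_sub {x y : LaurentSeries Qbar} (hx : GInt A x) (hy : GInt A y) :
    gred A (x - y) = gred A x - gred A y := by
  rw [sub_eq_add_neg, gred_add hx hy.neg, gred_neg hy, sub_eq_add_neg]

theorem GInt.pow {x : LaurentSeries Qbar} (hx : GInt A x) (n : ℕ) : GInt A (x ^ n) := by
  induction n with
  | zero => rw [pow_zero]; exact GInt.one
  | succ n ih => rw [pow_succ]; exact ih.mul hx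

theorem gred_pow {x : LaurentSeries Qbar} (hx : GInt A x) (n : ℕ) :
    gred A (x ^ n) = gred A x ^ n := by
  induction n with
  | zero => rw [pow_zero, pow_zero]; exact gred_one
  | succ n ih => rw [pow_succ, pow_succ, gred_mul (hx.pow n) hx, ih]

theorem GInt.sum {ι : Type*} (s : Finset ι) (f : ι → LaurentSeries Qbar)
    (h : ∀ i ∈ s, GInt A (f i)) : GInt A (∑ i ∈ s, f i) := by
  classical
  induction s using Finset.induction_on with
  | empty => rw [Finset.sum_empty]; exact GInt.zero
  | insert a s ha ih =>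
    rw [Finset.sum_insert ha]
    exact (h a (Finset.mem_insert_self a s)).add (ih fun i hi => h i (Finset.mem_insert_of_mem hi))

theorem gred_sum {ι : Type*} (s : Finset ι) (f : ι → LaurentSeries Qbar)
    (h : ∀ i ∈ s, GInt A (f i)) : gred A (∑ i ∈ s, f i) = ∑ i ∈ s, gred A (f i) := by
  classical
  induction s using Finset.induction_on with
  | empty => rw [Finset.sum_empty, Finset.sum_empty]; exact gred_zero
  | insert a s ha ih =>
    rw [Finset.sum_insert ha, Finset.sum_insert ha,
      gred_add (h a (Finset.mem_insert_self a s))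
        (GInt.sum s f fun i hi => h i (Finset.mem_insert_of_mem hi)),
      ih fun i hi => h i (Finset.mem_insert_of_mem hi)]

theorem GInt.prod {ι : Type*} (s : Finset ι) (f : ι → LaurentSeries Qbar)
    (h : ∀ i ∈ s, GInt A (f i)) : GInt A (∏ i ∈ s, f i) := by
  classical
  induction s using Finset.induction_on with
  | empty => rw [Finset.prod_empty]; exact GInt.one
  | insert a s ha ih =>
    rw [Finset.prod_insert ha]
    exact (h a (Finset.mem_insert_self a s)).mul (ih fun i hi => h i (Finset.mem_insert_of_mem hi))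

theorem gred_prod {ι : Type*} (s : Finset ι) (f : ι → LaurentSeries Qbar)
    (h : ∀ i ∈ s, GInt A (f i)) : gred A (∏ i ∈ s, f i) = ∏ i ∈ s, gred A (f i) := by
  classical
  induction s using Finset.induction_on with
  | empty => rw [Finset.prod_empty, Finset.prod_empty]; exact gred_one
  | insert a s ha ih =>
    rw [Finset.prod_insert ha, Finset.prod_insert ha,
      gred_mul (h a (Finset.mem_insert_self a s))
        (GInt.prod s f fun i hi => h i (Finset.mem_insert_of_mem hi)),
      ih fun i hi => h i (Finset.mem_insert_of_mem hi)]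

theorem GInt.inv {x : LaurentSeries Qbar} (hx : GInt A x) (h : gred A x ≠ 0) : GInt A x⁻¹ := by
  obtain ⟨f, g, h1⟩ := hx
  have hf : rho (resA A) f ≠ 0 := by
    intro h0
    apply h
    rw [gred, red_eq h1, h0, zero_div]
  exact ⟨g, f, h1.inv hf⟩

theorem gred_inv {x : LaurentSeries Qbar} (hx : GInt A x) (h : gred A x ≠ 0) :
    gred A x⁻¹ = (gred A x)⁻¹ := by
  obtain ⟨f, g, h1⟩ := hx
  have hf : rho (resA A) f ≠ 0 := by
    intro h0
    apply h
    rw [gred, red_eq h1, h0, zero_div]
  unfold gred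
  rw [red_eq h1, red_eq (h1.inv hf), inv_div]

theorem gred_of_not_gint {x : LaurentSeries Qbar} (hx : ¬ GInt A x) : gred A x = 0 := by
  unfold gred red
  exact dif_neg hx

theorem gint_of_gred_ne_zero {x : LaurentSeries Qbar} (h : gred A x ≠ 0) : GInt A x := by
  by_contra hx
  exact h (gred_of_not_gint hx)

theorem gint_const {c : Qbar} (hc : c ∈ A) :
    GInt A (algebraMap Qbar (LaurentSeries Qbar) c) := by
  have := gint_inc (A := A) (HahnSeries.single 0 ⟨c, hc⟩)
  rwa [inc_single] at this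

theorem gred_const {c : Qbar} (hc : c ∈ A) :
    gred A (algebraMap Qbar (LaurentSeries Qbar) c) =
      algebraMap (kA A) (LaurentSeries (kA A)) (resA A ⟨c, hc⟩) := by
  have := gred_inc (A := A) (HahnSeries.single 0 ⟨c, hc⟩)
  rwa [inc_single, rho_single] at this

section gv

variable {F : Type*} [Field F] (φ : F →+* LaurentSeries Qbar) (h : ∀ x, Sat A (φ x))

theorem gv_le_one_iff (x : F) : (gv φ h).valuation x ≤ 1 ↔ GInt A (φ x) :=
  (gv φ h).valuation_le_one_iff x

theorem gv_eq_one_iff (x : F) :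
    (gv φ h).valuation x = 1 ↔ GInt A (φ x) ∧ gred A (φ x) ≠ 0 := by
  constructor
  · intro hx
    have hx0 : x ≠ 0 := by
      rintro rfl
      rw [map_zero] at hx
      exact zero_ne_one hx
    have h1 : GInt A (φ x) := (gv_le_one_iff φ h x).1 hx.le
    have h2 : GInt A (φ x⁻¹) := (gv_le_one_iff φ h x⁻¹).1 (by rw [map_inv₀, hx, inv_one])
    refine ⟨h1, fun h0 => ?_⟩
    have h3 := gred_mul h1 h2
    rw [← map_mul, mul_inv_cancel₀ hx0, map_one, gred_one, h0, zero_mul] at h3
    exact one_ne_zero h3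
  · rintro ⟨h1, h2⟩
    have hx0 : x ≠ 0 := by
      rintro rfl
      rw [map_zero] at h2
      exact h2 gred_zero
    have h3 : GInt A (φ x⁻¹) := by rw [map_inv₀]; exact h1.inv h2
    have h4 := (gv_le_one_iff φ h x⁻¹).2 h3
    rw [map_inv₀] at h4
    have h5 : (gv φ h).valuation x ≠ 0 := ((gv φ h).valuation.ne_zero_iff).2 hx0
    exact le_antisymm ((gv_le_one_iff φ h x).2 h1) ((inv_le_one₀ (zero_lt_iff.2 h5)).1 h4)

theorem gv_lt_one_iff (x : F) :
    (gv φ h).valuation x < 1 ↔ GInt A (φ x) ∧ gred A (φ x) = 0 := by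
  rw [lt_iff_le_and_ne, gv_le_one_iff, Ne, gv_eq_one_iff]
  constructor
  · rintro ⟨h1, h2⟩
    refine ⟨h1, ?_⟩
    by_contra h3
    exact h2 ⟨h1, h3⟩
  · rintro ⟨h1, h2⟩
    exact ⟨h1, fun h3 => h3.2 h2⟩

end gv

theorem stmt_GVApi : Stmt_GVApi := by
  intro A
  refine ⟨fun y => ⟨gint_inc y, gred_inc y⟩,
    fun x f g hg h => ⟨gint_of_ratio hg h, gred_of_ratio hg h⟩,
    fun x y hx hy => ⟨hx.add hy, gred_add hx hy⟩,
    fun x y hx hy => ⟨hx.mul hy, gred_mul hx hy⟩,
    fun x hx => ⟨hx.neg, gred_neg hx⟩,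
    fun x hx h => ⟨hx.inv h, gred_inv hx h⟩,
    fun x hx => gred_of_not_gint hx,
    fun F _ φ h x => ⟨gv_lt_one_iff φ h x, gv_eq_one_iff φ h x⟩⟩

end Fermat.Agent.S36.Val
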