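import Fermat.Agent.S36.Val.Interface
import Fermat.Agent.ES.Mid.HF1
import Fermat.Agent.ES.Mid.HF3
import Fermat.Prelude.Thm_ModularCurve_coeffMap_qExpand

/-!
# S36 / Val : [G4], [G5] the Gauss valuation and `q ↦ q ^ e`, `q ↦ ζ q`
-/

set_option autoImplicit false

noncomputable section

namespace Fermat.Agent.S36.Val

open Fermat.Agent
open Fermat.Agent.S24 (Qbar FF)
open Fermat.Agent.INJ.Inst (kA)
open Fermat.Agent.INJ.Inst.Gauss (IsRatio red rho inc)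
open Fermat.Agent.ES.Mid (tw)
open ModularCurve (qExpand coeffMap)

theorem stmt_GVExpand : Stmt_GVExpand := by
  rintro A e _ x ⟨f, g, hg, he⟩
  have hx : IsRatio (resA A) x f g := ⟨hg, he⟩
  have h : IsRatio (resA A) (qExpand Qbar e x) (qExpand A e f) (qExpand A e g) := by
    refine ⟨?_, ?_⟩
    · rw [ModularCurve.coeffMap_qExpand]
      exact (map_ne_zero _).2 hg
    · rw [ModularCurve.coeffMap_qExpand, ModularCurve.coeffMap_qExpand, ← map_mul, he]
  refine ⟨⟨_, _, h⟩, ?_⟩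
  rw [gred, gred, INJ.Inst.Gauss.red_eq h, INJ.Inst.Gauss.red_eq hx,
    ModularCurve.coeffMap_qExpand, ModularCurve.coeffMap_qExpand, map_div₀]

/-- a root of unity as a unit of `A`. -/
def GVOps_unit (A : ValuationSubring Qbar) {r : ℕ} (hr : 0 < r) (ζ : Qbarˣ) (hζ : ζ ^ r = 1) : Aˣ where
  val := ⟨(ζ : Qbar), ES.Mid.HF3.mem_of_pow_eq_one A r hr (by rw [← Units.val_pow_eq_pow_val, hζ]; rfl)⟩
  inv := ⟨((ζ⁻¹ : Qbarˣ) : Qbar), ES.Mid.HF3.mem_of_pow_eq_one A r hr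
    (by rw [← Units.val_pow_eq_pow_val, inv_pow, hζ]; simp)⟩
  val_inv := Subtype.ext (by simp)
  inv_val := Subtype.ext (by simp)

theorem GVOps_map_subtype (A : ValuationSubring Qbar) {r : ℕ} (hr : 0 < r) (ζ : Qbarˣ)
    (hζ : ζ ^ r = 1) : Units.map (A.subtype : A →* Qbar) (GVOps_unit A hr ζ hζ) = ζ :=
  Units.ext rfl

theorem GVOps_map_residue (A : ValuationSubring Qbar) {r : ℕ} (hr : r.Prime)
    (hA : A.LiesOverPrime r) (ζ : Qbarˣ) (hζ : ζ ^ r = 1) :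
    Units.map (resA A : A →* kA A) (GVOps_unit A hr.pos ζ hζ) = 1 := by
  have : Fact r.Prime := ⟨hr⟩
  have : CharP (kA A) r := ES.Mid.HF3.charP_residue A r hA
  apply Units.ext
  set u : kA A := ((Units.map (resA A : A →* kA A) (GVOps_unit A hr.pos ζ hζ) : (kA A)ˣ) : kA A)
    with hu
  have h1 : u ^ r = 1 := by
    have h2 : (GVOps_unit A hr.pos ζ hζ) ^ r = 1 := by
      apply Units.ext
      apply Subtype.ext
      show (ζ : Qbar) ^ r = 1
      rw [← Units.val_pow_eq_pow_val, hζ]; rfl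
    rw [hu, ← Units.val_pow_eq_pow_val, ← map_pow, h2, map_one]; rfl
  have h3 : (u - 1) ^ r = 0 := by rw [sub_pow_char, h1, one_pow, sub_self]
  have h4 : u - 1 = 0 := pow_eq_zero_iff hr.ne_zero |>.1 h3
  exact sub_eq_zero.1 h4

theorem stmt_GVTw : Stmt_GVTw := by
  rintro A r hr hA ζ hζ x ⟨f, g, hg, he⟩
  have hx : IsRatio (resA A) x f g := ⟨hg, he⟩
  set ζA := GVOps_unit A hr.pos ζ hζ with hζA
  have hinc : ∀ y : LaurentSeries A, inc A (tw ζA y) = tw ζ (inc A y) := by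
    intro y
    rw [ES.Mid.HF1.coeffMap_tw, hζA, GVOps_map_subtype A hr.pos ζ hζ]
  have hrho : ∀ y : LaurentSeries A, rho (resA A) (tw ζA y) = rho (resA A) y := by
    intro y
    rw [ES.Mid.HF1.coeffMap_tw, GVOps_map_residue A hr hA ζ hζ, ES.Mid.HF1.tw_one_left]
  have h : IsRatio (resA A) (tw ζ x) (tw ζA f) (tw ζA g) := by
    refine ⟨?_, ?_⟩
    · rw [hrho]; exact hg
    · rw [hinc, hinc, ← ES.Mid.HF1.tw_mul, he]
  refine ⟨⟨_, _, h⟩, ?_⟩
  rw [gred, gred, INJ.Inst.Gauss.red_eq h, INJ.Inst.Gauss.red_eq hx, hrho, hrho]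

end Fermat.Agent.S36.Val

end
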