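import Fermat.Agent.S36.Val.EmbDefs

/-!
# S36 / Val / E6 : existence of the middle embedding
-/

set_option autoImplicit false

noncomputable section

namespace Fermat.Agent.S36.Val

open UpperHalfPlane CongruenceSubgroup
open scoped MatrixGroups Manifold
open Fermat.Agent
open Fermat.Agent.S24 (Qbar FF funAlg iota jFunD jAlg jBar jBarSeries)
open Fermat.Agent.S24.QX (qExpHom cmI Rep)
open Fermat.Agent.ES.Mid (tw gal GQ Growth)
open Fermat.Agent.ES.Mid.HA2 (aff)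
attribute [local instance] Fermat.Agent.S24.algQbarComplex

/-- the `q`-expansion of a shift. -/
theorem E6_rep_shift {X : LaurentSeries ℂ} {f : ℍ → ℂ} (h : Rep X f) (c : ℝ) (u : ℂˣ)
    (hu : (u : ℂ) = Complex.exp (2 * Real.pi * Complex.I * c)) : Rep (tw u X) (aff 1 c f) := by
  obtain ⟨g, hg, hg0, hfg, e⟩ := h
  refine ⟨aff 1 c g, ES.Mid.HA2.nice_shift hg c, fun τ => hg0 _, ?_, ?_⟩
  · rw [← ES.Mid.HA2.aff_mul]; exact ES.Mid.HA2.nice_shift hfg c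
  · rw [← ES.Mid.HA2.aff_mul, ES.Mid.HA2.qL_shift hg c u hu, ES.Mid.HA2.qL_shift hfg c u hu,
      ← ES.Mid.HF1.tw_mul, e]

/-- Bezout, with a natural number `s`. -/
theorem E6_bezout {r M : ℕ} (hr : r.Prime) (hrM : ¬ r ∣ M) :
    ∃ (s : ℕ) (k : ℤ), s.Coprime r ∧ (s : ℤ) * M = 1 + r * k := by
  have hcop : Nat.Coprime M r := ((Nat.Prime.coprime_iff_not_dvd hr).2 hrM).symm
  obtain ⟨m, -, hm⟩ := Nat.exists_mul_mod_eq_one_of_coprime hcop hr.one_lt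
  refine ⟨m, ((M * m / r : ℕ) : ℤ), ?_, ?_⟩
  · apply Nat.Coprime.symm
    rw [Nat.Prime.coprime_iff_not_dvd hr]
    intro hd
    have : M * m % r = 0 := Nat.mod_eq_zero_of_dvd (Dvd.dvd.mul_left hd M)
    omega
  · have h := Nat.div_add_mod (M * m) r
    rw [hm] at h
    have h' : ((r * (M * m / r) + 1 : ℕ) : ℤ) = ((M * m : ℕ) : ℤ) := by rw [h]
    push_cast at h'
    push_cast
    linarith

/-- the root of unity `e(s/r)` is algebraic. -/
theorem E6_exists_zeta {r s : ℕ} (hr : r ≠ 0) (hs : s.Coprime r) :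
    ∃ ζ : Qbarˣ, IsPrimitiveRoot ζ r ∧
      iota (ζ : Qbar) = Complex.exp (2 * Real.pi * Complex.I * (((s : ℝ) / (r : ℝ) : ℝ) : ℂ)) := by
  have : NeZero r := ⟨hr⟩
  have : NeZero ((r : ℕ) : Qbar) := ⟨by exact_mod_cast hr⟩
  obtain ⟨ζ0, hζ0⟩ := HasEnoughRootsOfUnity.exists_primitiveRoot Qbar r
  have h0 : IsPrimitiveRoot (iota ζ0) r := hζ0.map_of_injective (f := iota) iota.injective
  have hz : IsPrimitiveRoot (Complex.exp (2 * Real.pi * Complex.I * ((s : ℂ) / (r : ℂ)))) r :=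
    Complex.isPrimitiveRoot_exp_of_coprime s r hr hs
  obtain ⟨i, -, hi⟩ := h0.eq_pow_of_pow_eq_one hz.pow_eq_one
  have e : iota (ζ0 ^ i) = Complex.exp (2 * Real.pi * Complex.I * ((s : ℂ) / (r : ℂ))) := by
    rw [map_pow, hi]
  have hp : IsPrimitiveRoot (ζ0 ^ i) r := by
    refine IsPrimitiveRoot.of_map_of_injective (f := iota) ?_ iota.injective
    rw [e]; exact hz
  refine ⟨Units.mk0 (ζ0 ^ i) (hp.ne_zero hr), ?_, ?_⟩
  · rw [← IsPrimitiveRoot.coe_units_iff]; exact hp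
  · rw [Units.val_mk0, e]
    push_cast
    rfl

/-- the divisors of `r ^ 2 * M`. -/
theorem E6_dvd_cases {r M d : ℕ} (hr : r.Prime) (hd : d ∣ r ^ 2 * M) :
    d ∣ r * M ∨ ∃ d', d' ∣ M ∧ d = r ^ 2 * d' := by
  obtain ⟨k₁, k₂, h1, h2, rfl⟩ := (Nat.dvd_mul).1 hd
  obtain ⟨j, hj, rfl⟩ := (Nat.dvd_prime_pow hr).1 h1
  rcases Nat.lt_or_ge j 2 with h | h
  · left
    refine Nat.mul_dvd_mul ?_ h2
    have : r ^ j ∣ r ^ 1 := pow_dvd_pow r (by omega)
    simpa using this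
  · right
    have : j = 2 := by omega
    subst this
    exact ⟨k₂, h2, rfl⟩

theorem E6_jBarSeries_eq (d : ℕ) [NeZero d] : jBarSeries d = S28.jd Qbar d :=
  INJ.Inst.fricke_coe_jBar d d dvd_rfl

theorem E6_eq_qExpHom {N d : ℕ} [NeZero N] [NeZero d] (hd : d ∣ N) {y : FF N} (hy : IsJ y d) :
    y = qExpHom N (jAlg N d hd) := by
  rw [S24.QX.qExpHom_jAlg]
  exact Subtype.ext (by rw [hy, INJ.Inst.fricke_coe_jBar])

/-- **[E6]** -/
theorem stmt_Mid (h1 : Stmt_EmbGen) (h5 : Stmt_DeltaFun) : Stmt_Mid := by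
  intro r M _ hr hrM
  have hN0 : r ^ 2 * M ≠ 0 := NeZero.ne _
  have hM : 0 < M := Nat.pos_of_ne_zero fun h => hN0 (by rw [h, mul_zero])
  obtain ⟨s, k, hs, hsk⟩ := E6_bezout hr hrM
  obtain ⟨ζ, hζ, hζe⟩ := E6_exists_zeta hr.ne_zero hs
  have hne : ∀ d : ℕ, d ∣ r ^ 2 * M → NeZero d := fun d hd =>
    ⟨fun h0 => hN0 (by rw [h0] at hd; exact Nat.eq_zero_of_zero_dvd hd)⟩
  -- function level
  have hlow : ∀ d : ℕ, d ∣ r * M → (fun τ : ℍ => jFunD d (deltaMat r M • τ)) = jFunD d := by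
    intro d hd
    funext τ
    exact (h5 r M 1 s k hr.pos hM (one_dvd _) hsk τ).1 d hd
  have htop : ∀ d : ℕ, d ∣ M → (fun τ : ℍ => jFunD (r ^ 2 * d) (deltaMat r M • τ)) =
      aff 1 ((s : ℝ) / r) (jFunD d) := by
    intro d hd
    funext τ
    have := (h5 r M d s k hr.pos hM hd hsk τ).2
    simpa using this
  have hu : ((Units.map ((iota : Qbar →+* ℂ) : Qbar →* ℂ) ζ : ℂˣ) : ℂ) =
      Complex.exp (2 * Real.pi * Complex.I * (((s : ℝ) / (r : ℝ) : ℝ) : ℂ)) := hζe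
  have hreplow : ∀ d : ℕ, d ∣ r * M → Rep (cmI (S28.jd Qbar d))
      (fun τ : ℍ => jFunD d (deltaMat r M • τ)) := by
    intro d hd
    have : NeZero d := hne d (hd.trans ⟨r, by ring⟩)
    rw [hlow d hd, ← E6_jBarSeries_eq]
    exact S24.QX.rep_jFunD d
  have hreptop : ∀ d : ℕ, d ∣ M → Rep (cmI (tw ζ (S28.jd Qbar d)))
      (fun τ : ℍ => jFunD (r ^ 2 * d) (deltaMat r M • τ)) := by
    intro d hd
    have : NeZero d := hne d (hd.trans ⟨r ^ 2, by ring⟩)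
    rw [htop d hd, ← E6_jBarSeries_eq,
      show cmI (tw ζ (jBarSeries d)) = _ from ES.Mid.HF1.coeffMap_tw (iota : Qbar →+* ℂ) ζ _]
    exact E6_rep_shift (S24.QX.rep_jFunD d) _ _ hu
  obtain ⟨φ, hφ⟩ := h1 (r ^ 2 * M) (fun τ => deltaMat r M • τ) (MulAction.surjective _) (by
    intro d hd
    rcases E6_dvd_cases hr hd with h | ⟨d', hd', rfl⟩
    · exact ⟨_, hreplow d h⟩
    · exact ⟨_, hreptop d' hd'⟩)
  refine ⟨⟨ζ, φ, hζ, hφ, ?_, ?_⟩⟩
  · intro d y hd hy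
    have hdN : d ∣ r ^ 2 * M := hd.trans ⟨r, by ring⟩
    have : NeZero d := hne d hdN
    rw [E6_eq_qExpHom hdN hy]
    exact S24.QX.cmI_injective ((hφ (jAlg _ d hdN)).unique (hreplow d hd))
  · intro d y hd hy
    have hdN : r ^ 2 * d ∣ r ^ 2 * M := Nat.mul_dvd_mul_left _ hd
    have : NeZero (r ^ 2 * d) := hne _ hdN
    rw [E6_eq_qExpHom hdN hy]
    exact S24.QX.cmI_injective ((hφ (jAlg _ _ hdN)).unique (hreptop d hd))

end Fermat.Agent.S36.Val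

end
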