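import Fermat.Agent.S36.Val.EmbDefs

/-!
# S36 / Val / E3 (helper25): ring homomorphisms out of `FF N` are determined by the constants and
the `j(q^d)`
-/

set_option autoImplicit false

noncomputable section

namespace Fermat.Agent.S36.Val

open UpperHalfPlane CongruenceSubgroup
open scoped MatrixGroups Manifold
open Fermat.Agent
open Fermat.Agent.S24 (Qbar FF funAlg iota jFunD)
open Fermat.Agent.S24.QX (qExpHom cmI Rep)
open Fermat.Agent.ES.Mid (tw gal GQ Growth)
attribute [local instance] Fermat.Agent.S24.algQbarComplex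

/-- `qExpHom N (jAlg N d hd)` is the generator `j(q^d)`. -/
theorem ExtRing_isJ_qExpHom (N : ℕ) [NeZero N] (d : ℕ) (hd : d ∣ N) :
    IsJ (qExpHom N (S24.jAlg N d hd)) d := by
  have hd0 : NeZero d :=
    ⟨fun h0 => NeZero.ne N (by rw [h0] at hd; exact Nat.eq_zero_of_zero_dvd hd)⟩
  rw [S24.QX.qExpHom_jAlg]
  exact INJ.Inst.fricke_coe_jBar N d hd

theorem ExtRing_funAlg (N : ℕ) [NeZero N] (L : Type) [Field L] (f g : FF N →+* L)
    (hc : ∀ c : Qbar, f (algebraMap Qbar (FF N) c) = g (algebraMap Qbar (FF N) c))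
    (hj : ∀ (d : ℕ) (y : FF N), d ∣ N → IsJ y d → f y = g y) (θ : funAlg N) :
    f (qExpHom N θ) = g (qExpHom N θ) := by
  obtain ⟨θ, hθ⟩ := θ
  unfold funAlg at hθ
  induction hθ using Algebra.adjoin_induction with
  | mem x hx =>
    obtain ⟨d, hd, rfl⟩ := hx
    exact hj d _ hd (ExtRing_isJ_qExpHom N d hd)
  | algebraMap c =>
    have h1 : qExpHom N ⟨algebraMap Qbar (ℍ → ℂ) c, Subalgebra.algebraMap_mem _ c⟩
        = algebraMap Qbar (FF N) c := (qExpHom N).commutes c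
    exact (congrArg f h1).trans ((hc c).trans (congrArg g h1).symm)
  | add x y hx hy ihx ihy =>
    have h1 : qExpHom N ⟨x + y, Subalgebra.add_mem _ hx hy⟩
        = qExpHom N ⟨x, hx⟩ + qExpHom N ⟨y, hy⟩ := map_add (qExpHom N) ⟨x, hx⟩ ⟨y, hy⟩
    refine (congrArg f h1).trans (Eq.trans ?_ (congrArg g h1).symm)
    rw [map_add, map_add]
    exact congrArg₂ (· + ·) ihx ihy
  | mul x y hx hy ihx ihy =>
    have h1 : qExpHom N ⟨x * y, Subalgebra.mul_mem _ hx hy⟩
        = qExpHom N ⟨x, hx⟩ * qExpHom N ⟨y, hy⟩ := map_mul (qExpHom N) ⟨x, hx⟩ ⟨y, hy⟩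
    refine (congrArg f h1).trans (Eq.trans ?_ (congrArg g h1).symm)
    rw [map_mul, map_mul]
    exact congrArg₂ (· * ·) ihx ihy

/-- [E3] -/
theorem stmt_ExtRing : Stmt_ExtRing := by
  intro N _ L _ f g hc hj
  ext y
  obtain ⟨a, b, hb, hab⟩ := INJ.Inst.fricke_frac N y
  have hb' : qExpHom N b ≠ 0 := fun h =>
    hb (S24.QX.qExpHom_injective N (h.trans (map_zero _).symm))
  have hfb : f (qExpHom N b) ≠ 0 := fun h => hb' (f.injective (h.trans (map_zero f).symm))
  have h1 : f y * f (qExpHom N b) = g y * f (qExpHom N b) := by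
    rw [← map_mul, hab, ExtRing_funAlg N L f g hc hj a, ExtRing_funAlg N L f g hc hj b, ← hab,
      map_mul]
  exact mul_right_cancel₀ hfb h1

/-- two `ℚ̄`-algebra homomorphisms which agree on the `j(q^d)`, `d ∣ N`, are equal. -/
theorem ext_algHom (N : ℕ) [NeZero N] {L : Type} [Field L] [Algebra Qbar L]
    (f g : FF N →ₐ[Qbar] L) (h : ∀ (d : ℕ) (y : FF N), d ∣ N → IsJ y d → f y = g y) : f = g := by
  have h1 := stmt_ExtRing N L (f : FF N →+* L) (g : FF N →+* L)
    (fun c => (f.commutes c).trans (g.commutes c).symm) h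
  exact AlgHom.ext fun y => congrArg (fun φ : FF N →+* L => φ y) h1

/-- the generators exist. -/
theorem exists_isJ (N : ℕ) [NeZero N] (d : ℕ) (hd : d ∣ N) : ∃ y : FF N, IsJ y d :=
  ⟨⟨S28.jd Qbar d, INJ.Inst.jd_mem_bar (NeZero.ne N) hd⟩, rfl⟩

/-- the generators are unique. -/
theorem IsJ.unique {N : ℕ} {y y' : FF N} {d : ℕ} (h : IsJ y d) (h' : IsJ y' d) : y = y' :=
  Subtype.ext (h.trans h'.symm)

/-- the generators are rational. -/
theorem gal_isJ {N : ℕ} {y : FF N} {d : ℕ} (h : IsJ y d) (σ : GQ) : gal N σ y = y := by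
  apply Subtype.ext
  rw [ES.Mid.coe_gal, h]
  exact INJ.Inst.coeffMap_jd _ d

end Fermat.Agent.S36.Val

end
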