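import Fermat.Agent.S36.Val.Interface2
import Fermat.Agent.S36.Val.ExtRing

/-!
# S36 / Val, task VAL-P1 (helper38): the three embeddings on generators and constants.
-/

set_option autoImplicit false

noncomputable section

namespace Fermat.Agent.S36.Val

open Fermat.Agent
open Fermat.Agent.S24 (Qbar FF)
open Fermat.Agent.S36.Base
open Fermat.Agent.ES.Mid (tw)

/-- the image of the generator `j(q^d)` of `FE A N` is the generator of `FF N`. -/
theorem PhiGen_isJ (A : ValuationSubring Qbar) (N : ℕ) [NeZero N] {d : ℕ} (hd : d ∣ N) :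
    IsJ (emb A N (jE A N d)) d := by
  show ((emb A N (jE A N d) : FF N) : LaurentSeries Qbar) = S28.jd Qbar d
  rw [coe_emb, isJE_jE A N hd, cmE, INJ.Inst.coeffMap_jd]

theorem PhiGen_const (A : ValuationSubring Qbar) (N : ℕ) (c : IE A) :
    ((algebraMap Qbar (FF N) (algebraMap (IE A) Qbar c) : FF N) : LaurentSeries Qbar)
      = algebraMap Qbar (LaurentSeries Qbar) (algebraMap (IE A) Qbar c) := rfl

/-- [P1] -/
theorem stmt_PhiGen : Stmt_PhiGen := by
  intro A
  refine ⟨?_, ?_, ?_, ?_, ?_, ?_, ?_⟩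
  · intro N _ d hd
    exact PhiGen_isJ A N hd
  · intro N _ c
    show ((emb A N (algebraMap (IE A) (FE A N) c) : FF N) : LaurentSeries Qbar) = _
    rw [emb_algebraMap]
    rfl
  · intro Q M _ Wm a b ha hb
    have hd : Q / a * b ∣ Q * M := Nat.mul_dvd_mul (Nat.div_dvd_of_dvd ha) hb
    obtain ⟨y, hy⟩ := exists_isJ (Q * M) (Q / a * b) hd
    show ((Wm.W (emb A (Q * M) (jE A (Q * M) (a * b))) : FF (Q * M)) : LaurentSeries Qbar) = _
    rw [Wm.gen a b _ y ha hb (PhiGen_isJ A (Q * M) (Nat.mul_dvd_mul ha hb)) hy]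
    exact hy
  · intro Q M _ Wm c
    show ((Wm.W (emb A (Q * M) (algebraMap (IE A) (FE A (Q * M)) c)) : FF (Q * M)) :
      LaurentSeries Qbar) = _
    rw [emb_algebraMap, AlgEquiv.commutes]
    rfl
  · intro r M _ D d hd
    have hd' : d ∣ r ^ 2 * M := by
      refine dvd_trans hd ?_
      rw [pow_two, mul_assoc]
      exact Dvd.intro_left r rfl
    exact D.low d _ hd (PhiGen_isJ A (r ^ 2 * M) hd')
  · intro r M _ D d hd
    exact D.top d _ hd (PhiGen_isJ A (r ^ 2 * M) (Nat.mul_dvd_mul_left _ hd))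
  · intro r M _ D c
    show D.φ (emb A (r ^ 2 * M) (algebraMap (IE A) (FE A (r ^ 2 * M)) c)) = _
    rw [emb_algebraMap, AlgHom.commutes]

end Fermat.Agent.S36.Val

end
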