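import Fermat.Agent.ES.Mid.HA2
import Fermat.Agent.ES.Mid.InvRat
import Fermat.Agent.INJ.Inst.Fricke

/-!
# S36 / Val : embeddings of `FF N` into `ℚ̄((q))` by precomposition (architect: helper88)

`IsExpOf N g φ` : `φ y` is the `q`-expansion of `y ∘ g` (`g : ℍ → ℍ`).
Three embeddings of `FF (r^2 * M)` (`r ∤ M`): the inclusion, the inclusion composed with the partial
Atkin-Lehner involution `W_{r^2}` (`ALMap`), and the "middle" embedding `y ↦ y ∘ δ`,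
`δ = [[1,0],[rM,1]]` (`MidData`).  Everything is determined by the values on the generators
`j(q^d) = S28.jd ℚ̄ d`, `d ∣ N`.
-/

set_option autoImplicit false

noncomputable section

namespace Fermat.Agent.S36.Val

open UpperHalfPlane CongruenceSubgroup
open scoped MatrixGroups Manifold
open Fermat.Agent
open Fermat.Agent.S24 (Qbar FF funAlg iota jFunD)
open Fermat.Agent.S24.QX (qExpHom cmI Rep)
open Fermat.Agent.ES.Mid (tw gal GQ Growth)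
attribute [local instance] Fermat.Agent.S24.algQbarComplex

/-- `φ y` is the `q`-expansion of `y ∘ g`. -/
def IsExpOf (N : ℕ) [NeZero N] (g : ℍ → ℍ) (φ : FF N →ₐ[Qbar] LaurentSeries Qbar) : Prop :=
  ∀ θ : funAlg N, Rep (cmI (φ (qExpHom N θ))) (fun τ => (θ : ℍ → ℂ) (g τ))

/-- The inclusion `FF N → ℚ̄((q))`. -/
def incl (N : ℕ) : FF N →ₐ[Qbar] LaurentSeries Qbar :=
  (ModularCurve.modularFunctionFieldBar N).val

/-- `y` is the generator `j(q^d)`. -/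
def IsJ {N : ℕ} (y : FF N) (d : ℕ) : Prop := (y : LaurentSeries Qbar) = S28.jd Qbar d

/-- [E1] existence of the embedding attached to `g`. -/
def Stmt_EmbGen : Prop :=
  ∀ (N : ℕ) [NeZero N] (g : ℍ → ℍ), Function.Surjective g →
    (∀ d : ℕ, d ∣ N → ∃ x : LaurentSeries Qbar, Rep (cmI x) (fun τ => jFunD d (g τ))) →
    ∃ φ : FF N →ₐ[Qbar] LaurentSeries Qbar, IsExpOf N g φ

/-- [E2] transport of function level identities (ratio form). -/
def Stmt_Transport : Prop :=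
  ∀ (N : ℕ) [NeZero N] (g : ℍ → ℍ) (φ : FF N →ₐ[Qbar] LaurentSeries Qbar), IsExpOf N g φ →
    ∀ (y : FF N) (θ₁ θ₂ : funAlg N) (G : ℍ → ℂ) (x : LaurentSeries Qbar), θ₂ ≠ 0 →
      y * qExpHom N θ₂ = qExpHom N θ₁ →
      (∀ τ, G τ * (θ₂ : ℍ → ℂ) (g τ) = (θ₁ : ℍ → ℂ) (g τ)) → Rep (cmI x) G → φ y = x

/-- [E2'] transport, for holomorphic invariant functions (the shape of `Mid.Stmt_InvRat`). -/
def Stmt_TransportInv : Prop :=
  ∀ (N : ℕ) [NeZero N] (g : ℍ → ℍ) (φ : FF N →ₐ[Qbar] LaurentSeries Qbar), IsExpOf N g φ →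
    ∀ (Y : ℍ → ℂ) (y : FF N) (x : LaurentSeries Qbar), MDiff Y →
      (∀ γ ∈ Gamma0 N, ∀ z : ℍ, Y (γ • z) = Y z) → Growth Y →
      Rep (cmI (y : LaurentSeries Qbar)) Y → Rep (cmI x) (fun τ => Y (g τ)) → φ y = x

/-- [E3] ring homomorphisms out of `FF N` are determined by the constants and the `j(q^d)`. -/
def Stmt_ExtRing : Prop :=
  ∀ (N : ℕ) [NeZero N] (L : Type) [Field L] (f g : FF N →+* L),
    (∀ c : Qbar, f (algebraMap Qbar (FF N) c) = g (algebraMap Qbar (FF N) c)) →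
    (∀ (d : ℕ) (y : FF N), d ∣ N → IsJ y d → f y = g y) → f = g

/-! ### the partial Atkin-Lehner involution -/

/-- Bezout data for `W_Q` at level `Q * M`. -/
structure ALData (Q M : ℕ) where
  x : ℤ
  y : ℤ
  z : ℤ
  w : ℤ
  det : (Q : ℤ) * x * w - (M : ℤ) * y * z = 1

/-- `[[x, y], [M z, Q w]] ∈ Γ₀(M)`. -/
def ALData.mat {Q M : ℕ} (D : ALData Q M) : SL(2, ℤ) :=
  ⟨!![D.x, D.y; (M : ℤ) * D.z, (Q : ℤ) * D.w], by
    rw [Matrix.det_fin_two_of]; linarith [D.det]⟩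

/-- `W_Q τ = [[Q x, y], [Q M z, Q w]] τ`. -/
def ALData.fn {Q M : ℕ} (D : ALData Q M) (τ : ℍ) : ℍ :=
  D.mat • ofComplex ((Q : ℂ) * (τ : ℂ))

/-- The partial Atkin-Lehner involution `W_Q` of `FF (Q * M)`. -/
structure ALMap (Q M : ℕ) [NeZero (Q * M)] where
  W : FF (Q * M) ≃ₐ[Qbar] FF (Q * M)
  exp : ∀ D : ALData Q M, IsExpOf (Q * M) D.fn ((incl (Q * M)).comp W.toAlgHom)
  gen : ∀ (a b : ℕ) (x y : FF (Q * M)), a ∣ Q → b ∣ M → IsJ x (a * b) → IsJ y (Q / a * b) → W x = y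
  invol : ∀ x, W (W x) = x
  gal : ∀ (σ : GQ) (x : FF (Q * M)), W (ES.Mid.gal (Q * M) σ x) = ES.Mid.gal (Q * M) σ (W x)

/-- [E4] existence of `W_Q`. -/
def Stmt_AL : Prop :=
  ∀ (Q M : ℕ) [NeZero (Q * M)], Nat.Coprime Q M → Nonempty (ALData Q M) ∧ Nonempty (ALMap Q M)

/-! ### the middle embedding -/

/-- `δ = [[1, 0], [r M, 1]]`. -/
def deltaMat (r M : ℕ) : SL(2, ℤ) :=
  ⟨!![1, 0; ((r * M : ℕ) : ℤ), 1], by rw [Matrix.det_fin_two_of]; ring⟩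

/-- The middle embedding of `FF (r^2 * M)`. -/
structure MidData (r M : ℕ) [NeZero (r ^ 2 * M)] where
  ζ : Qbarˣ
  φ : FF (r ^ 2 * M) →ₐ[Qbar] LaurentSeries Qbar
  prim : IsPrimitiveRoot ζ r
  exp : IsExpOf (r ^ 2 * M) (fun τ => deltaMat r M • τ) φ
  low : ∀ (d : ℕ) (y : FF (r ^ 2 * M)), d ∣ r * M → IsJ y d → φ y = S28.jd Qbar d
  top : ∀ (d : ℕ) (y : FF (r ^ 2 * M)), d ∣ M → IsJ y (r ^ 2 * d) → φ y = tw ζ (S28.jd Qbar d)

/-- [E5] function level: `j(r² d · δτ) = j(d (τ + s/r))` if `s M ≡ 1 mod r`. -/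
def Stmt_DeltaFun : Prop :=
  ∀ (r M d : ℕ) (s k : ℤ), 0 < r → 0 < M → d ∣ M → s * M = 1 + r * k → ∀ τ : ℍ,
    (∀ e : ℕ, e ∣ r * M → jFunD e (deltaMat r M • τ) = jFunD e τ) ∧
    jFunD (r ^ 2 * d) (deltaMat r M • τ) = ES.Mid.HA2.aff 1 ((s : ℝ) / r) (jFunD d) τ

/-- [E6] existence of the middle embedding. -/
def Stmt_Mid : Prop :=
  ∀ (r M : ℕ) [NeZero (r ^ 2 * M)], r.Prime → ¬ r ∣ M → Nonempty (MidData r M)

end Fermat.Agent.S36.Val

end
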