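import Fermat.Agent.S36.Val.Interface
import Fermat.Agent.S36.Base.Interface

/-!
# S36 / Val : interface, part 2 : instantiation at the levels `M`, `r * M`, `r ^ 2 * M` (helper88)
-/

set_option autoImplicit false

noncomputable section

namespace Fermat.Agent.S36.Val

open Fermat.Agent
open Fermat.Agent.S24 (Qbar FF)
open Fermat.Agent.INJ.Inst (kA)
open Fermat.Agent.INJ.Inst.Gauss (IsRatio red rho inc)
open Fermat.Agent.S36.Base
open Fermat.Agent.ES.Mid (tw twProd compress)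
open Fermat.Agent.KL (Chart PolyR cst crd FinOverR)
open Fermat.Agent.CAR (NR.IsUnif)
open ModularCurve (qExpand coeffMap)
open Polynomial

variable (A : ValuationSubring Qbar)

theorem jd_mem_FE {N d : ℕ} (hN : N ≠ 0) (hd : d ∣ N) : S28.jd (IE A) d ∈ FE A N := by
  have h : S28.jd ℚ d ∈ ModularCurve.modularFunctionFieldFull N := INJ.Inst.jd_mem_full ℚ hN hd
  have h2 := ModularCurve.coeffEmb_mem_laurentBaseChange (IE A) h
  rwa [ModularCurve.coeffEmb, INJ.Inst.coeffMap_jd] at h2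

/-- the generator `j(q^d)` of `FE A N` (junk value `0` if `d ∤ N`). -/
def jE (N : ℕ) [NeZero N] (d : ℕ) : FE A N :=
  open Classical in
  if hd : d ∣ N then ⟨S28.jd (IE A) d, jd_mem_FE A (NeZero.ne N) hd⟩ else 0

theorem isJE_jE (N : ℕ) [NeZero N] {d : ℕ} (hd : d ∣ N) : IsJE A (jE A N d) d := by
  rw [jE, dif_pos hd]; rfl

/-- [X1] ring homomorphisms out of `FE A N` are determined by the constants and the `j(q^d)`. -/
def Stmt_ExtRingE : Prop :=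
  ∀ (A : ValuationSubring Qbar) (N : ℕ) [NeZero N] (L : Type) [Field L] (f g : FE A N →+* L),
    (∀ c : IE A, f (algebraMap (IE A) (FE A N) c) = g (algebraMap (IE A) (FE A N) c)) →
    (∀ d : ℕ, d ∣ N → f (jE A N d) = g (jE A N d)) → f = g

/-- [X2] existence of the inclusions and of `q ↦ q ^ r`. -/
def Stmt_LevelMaps : Prop :=
  ∀ (A : ValuationSubring Qbar) (N₁ N₂ : ℕ) [NeZero N₁] [NeZero N₂],
    (N₁ ∣ N₂ → ∃ π : FE A N₁ →+* FE A N₂, IsInclE A π) ∧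
    (∀ (r : ℕ) [NeZero r], r * N₁ ∣ N₂ → ∃ π : FE A N₁ →+* FE A N₂, IsVE A r π)

/-- The context: all the data at the three levels. -/
structure Ctx (r M : ℕ) [NeZero r] [NeZero M] [NeZero (r * M)] [NeZero (r ^ 2 * M)] where
  hr : r.Prime
  hrM : ¬ r ∣ M
  hA : A.LiesOverPrime r
  W1 : ALMap r M
  W2 : ALMap (r ^ 2) M
  D : MidData r M
  hS : MidSat A D
  i01 : FE A M →+* FE A (r * M)
  i12 : FE A (r * M) →+* FE A (r ^ 2 * M)
  v12 : FE A (r * M) →+* FE A (r ^ 2 * M)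
  hi01 : IsInclE A i01
  hi12 : IsInclE A i12
  hv12 : IsVE A r v12

section

variable {A} {r M : ℕ} [NeZero r] [NeZero M] [NeZero (r * M)] [NeZero (r ^ 2 * M)]

/-- the three valuation rings of `FE A (r ^ 2 * M)`. -/
def Ctx.O (C : Ctx A r M) : Fin 3 → ValuationSubring (FE A (r ^ 2 * M)) :=
  ![OA A (r ^ 2 * M), OM A C.D C.hS, OC A C.W2]

/-- `p_mid = j(q^(r²)) - j(q)`. -/
def Ctx.pM (_C : Ctx A r M) : FE A (r ^ 2 * M) := jE A (r ^ 2 * M) (r ^ 2) - jE A (r ^ 2 * M) 1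

/-- the three uniformisers. -/
def Ctx.unif (C : Ctx A r M) : Fin 3 → FE A (r ^ 2 * M) := ![(r : FE A (r ^ 2 * M)), C.pM, r]

/-- the three normalised valuations. -/
def Ctx.ord (C : Ctx A r M) (X : Fin 3) : FE A (r ^ 2 * M) → ℤ := ordOf (C.O X) (C.unif X)

end

/-- [P1] the embeddings on the generators. -/
def Stmt_PhiGen : Prop :=
  ∀ (A : ValuationSubring Qbar),
    (∀ (N : ℕ) [NeZero N] (d : ℕ), d ∣ N → phiA A N (jE A N d) = S28.jd Qbar d) ∧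
    (∀ (N : ℕ) [NeZero N] (c : IE A), phiA A N (algebraMap (IE A) (FE A N) c)
      = algebraMap Qbar (LaurentSeries Qbar) (algebraMap (IE A) Qbar c)) ∧
    (∀ (Q M : ℕ) [NeZero (Q * M)] (Wm : ALMap Q M) (a b : ℕ), a ∣ Q → b ∣ M →
      phiC A Wm (jE A (Q * M) (a * b)) = S28.jd Qbar (Q / a * b)) ∧
    (∀ (Q M : ℕ) [NeZero (Q * M)] (Wm : ALMap Q M) (c : IE A),
      phiC A Wm (algebraMap (IE A) (FE A (Q * M)) c)
        = algebraMap Qbar (LaurentSeries Qbar) (algebraMap (IE A) Qbar c)) ∧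
    (∀ (r M : ℕ) [NeZero (r ^ 2 * M)] (D : MidData r M) (d : ℕ), d ∣ r * M →
      phiM A D (jE A (r ^ 2 * M) d) = S28.jd Qbar d) ∧
    (∀ (r M : ℕ) [NeZero (r ^ 2 * M)] (D : MidData r M) (d : ℕ), d ∣ M →
      phiM A D (jE A (r ^ 2 * M) (r ^ 2 * d)) = tw D.ζ (S28.jd Qbar d)) ∧
    (∀ (r M : ℕ) [NeZero (r ^ 2 * M)] (D : MidData r M) (c : IE A),
      phiM A D (algebraMap (IE A) (FE A (r ^ 2 * M)) c)
        = algebraMap Qbar (LaurentSeries Qbar) (algebraMap (IE A) Qbar c))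

/-- [P2] the embeddings and the level maps. -/
def Stmt_PhiLevel : Prop :=
  ∀ (A : ValuationSubring Qbar) (r M : ℕ) [NeZero r] [NeZero M] [NeZero (r * M)]
    [NeZero (r ^ 2 * M)] (C : Ctx A r M),
    (∀ x, phiA A (r ^ 2 * M) (C.i12 x) = phiA A (r * M) x) ∧
    (∀ x, phiM A C.D (C.i12 x) = phiA A (r * M) x) ∧
    (∀ x, phiC A C.W2 (C.i12 x) = qExpand Qbar r (phiC A C.W1 x)) ∧
    (∀ x, phiA A (r ^ 2 * M) (C.v12 x) = qExpand Qbar r (phiA A (r * M) x)) ∧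
    (∀ x, phiC A C.W2 (C.v12 x) = phiC A C.W1 x) ∧
    (∀ x, phiM A C.D (C.v12 x) = tw C.D.ζ (phiC A C.W1 x)) ∧
    (∀ x, phiA A (r * M) (C.i01 x) = phiA A M x) ∧
    (∀ x, phiC A C.W1 (C.i01 x) = qExpand Qbar r (phiA A M x))

/-- [P3] which valuation ring lies over which. -/
def Stmt_OverAll : Prop :=
  ∀ (A : ValuationSubring Qbar) (r M : ℕ) [NeZero r] [NeZero M] [NeZero (r * M)]
    [NeZero (r ^ 2 * M)] (C : Ctx A r M),
    Over C.i12 (OA A (r * M)) (C.O 0) ∧ Over C.i12 (OA A (r * M)) (C.O 1) ∧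
    Over C.i12 (OC A C.W1) (C.O 2) ∧
    Over C.v12 (OA A (r * M)) (C.O 0) ∧ Over C.v12 (OC A C.W1) (C.O 1) ∧
    Over C.v12 (OC A C.W1) (C.O 2) ∧
    Over C.i01 (OA A M) (OA A (r * M)) ∧ Over C.i01 (OA A M) (OC A C.W1)

/-- [P4] `r` is a uniformiser of the Gauss valuation rings (unramifiedness of `E`). -/
def Stmt_UnifR : Prop :=
  ∀ (A : ValuationSubring Qbar) (r : ℕ), r.Prime → A.LiesOverPrime r →
    (∀ (N : ℕ) [NeZero N], NR.IsUnif (OA A N) (r : FE A N)) ∧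
    (∀ (Q M : ℕ) [NeZero (Q * M)] (Wm : ALMap Q M), NR.IsUnif (OC A Wm) (r : FE A (Q * M)))

/-- [P5] the element `p_mid`. -/
def Stmt_PM : Prop :=
  ∀ (A : ValuationSubring Qbar) (r M : ℕ) [NeZero r] [NeZero M] [NeZero (r * M)]
    [NeZero (r ^ 2 * M)] (C : Ctx A r M),
    C.pM ≠ 0 ∧ (C.O 0).valuation C.pM = 1 ∧ (C.O 2).valuation C.pM = 1 ∧
    (C.O 1).valuation C.pM < 1 ∧
    (C.O 1).valuation (r : FE A (r ^ 2 * M)) ≤ (C.O 1).valuation C.pM ^ (r - 1)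

/-- [P6] residue independence and Frobenius congruences. -/
def Stmt_Indep : Prop :=
  ∀ (A : ValuationSubring Qbar) (r M : ℕ) [NeZero r] [NeZero M] [NeZero (r * M)]
    [NeZero (r ^ 2 * M)] (C : Ctx A r M),
    ResIndep C.i12 (OC A C.W1) (C.O 2) (fun i : Fin r => jE A (r ^ 2 * M) (r ^ 2) ^ (i : ℕ)) ∧
    jE A (r * M) r ∈ OC A C.W1 ∧
    (C.O 2).valuation (jE A (r ^ 2 * M) (r ^ 2) ^ r - C.i12 (jE A (r * M) r)) < 1 ∧
    ResIndep C.v12 (OA A (r * M)) (C.O 0) (fun i : Fin r => jE A (r ^ 2 * M) 1 ^ (i : ℕ)) ∧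
    jE A (r * M) 1 ∈ OA A (r * M) ∧
    (C.O 0).valuation (jE A (r ^ 2 * M) 1 ^ r - C.v12 (jE A (r * M) 1)) < 1 ∧
    ResIndep C.i01 (OA A M) (OC A C.W1) (fun i : Fin r => jE A (r * M) r ^ (i : ℕ)) ∧
    OA A (r * M) ≠ OC A C.W1

/-- [P7a] degrees over `ℚ̄`. -/
def Stmt_DegQ : Prop :=
  ∀ (r N : ℕ) [NeZero N] [NeZero (r * N)], r.Prime →
    ∀ v : Fin ((if r ∣ N then r else r + 1) + 1) → FF (r * N),
      ∃ c : Fin ((if r ∣ N then r else r + 1) + 1) → FF N, c ≠ 0 ∧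
        ∑ i, (c i : LaurentSeries Qbar) * (v i : LaurentSeries Qbar) = 0

/-- [P7] degrees over `E`. -/
def Stmt_DegE : Prop :=
  ∀ (A : ValuationSubring Qbar) (r M : ℕ) [NeZero r] [NeZero M] [NeZero (r * M)]
    [NeZero (r ^ 2 * M)] (C : Ctx A r M),
    DegLE C.i12 r ∧ DegLE C.v12 r ∧ DegLE C.i01 (r + 1)

/-- the compatibility of the level maps with the constants. -/
def Stmt_LevelConst : Prop :=
  ∀ (A : ValuationSubring Qbar) (r M : ℕ) [NeZero r] [NeZero M] [NeZero (r * M)]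
    [NeZero (r ^ 2 * M)] (C : Ctx A r M),
    (∀ a : AE A, C.i12 (algebraMap (AE A) (FE A (r * M)) a)
      = algebraMap (AE A) (FE A (r ^ 2 * M)) a) ∧
    (∀ a : AE A, C.v12 (algebraMap (AE A) (FE A (r * M)) a)
      = algebraMap (AE A) (FE A (r ^ 2 * M)) a) ∧
    (∀ a : AE A, C.i01 (algebraMap (AE A) (FE A M) a) = algebraMap (AE A) (FE A (r * M)) a)

/-- **[M1] first main output**: uniformisers, `ord`, the two degeneracy data, classification. -/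
def Stmt_Main1 : Prop :=
  ∀ (A : ValuationSubring Qbar) (r M : ℕ) [NeZero r] [NeZero M] [NeZero (r * M)]
    [NeZero (r ^ 2 * M)] (C : Ctx A r M),
    (∀ X, NR.IsUnif (C.O X) (C.unif X)) ∧
    (C.ord 0 (r : FE A (r ^ 2 * M)) = 1 ∧ C.ord 1 (r : FE A (r ^ 2 * M)) = (r : ℤ) - 1 ∧
      C.ord 2 (r : FE A (r ^ 2 * M)) = 1) ∧
    (C.ord 0 C.pM = 0 ∧ C.ord 1 C.pM = 1 ∧ C.ord 2 C.pM = 0) ∧
    (∀ X Y, C.O X = C.O Y → X = Y) ∧
    (∀ W' : ValuationSubring (FE A (r ^ 2 * M)), Over (C.i12.comp C.i01) (OA A M) W' →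
      ∃ X, W' = C.O X) ∧
    (∀ X, Over (C.i12.comp C.i01) (OA A M) (C.O X)) ∧
    (∃ D₁ : Degen (AE A) (FE A (r ^ 2 * M)) (FE A (r * M)) (C.ord 0) (C.ord 1) (C.ord 2) r,
      D₁.π = C.i12 ∧ ∀ x, D₁.N x = @Algebra.norm _ _ _ _ C.i12.toAlgebra x) ∧
    (∃ D₂ : Degen (AE A) (FE A (r ^ 2 * M)) (FE A (r * M)) (C.ord 2) (C.ord 1) (C.ord 0) r,
      D₂.π = C.v12 ∧ ∀ x, D₂.N x = @Algebra.norm _ _ _ _ C.v12.toAlgebra x) ∧
    @Module.finrank _ _ _ _ C.i12.toAlgebra.toModule = r ∧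
    @Module.finrank _ _ _ _ C.v12.toAlgebra.toModule = r

/-- the input from good reduction at level `M` (helper5, GRE): the Gauss ring is the only vertical
valuation ring of `FE A M` with respect to the coordinate `t₀`. -/
def GoodCoord (r M : ℕ) [NeZero M] (t₀ : FE A M) : Prop :=
  IsVert (AE A) ((r : ℕ) : AE A) t₀ (OA A M) ∧
    ∀ O : ValuationSubring (FE A M), IsVert (AE A) ((r : ℕ) : AE A) t₀ O → O = OA A M

/-- the fields `cen` of `ZData` on the chart with coordinate `t` (abstract form: never unfold this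
at the concrete types, instance search on `Chart (AE A) t` is too slow). -/
def CenOut (A₀ F : Type) [CommRing A₀] [Field F] [Algebra A₀ F] (ϖ : A₀) (t : F)
    (O : Fin 3 → ValuationSubring F) (ord : Fin 3 → F → ℤ) : Prop :=
  (∀ P ∈ (Ideal.span {cst A₀ t ϖ}).minimalPrimes, ∃ X, IsCenV P (O X) ∧ IsCen P (ord X)) ∧
    ∀ X, ∃ P ∈ (Ideal.span {cst A₀ t ϖ}).minimalPrimes, IsCenV P (O X) ∧ IsCen P (ord X)

/-- [C4] abstract: from the classification of the vertical valuation rings to `CenOut`. -/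
def Stmt_CenFin : Prop :=
  ∀ (A₀ F : Type) [CommRing A₀] [IsDomain A₀] [IsDiscreteValuationRing A₀] [Field F] [CharZero F]
    [Algebra A₀ F] [FaithfulSMul A₀ F] (ϖ : A₀) (t : F) (O : Fin 3 → ValuationSubring F)
    (u : Fin 3 → F), Irreducible ϖ → Transcendental A₀ t → FinOverR (PolyR A₀ t) F →
    (∀ W : ValuationSubring F, IsVert A₀ ϖ t W ↔ ∃ X, W = O X) → (∀ X, NR.IsUnif (O X) (u X)) →
    CenOut A₀ F ϖ t O (fun X => ordOf (O X) (u X)) ∧
      CenOut A₀ F ϖ t⁻¹ O (fun X => ordOf (O X) (u X))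

/-- **[M2] second main output**: the fields `cen₁, cen₁', cen₂` of `ZData`. -/
def Stmt_Main2 : Prop :=
  ∀ (A : ValuationSubring Qbar) (r M : ℕ) [NeZero r] [NeZero M] [NeZero (r * M)]
    [NeZero (r ^ 2 * M)] (C : Ctx A r M) (t₀ : FE A M), GoodCoord A r M t₀ →
    Transcendental (IE A) t₀ →
    (∀ O : ValuationSubring (FE A (r ^ 2 * M)),
      IsVert (AE A) ((r : ℕ) : AE A) (C.i12 (C.i01 t₀)) O ↔ ∃ X, O = C.O X) ∧
    CenOut (AE A) (FE A (r ^ 2 * M)) ((r : ℕ) : AE A) (C.i12 (C.i01 t₀)) C.O C.ord ∧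
    CenOut (AE A) (FE A (r ^ 2 * M)) ((r : ℕ) : AE A) (C.i12 (C.i01 t₀))⁻¹ C.O C.ord

/-- **[M3] the norms are the multiplicative `U_r`** (`frickeEquiv` = full Fricke involution). -/
def Stmt_NormU : Prop :=
  ∀ (A : ValuationSubring Qbar) (r M : ℕ) [NeZero r] [NeZero M] [NeZero (r * M)]
    [NeZero (r ^ 2 * M)] (C : Ctx A r M) (ζ : Qbarˣ), IsPrimitiveRoot ζ r →
    ∀ u : FE A (r ^ 2 * M),
    (phiA A (r * M) (@Algebra.norm _ _ _ _ C.v12.toAlgebra u)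
      = Dict.formalU r ζ (phiA A (r ^ 2 * M) u)) ∧
    (((INJ.Inst.frickeEquiv (r * M) (emb A (r * M) (@Algebra.norm _ _ _ _ C.i12.toAlgebra u)) :
        FF (r * M)) : LaurentSeries Qbar)
      = Dict.formalU r ζ
        ((INJ.Inst.frickeEquiv (r ^ 2 * M) (emb A (r ^ 2 * M) u) : FF (r ^ 2 * M)) :
          LaurentSeries Qbar))

end Fermat.Agent.S36.Val

end
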