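import Fermat.Agent.S36.Val.Interface

/-!
# S36 / Val, [S3] : `j(ζ q) - j(q) = (ζ - 1) h` with `h` primitive, `r / (ζ - 1)^(r-1) ∈ A`
-/

set_option autoImplicit false

noncomputable section

namespace Fermat.Agent.S36.Val

open Fermat.Agent
open Fermat.Agent.S24 (Qbar FF)
open Fermat.Agent.INJ.Inst (kA)
open Fermat.Agent.INJ.Inst.Gauss (IsRatio red rho inc)
open Fermat.Agent.ES.Mid (tw twProd compress)
open ModularCurve (qExpand coeffMap)

theorem JTw_mem_of_pow (A : ValuationSubring Qbar) {m : ℕ} (hm : 0 < m) {z : Qbar}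
    (hz : z ^ m = 1) : z ∈ A := by
  rw [← ValuationSubring.valuation_le_one_iff]
  have h1 : A.valuation z ^ m = 1 := by rw [← map_pow, hz, map_one]
  exact ((pow_eq_one_iff.mp h1).resolve_right hm.ne').le

theorem JTw_div_mem (A : ValuationSubring Qbar) {z : Qbar} (hz : z ∈ A) (hz' : z⁻¹ ∈ A)
    (hz0 : z ≠ 0) (hz1 : z ≠ 1) (n : ℤ) : (z ^ n - 1) / (z - 1) ∈ A := by
  have hnat : ∀ m : ℕ, (z ^ m - 1) / (z - 1) ∈ A := by
    intro m
    rw [← geom_sum_eq hz1 m]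
    exact sum_mem fun i _ => pow_mem hz i
  obtain ⟨m, rfl | rfl⟩ := n.eq_nat_or_neg
  · rw [zpow_natCast]; exact hnat m
  · have : (z ^ (-(m : ℤ)) - 1) / (z - 1) = -(z⁻¹ ^ m * ((z ^ m - 1) / (z - 1))) := by
      rw [zpow_neg, zpow_natCast, inv_pow]
      have h1 : z - 1 ≠ 0 := sub_ne_zero.2 hz1
      have h2 : z ^ m ≠ 0 := pow_ne_zero _ hz0
      field_simp
      ring
    rw [this]
    exact neg_mem (mul_mem (pow_mem hz' m) (hnat m))

/-- the series `∑ (ζ^n - 1)/(ζ - 1) x_n q^n`. -/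
def JTw_h (A : ValuationSubring Qbar) (z : Qbar) (hz : z ∈ A) (hz' : z⁻¹ ∈ A) (hz0 : z ≠ 0)
    (hz1 : z ≠ 1) (x : LaurentSeries A) : LaurentSeries A :=
  HahnSeries.ofSuppBddBelow
    (fun n : ℤ => (⟨(z ^ n - 1) / (z - 1), JTw_div_mem A hz hz' hz0 hz1 n⟩ : A) * x.coeff n) (by
    refine ⟨x.order, fun n hn => HahnSeries.order_le_of_coeff_ne_zero ?_⟩
    intro h0
    apply hn
    show (⟨(z ^ n - 1) / (z - 1), JTw_div_mem A hz hz' hz0 hz1 n⟩ : A) * x.coeff n = 0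
    rw [h0, mul_zero])

theorem JTw_h_coeff (A : ValuationSubring Qbar) (z : Qbar) (hz : z ∈ A) (hz' : z⁻¹ ∈ A)
    (hz0 : z ≠ 0) (hz1 : z ≠ 1) (x : LaurentSeries A) (n : ℤ) :
    (JTw_h A z hz hz' hz0 hz1 x).coeff n
      = (⟨(z ^ n - 1) / (z - 1), JTw_div_mem A hz hz' hz0 hz1 n⟩ : A) * x.coeff n := rfl

/-- the residue characteristic. -/
theorem JTw_charP (A : ValuationSubring Qbar) {r : ℕ} (hr : r.Prime) (hA : A.LiesOverPrime r) :
    CharP (IsLocalRing.ResidueField A) r := by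
  rw [CharP.charP_iff_prime_eq_zero hr]
  have h1 : ((r : A) : Qbar) ∈ A.nonunits := by
    have h0 : (r : Qbar) ∈ A.nonunits := hA
    simpa using h0
  rw [ValuationSubring.coe_mem_nonunits_iff] at h1
  have h2 := (IsLocalRing.residue_eq_zero_iff (r : A)).mpr h1
  simpa using h2

theorem stmt_JTw : Stmt_JTw := by
  intro A r hr hA ζ hζ
  have hζ' : IsPrimitiveRoot (ζ : Qbar) r := by rwa [IsPrimitiveRoot.coe_units_iff]
  have hz1 : (ζ : Qbar) ≠ 1 := hζ'.ne_one hr.one_lt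
  have hzr : (ζ : Qbar) ^ r = 1 := hζ'.pow_eq_one
  have hz : (ζ : Qbar) ∈ A := JTw_mem_of_pow A hr.pos hzr
  have hz' : (ζ : Qbar)⁻¹ ∈ A := JTw_mem_of_pow A hr.pos (by rw [inv_pow, hzr, inv_one])
  have hz0 : (ζ : Qbar) ≠ 0 := ζ.ne_zero
  have hsub : (ζ : Qbar) - 1 ≠ 0 := sub_ne_zero.2 hz1
  refine ⟨⟨JTw_h A ζ hz hz' hz0 hz1 (S28.jd A 1), ?_, ?_⟩, ⟨sub_mem hz A.one_mem, ?_⟩, ?_⟩
  · intro h0
    have h1 := congrArg (fun y => HahnSeries.coeff y (-1)) h0
    simp only [ModularCurve.coeffMap_coeff, JTw_h_coeff, HahnSeries.coeff_zero] at h1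
    have h2 : (S28.jd A 1).coeff (-1) = 1 := by
      have := INJ.Inst.coeff_jd A (N := 1) one_ne_zero
      simpa using this
    rw [h2, mul_one] at h1
    have h3 : (⟨((ζ : Qbar) ^ (-1 : ℤ) - 1) / ((ζ : Qbar) - 1),
        JTw_div_mem A hz hz' hz0 hz1 (-1)⟩ : A) * (-⟨(ζ : Qbar), hz⟩) = 1 := by
      apply Subtype.ext
      show ((ζ : Qbar) ^ (-1 : ℤ) - 1) / ((ζ : Qbar) - 1) * (-(ζ : Qbar)) = 1
      rw [zpow_neg_one]
      field_simp
      ring
    have h4 := congrArg (resA A) h3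
    rw [map_mul, h1, zero_mul, map_one] at h4
    exact zero_ne_one h4
  · ext n
    rw [← INJ.Inst.coeffMap_jd A.subtype 1, ModularCurve.algebraMap_laurentSeries_eq_single,
      HahnSeries.coeff_single_zero_mul]
    simp only [HahnSeries.coeff_sub, ES.Mid.tw_coeff, ModularCurve.coeffMap_coeff,
      JTw_h_coeff, Units.val_zpow_eq_zpow_val, map_mul]
    show (ζ : Qbar) ^ n * _ - _ = ((ζ : Qbar) - 1) * ((((ζ : Qbar) ^ n - 1) / ((ζ : Qbar) - 1)) * _)
    field_simp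
  · intro hinv
    have := JTw_charP A hr hA
    have : Fact r.Prime := ⟨hr⟩
    set z : IsLocalRing.ResidueField A := IsLocalRing.residue A ⟨(ζ : Qbar), hz⟩ with hzdef
    have hzℓ : z ^ r = 1 := by
      rw [hzdef, ← map_pow]
      have : (⟨(ζ : Qbar), hz⟩ : A) ^ r = 1 := Subtype.ext hzr
      rw [this, map_one]
    have h3 : (z - 1) ^ r = 0 := by
      rw [sub_pow_char, hzℓ, one_pow, sub_self]
    have h4 : z - 1 = 0 := pow_eq_zero_iff hr.ne_zero |>.mp h3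
    have h5 : ((⟨(ζ : Qbar), hz⟩ : A) - 1) * ⟨((ζ : Qbar) - 1)⁻¹, hinv⟩ = 1 := by
      apply Subtype.ext
      show ((ζ : Qbar) - 1) * ((ζ : Qbar) - 1)⁻¹ = 1
      exact mul_inv_cancel₀ hsub
    have h6 := congrArg (IsLocalRing.residue A) h5
    rw [map_mul, map_sub, map_one, ← hzdef, h4, zero_mul] at h6
    exact zero_ne_one h6
  · obtain ⟨y, hy, hry⟩ := hζ'.self_sub_one_pow_dvd_order (k := r - 1) (by have := hr.pos; omega)
    have hyA : ∀ y ∈ Algebra.adjoin ℤ {(ζ : Qbar)}, y ∈ A := by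
      intro y hy
      induction hy using Algebra.adjoin_induction with
      | mem x hx => rw [Set.mem_singleton_iff.1 hx]; exact hz
      | algebraMap c => simp
      | add x y _ _ hx hy => exact add_mem hx hy
      | mul x y _ _ hx hy => exact mul_mem hx hy
    rw [hry, mul_div_assoc, div_self (pow_ne_zero _ hsub), mul_one]
    exact hyA y hy

end Fermat.Agent.S36.Val

end
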