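import Fermat.Agent.S36.Val.EmbDefs

/-!
# S36 / Val : [E4] the partial Atkin-Lehner involution `W_Q` of `FF (Q * M)` (helper19)
-/

set_option autoImplicit false

noncomputable section

namespace Fermat.Agent.S36.Val

open UpperHalfPlane CongruenceSubgroup
open scoped MatrixGroups Manifold
open Fermat.Agent
open Fermat.Agent.S24 (Qbar FF funAlg iota jFunD jFun jAlg jBar)
open Fermat.Agent.S24.QX (qExpHom cmI Rep)
open Fermat.Agent.ES.Mid (tw gal GQ Growth)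
attribute [local instance] Fermat.Agent.S24.algQbarComplex

/-! ### (0) Bezout -/

theorem AL_nonempty_data {Q M : ℕ} (h : Nat.Coprime Q M) : Nonempty (ALData Q M) := by
  have h1 := Int.gcd_eq_gcd_ab (Q : ℤ) (M : ℤ)
  have h2 : ((Q : ℤ).gcd (M : ℤ)) = 1 := by
    rw [Int.gcd_natCast_natCast]; exact h
  rw [h2] at h1
  refine ⟨⟨(Q : ℤ).gcdA M, -(Q : ℤ).gcdB M, 1, 1, ?_⟩⟩
  push_cast at h1
  linarith

/-! ### (1) the key identity -/

/-- the auxiliary matrix `[[a x, b y], [b' z, a' w]]`. -/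
def AL_gam {a a' b b' : ℕ} (D : ALData (a * a') (b * b')) : SL(2, ℤ) :=
  ⟨!![(a : ℤ) * D.x, (b : ℤ) * D.y; (b' : ℤ) * D.z, (a' : ℤ) * D.w], by
    rw [Matrix.det_fin_two_of]
    have := D.det
    push_cast at this
    linarith⟩

theorem AL_key_coe {a a' b b' : ℕ} (ha : 0 < a) (ha' : 0 < a') (hb : 0 < b)
    (D : ALData (a * a') (b * b')) (τ : ℍ) :
    ((a * b : ℕ) : ℂ) * ((D.fn τ : ℍ) : ℂ) =
      ((AL_gam D • (ofComplex (((a' * b : ℕ) : ℂ) * (τ : ℂ))) : ℍ) : ℂ) := by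
  rw [ALData.fn, coe_specialLinearGroup_apply, coe_specialLinearGroup_apply,
    S24.QX.coe_ofComplex_natCast_mul (Nat.mul_pos ha ha'),
    S24.QX.coe_ofComplex_natCast_mul (Nat.mul_pos ha' hb)]
  simp only [ALData.mat, AL_gam, Matrix.SpecialLinearGroup.coe_mk, Matrix.of_apply,
    Matrix.cons_val_zero, Matrix.cons_val_one, Matrix.cons_val', Matrix.cons_val_fin_one,
    algebraMap_int_eq, Int.coe_castRingHom]
  push_cast
  have ha0 : (a : ℂ) ≠ 0 := by exact_mod_cast ha.ne'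
  have e1 : (b : ℂ) * (b' : ℂ) * (D.z : ℂ) * ((a : ℂ) * (a' : ℂ) * (τ : ℂ)) +
      (a : ℂ) * (a' : ℂ) * (D.w : ℂ) =
      (a : ℂ) * ((b' : ℂ) * (D.z : ℂ) * ((a' : ℂ) * (b : ℂ) * (τ : ℂ)) + (a' : ℂ) * (D.w : ℂ)) := by
    ring
  have e2 : (a : ℂ) * (b : ℂ) * ((D.x : ℂ) * ((a : ℂ) * (a' : ℂ) * (τ : ℂ)) + (D.y : ℂ)) =
      (a : ℂ) * ((a : ℂ) * (D.x : ℂ) * ((a' : ℂ) * (b : ℂ) * (τ : ℂ)) + (b : ℂ) * (D.y : ℂ)) := by
    ring
  rw [e1, ← mul_div_assoc, e2, mul_div_mul_left _ _ ha0]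

theorem AL_key' {a a' b b' : ℕ} (ha : 0 < a) (ha' : 0 < a') (hb : 0 < b)
    (D : ALData (a * a') (b * b')) (τ : ℍ) :
    jFunD (a * b) (D.fn τ) = jFunD (a' * b) τ := by
  unfold jFunD
  rw [AL_key_coe ha ha' hb, ofComplex_apply, S24.jFun_smul]

theorem AL_key {Q M a b : ℕ} (hQ : 0 < Q) (hM : 0 < M) (ha : a ∣ Q) (hb : b ∣ M)
    (D : ALData Q M) (τ : ℍ) :
    jFunD (a * b) (D.fn τ) = jFunD (Q / a * b) τ := by
  obtain ⟨a', rfl⟩ := ha
  obtain ⟨b', rfl⟩ := hb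
  have ha0 : 0 < a := Nat.pos_of_mul_pos_right hQ
  have ha0' : 0 < a' := Nat.pos_of_mul_pos_left hQ
  have hb0 : 0 < b := Nat.pos_of_mul_pos_right hM
  rw [Nat.mul_div_cancel_left _ ha0]
  exact AL_key' ha0 ha0' hb0 D τ

/-! ### (2) the involution of `funAlg (Q * M)` -/

/-- precomposition with `D.fn`. -/
def AL_pre {Q M : ℕ} (D : ALData Q M) : (ℍ → ℂ) →ₐ[Qbar] (ℍ → ℂ) where
  toFun θ := fun τ => θ (D.fn τ)
  map_one' := rfl
  map_mul' _ _ := rfl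
  map_zero' := rfl
  map_add' _ _ := rfl
  commutes' _ := rfl

theorem AL_pre_apply {Q M : ℕ} (D : ALData Q M) (θ : ℍ → ℂ) (τ : ℍ) :
    AL_pre D θ τ = θ (D.fn τ) := rfl

theorem AL_pre_jFunD {Q M a b : ℕ} (hQ : 0 < Q) (hM : 0 < M) (ha : a ∣ Q) (hb : b ∣ M)
    (D : ALData Q M) : AL_pre D (jFunD (a * b)) = jFunD (Q / a * b) := by
  funext τ
  exact AL_key hQ hM ha hb D τ

theorem AL_dvd {Q M a b : ℕ} (ha : a ∣ Q) (hb : b ∣ M) : Q / a * b ∣ Q * M :=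
  Nat.mul_dvd_mul (Nat.div_dvd_of_dvd ha) hb

theorem AL_pre_mem {Q M : ℕ} (hQ : 0 < Q) (hM : 0 < M) (D : ALData Q M) {θ : ℍ → ℂ}
    (hθ : θ ∈ funAlg (Q * M)) : AL_pre D θ ∈ funAlg (Q * M) := by
  have : funAlg (Q * M) ≤ (funAlg (Q * M)).comap (AL_pre D) := by
    refine Algebra.adjoin_le ?_
    rintro _ ⟨d, hd, rfl⟩
    obtain ⟨a, b, ha, hb, rfl⟩ := Nat.dvd_mul.1 hd
    show AL_pre D (jFunD (a * b)) ∈ funAlg (Q * M)
    rw [AL_pre_jFunD hQ hM ha hb]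
    exact S24.jFunD_mem_funAlg (AL_dvd ha hb)
  exact this hθ

/-- two choices of Bezout data give the same operator on `funAlg (Q * M)`. -/
theorem AL_pre_eq {Q M : ℕ} (hQ : 0 < Q) (hM : 0 < M) (D D' : ALData Q M) {θ : ℍ → ℂ}
    (hθ : θ ∈ funAlg (Q * M)) : AL_pre D θ = AL_pre D' θ := by
  have : funAlg (Q * M) ≤ AlgHom.equalizer (AL_pre D) (AL_pre D') := by
    refine Algebra.adjoin_le ?_
    rintro _ ⟨d, hd, rfl⟩
    obtain ⟨a, b, ha, hb, rfl⟩ := Nat.dvd_mul.1 hd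
    show AL_pre D (jFunD (a * b)) = AL_pre D' (jFunD (a * b))
    rw [AL_pre_jFunD hQ hM ha hb, AL_pre_jFunD hQ hM ha hb]
  exact this hθ

theorem AL_pre_pre {Q M : ℕ} (hQ : 0 < Q) (hM : 0 < M) (D : ALData Q M) {θ : ℍ → ℂ}
    (hθ : θ ∈ funAlg (Q * M)) : AL_pre D (AL_pre D θ) = θ := by
  have : funAlg (Q * M) ≤ AlgHom.equalizer ((AL_pre D).comp (AL_pre D)) (AlgHom.id Qbar _) := by
    refine Algebra.adjoin_le ?_
    rintro _ ⟨d, hd, rfl⟩
    obtain ⟨a, b, ha, hb, rfl⟩ := Nat.dvd_mul.1 hd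
    show AL_pre D (AL_pre D (jFunD (a * b))) = jFunD (a * b)
    rw [AL_pre_jFunD hQ hM ha hb, AL_pre_jFunD hQ hM (Nat.div_dvd_of_dvd ha) hb,
      Nat.div_div_self ha hQ.ne']
  exact this hθ

theorem AL_posQ (Q M : ℕ) [NeZero (Q * M)] : 0 < Q :=
  Nat.pos_of_mul_pos_right (NeZero.pos (Q * M))

theorem AL_posM (Q M : ℕ) [NeZero (Q * M)] : 0 < M :=
  Nat.pos_of_mul_pos_left (NeZero.pos (Q * M))

section

variable {Q M : ℕ} [NeZero (Q * M)]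

/-- The involution of `funAlg (Q * M)`. -/
def AL_alg (D : ALData Q M) : funAlg (Q * M) →ₐ[Qbar] funAlg (Q * M) :=
  ((AL_pre D).comp (funAlg (Q * M)).val).codRestrict (funAlg (Q * M))
    (fun θ => AL_pre_mem (AL_posQ Q M) (AL_posM Q M) D θ.2)

theorem AL_alg_coe (D : ALData Q M) (θ : funAlg (Q * M)) :
    ((AL_alg D θ : funAlg (Q * M)) : ℍ → ℂ) = AL_pre D (θ : ℍ → ℂ) := rfl

theorem AL_alg_alg (D : ALData Q M) (θ : funAlg (Q * M)) : AL_alg D (AL_alg D θ) = θ := by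
  apply Subtype.ext
  rw [AL_alg_coe, AL_alg_coe, AL_pre_pre (AL_posQ Q M) (AL_posM Q M) D θ.2]

theorem AL_alg_injective (D : ALData Q M) : Function.Injective (AL_alg D) :=
  Function.LeftInverse.injective (AL_alg_alg D)

theorem AL_alg_jAlg (D : ALData Q M) {a b : ℕ} (ha : a ∣ Q) (hb : b ∣ M) :
    AL_alg D (jAlg (Q * M) (a * b) (Nat.mul_dvd_mul ha hb)) =
      jAlg (Q * M) (Q / a * b) (AL_dvd ha hb) :=
  Subtype.ext (AL_pre_jFunD (AL_posQ Q M) (AL_posM Q M) ha hb D)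

/-- `W_Q` as a homomorphism. -/
def AL_hom (D : ALData Q M) : FF (Q * M) →ₐ[Qbar] FF (Q * M) :=
  S24.liftHom (qExpHom (Q * M)) (S24.QX.qExpHom_injective (Q * M))
    (INJ.Inst.fricke_frac (Q * M)) ((qExpHom (Q * M)).comp (AL_alg D))
    ((S24.QX.qExpHom_injective (Q * M)).comp (AL_alg_injective D))

theorem AL_hom_qExpHom (D : ALData Q M) (θ : funAlg (Q * M)) :
    AL_hom D (qExpHom (Q * M) θ) = qExpHom (Q * M) (AL_alg D θ) :=
  S24.liftHom_apply _ _ _ _ _ θ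

theorem AL_hom_comp_self (D : ALData Q M) :
    (AL_hom D).comp (AL_hom D) = AlgHom.id Qbar (FF (Q * M)) := by
  refine S24.algHom_ext_of_frac (qExpHom (Q * M)) (S24.QX.qExpHom_injective (Q * M))
    (INJ.Inst.fricke_frac (Q * M)) _ _ ?_
  intro θ
  rw [AlgHom.comp_apply, AL_hom_qExpHom, AL_hom_qExpHom, AL_alg_alg]
  rfl

/-- `W_Q`. -/
def AL_equiv (D : ALData Q M) : FF (Q * M) ≃ₐ[Qbar] FF (Q * M) :=
  AlgEquiv.ofAlgHom (AL_hom D) (AL_hom D) (AL_hom_comp_self D) (AL_hom_comp_self D)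

theorem AL_equiv_apply (D : ALData Q M) (x : FF (Q * M)) : AL_equiv D x = AL_hom D x := rfl

theorem AL_isJ_iff {N d : ℕ} [NeZero d] (hd : d ∣ N) (x : FF N) : IsJ x d ↔ x = jBar N d hd := by
  constructor
  · intro hx
    exact Subtype.ext (by rw [hx, INJ.Inst.fricke_coe_jBar])
  · rintro rfl
    exact INJ.Inst.fricke_coe_jBar N d hd

theorem AL_gen (D : ALData Q M) (a b : ℕ) (x y : FF (Q * M)) (ha : a ∣ Q) (hb : b ∣ M)
    (hx : IsJ x (a * b)) (hy : IsJ y (Q / a * b)) : AL_equiv D x = y := by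
  have hne : ∀ {d : ℕ}, d ∣ Q * M → NeZero d := fun {d} hd =>
    ⟨fun h0 => NeZero.ne (Q * M) (by rw [h0] at hd; exact Nat.eq_zero_of_zero_dvd hd)⟩
  have h1 : NeZero (a * b) := hne (Nat.mul_dvd_mul ha hb)
  have h2 : NeZero (Q / a * b) := hne (AL_dvd ha hb)
  rw [(AL_isJ_iff (Nat.mul_dvd_mul ha hb) x).1 hx, (AL_isJ_iff (AL_dvd ha hb) y).1 hy,
    AL_equiv_apply, ← S24.QX.qExpHom_jAlg, AL_hom_qExpHom, AL_alg_jAlg D ha hb,
    S24.QX.qExpHom_jAlg]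

theorem AL_exp (D D' : ALData Q M) :
    IsExpOf (Q * M) D'.fn ((incl (Q * M)).comp (AL_equiv D).toAlgHom) := by
  intro θ
  have h1 : ((incl (Q * M)).comp (AL_equiv D).toAlgHom) (qExpHom (Q * M) θ) =
      S24.QX.qExpFun (Q * M) (AL_alg D θ) := by
    show ((AL_hom D (qExpHom (Q * M) θ) : FF (Q * M)) : LaurentSeries Qbar) = _
    rw [AL_hom_qExpHom]
    rfl
  rw [h1]
  have h2 := S24.QX.qExpFun_rep (Q * M) (AL_alg D θ)
  rw [AL_alg_coe, AL_pre_eq (AL_posQ Q M) (AL_posM Q M) D D' θ.2] at h2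
  exact h2

theorem AL_gal_const (N : ℕ) (σ : GQ) (c : Qbar) :
    ES.Mid.gal N σ (algebraMap Qbar (FF N) c) = algebraMap Qbar (FF N) (σ c) := by
  apply Subtype.ext
  rw [ES.Mid.coe_gal]
  show ModularCurve.coeffMap (σ : Qbar →+* Qbar) (algebraMap Qbar (LaurentSeries Qbar) c) =
    algebraMap Qbar (LaurentSeries Qbar) (σ c)
  rw [ModularCurve.algebraMap_laurentSeries_eq_single,
    ModularCurve.algebraMap_laurentSeries_eq_single, ModularCurve.coeffMap_single]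
  rfl

theorem AL_gal_isJ {N d : ℕ} (σ : GQ) {y : FF N} (hy : IsJ y d) : ES.Mid.gal N σ y = y := by
  apply Subtype.ext
  rw [ES.Mid.coe_gal, hy, S28.BC.coeffMap_jd]

theorem AL_gal (hExt : Stmt_ExtRing) (D : ALData Q M) (σ : GQ) (x : FF (Q * M)) :
    AL_equiv D (ES.Mid.gal (Q * M) σ x) = ES.Mid.gal (Q * M) σ (AL_equiv D x) := by
  have key := hExt (Q * M) (FF (Q * M))
    (((AL_equiv D : FF (Q * M) ≃ₐ[Qbar] FF (Q * M)) : FF (Q * M) →+* FF (Q * M)).comp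
      (ES.Mid.gal (Q * M) σ : FF (Q * M) →+* FF (Q * M)))
    ((ES.Mid.gal (Q * M) σ : FF (Q * M) →+* FF (Q * M)).comp
      ((AL_equiv D : FF (Q * M) ≃ₐ[Qbar] FF (Q * M)) : FF (Q * M) →+* FF (Q * M)))
    (by
      intro c
      show AL_equiv D (ES.Mid.gal (Q * M) σ (algebraMap Qbar _ c)) =
        ES.Mid.gal (Q * M) σ (AL_equiv D (algebraMap Qbar _ c))
      rw [AL_gal_const, AlgEquiv.commutes, AlgEquiv.commutes, AL_gal_const])
    (by
      intro d y hd hy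
      show AL_equiv D (ES.Mid.gal (Q * M) σ y) = ES.Mid.gal (Q * M) σ (AL_equiv D y)
      obtain ⟨a, b, ha, hb, rfl⟩ := Nat.dvd_mul.1 hd
      have h2 : NeZero (Q / a * b) :=
        ⟨fun h0 => NeZero.ne (Q * M) (by
          have := AL_dvd (Q := Q) (M := M) ha hb
          rw [h0] at this; exact Nat.eq_zero_of_zero_dvd this)⟩
      have hJ : IsJ (jBar (Q * M) (Q / a * b) (AL_dvd ha hb)) (Q / a * b) :=
        (AL_isJ_iff (AL_dvd ha hb) _).2 rfl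
      rw [AL_gal_isJ σ hy, AL_gen D a b y _ ha hb hy hJ, AL_gal_isJ σ hJ])
  exact RingHom.congr_fun key x

end

theorem stmt_AL (hExt : Stmt_ExtRing) : Stmt_AL := by
  intro Q M _ h
  obtain ⟨D⟩ := AL_nonempty_data h
  refine ⟨⟨D⟩, ⟨⟨AL_equiv D, fun D' => AL_exp D D', ?_, ?_, ?_⟩⟩⟩
  · intro a b x y ha hb hx hy
    exact AL_gen D a b x y ha hb hx hy
  · intro x
    exact AlgHom.congr_fun (AL_hom_comp_self D) x
  · intro σ x
    exact AL_gal hExt D σ x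

end Fermat.Agent.S36.Val

end
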