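import Fermat.Agent.S36.Val.Interface
import Fermat.Agent.S36.AtAPI
import Fermat.Agent.S36.LPB
import Fermat.Agent.KL.PolyRing
import Fermat.Agent.KL.PolyRing4
import Fermat.Agent.KL.SmallG
import Fermat.Agent.KL.DiscrUnit
import Fermat.Agent.KL.HtOne

/-!
# S36 / Val, task C1 : minimal primes over `ϖ` of a chart `↔` vertical valuation rings
-/

set_option autoImplicit false

namespace Fermat.Agent.S36.Val

open Fermat.Agent Fermat.Agent.KL Polynomial

/-! ### valuation subrings -/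

section ValSub

variable {F : Type*} [Field F] (O : ValuationSubring F)

theorem C1_val_eq_one_iff (z : F) : O.valuation z = 1 ↔ z ∈ O ∧ z⁻¹ ∈ O ∧ z ≠ 0 := by
  constructor
  · intro h
    refine ⟨(O.valuation_le_one_iff z).1 h.le, (O.valuation_le_one_iff _).1 ?_, ?_⟩
    · rw [map_inv₀, h, inv_one]
    · rintro rfl
      rw [map_zero] at h
      exact zero_ne_one h
  · rintro ⟨h1, h2, h3⟩
    have h1' := (O.valuation_le_one_iff z).2 h1
    have h2' := (O.valuation_le_one_iff _).2 h2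
    rw [map_inv₀] at h2'
    have hv : O.valuation z ≠ 0 := (O.valuation.ne_zero_iff).2 h3
    exact le_antisymm h1' ((inv_le_one₀ (zero_lt_iff.2 hv)).1 h2')

theorem C1_val_lt_one_iff (z : F) : O.valuation z < 1 ↔ z ∈ O ∧ ¬ O.valuation z = 1 := by
  rw [← O.valuation_le_one_iff, lt_iff_le_and_ne]

end ValSub

/-! ### `IntAt`, `PosAt`, `UnitAt` -/

section At

variable {B F : Type*} [CommRing B] [IsDomain B] [Field F] [Algebra B F] [IsFractionRing B F]

theorem C1_posAt_iff {P : Ideal B} [P.IsPrime] (z : F) : PosAt P z ↔ IntAt P z ∧ ¬ UnitAt P z :=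
  ⟨fun h => ⟨h.intAt, fun h' => h'.not_posAt h⟩, fun h => by
    by_contra h'
    exact h.2 (h.1.unitAt_of_not_posAt h')⟩

/-- it is enough to compare the rings. -/
theorem C1_isCenV_of_intAt_iff {P : Ideal B} [P.IsPrime] (O : ValuationSubring F)
    (h : ∀ z, IntAt P z ↔ z ∈ O) : IsCenV P O := by
  intro z
  have hu : UnitAt P z ↔ O.valuation z = 1 := by
    rw [unitAt_iff, C1_val_eq_one_iff, h, h]
  exact ⟨by rw [C1_posAt_iff, C1_val_lt_one_iff, h, hu], hu, h z⟩

/-- the local ring at `P`, if it is a valuation ring. -/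
def C1_O (P : Ideal B) [P.IsPrime] (h : ∀ z : F, IntAt P z ∨ IntAt P z⁻¹) : ValuationSubring F where
  carrier := {z | IntAt P z}
  mul_mem' := fun ha hb => IntAt.mul ha hb
  one_mem' := intAt_one
  add_mem' := fun ha hb => IntAt.add ha hb
  zero_mem' := intAt_zero
  neg_mem' := fun ha => IntAt.neg ha
  mem_or_inv_mem' := h

end At

/-- the local ring at a height one prime of a noetherian normal domain is a valuation ring. -/
theorem C1_intAt_or {B F : Type} [CommRing B] [IsDomain B] [IsNoetherianRing B]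
    [IsIntegrallyClosed B] [Field F] [Algebra B F] [IsFractionRing B F] (P : Ideal B) [P.IsPrime]
    (hP : IsHtOne P) (z : F) : IntAt P z ∨ IntAt P z⁻¹ := by
  have := stmt_dvrAtHtOne B P hP
  obtain ⟨a, b, hb, rfl⟩ := IsFractionRing.div_surjective (A := B) z
  have hb0 : algebraMap B F b ≠ 0 := by
    intro h
    exact nonZeroDivisors.ne_zero hb (IsFractionRing.injective B F (by rw [h, map_zero]))
  rcases ValuationRing.dvd_total (algebraMap B (Localization.AtPrime P) a)
    (algebraMap B (Localization.AtPrime P) b) with h | h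
  · obtain ⟨s, hs, x, hx⟩ := (LPB.map_dvd_map_iff (Localization.AtPrime P) P a b).1 h
    right
    by_cases ha : algebraMap B F a = 0
    · rw [ha, zero_div, inv_zero]
      exact intAt_zero
    refine ⟨s, hs, x, ?_⟩
    have h1 := congrArg (algebraMap B F) hx
    rw [map_mul, map_mul] at h1
    rw [inv_div, mul_div_assoc', h1, mul_div_cancel_left₀ _ ha]
  · obtain ⟨s, hs, x, hx⟩ := (LPB.map_dvd_map_iff (Localization.AtPrime P) P b a).1 h
    left
    refine ⟨s, hs, x, ?_⟩
    have h1 := congrArg (algebraMap B F) hx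
    rw [map_mul, map_mul] at h1
    rw [mul_div_assoc', h1, mul_div_cancel_left₀ _ hb0]

/-! ### the abstract chart -/

section Abs

variable {A₀ P F : Type} [CommRing A₀] [IsDomain A₀] [IsDiscreteValuationRing A₀]
  [CommRing P] [Algebra A₀ P] [Field F] [CharZero F] [Algebra P F] [FaithfulSMul P F]
  [Algebra A₀ F] [IsScalarTower A₀ P F]

omit [IsDomain A₀] [IsDiscreteValuationRing A₀] in
/-- `ϖ ∣ p(x)` in `P` iff `ϖ` divides all the coefficients of `p`. -/
theorem C1_dvd_aeval_iff {x : P} (hx : IsPolyVar A₀ x) (ϖ : A₀) (p : A₀[X]) :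
    algebraMap A₀ P ϖ ∣ aeval x p ↔ ∀ i, ϖ ∣ p.coeff i := by
  rw [← Polynomial.C_dvd_iff_dvd_coeff]
  constructor
  · rintro ⟨y, hy⟩
    obtain ⟨q, rfl⟩ := hx.2 y
    refine ⟨q, hx.1 ?_⟩
    rw [hy, map_mul, aeval_C]
  · rintro ⟨q, rfl⟩
    rw [map_mul, aeval_C]
    exact dvd_mul_right _ _

theorem C1_part1 (ϖ : A₀) (x : P) (hϖ : Irreducible ϖ) (hx : IsPolyVar A₀ x) (hfin : FinOverR P F)
    (𝔓 : Ideal (integralClosure P F))
    (h𝔓 : 𝔓 ∈ (Ideal.span
      {algebraMap P (integralClosure P F) (algebraMap A₀ P ϖ)}).minimalPrimes) :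
    ∃ O : ValuationSubring F, IsVert A₀ ϖ (algebraMap P F x) O ∧ IsCenV 𝔓 O := by
  obtain ⟨hfinB, hnoeth, hdom, hic, hfrac, hfaith, hint⟩ :=
    stmt_chartBasic A₀ P F (integralClosure P F) x hx hfin
  obtain ⟨hdP, hnP, hufd, hicP, hinjP, hpr⟩ := stmt_polyRing A₀ P x hx
  have hufd' : UniqueFactorizationMonoid P := hufd
  have hπ := hpr ϖ hϖ
  have hprime : 𝔓.IsPrime := h𝔓.1.1
  have hmem : algebraMap P (integralClosure P F) (algebraMap A₀ P ϖ) ∈ 𝔓 :=
    h𝔓.1.2 (Ideal.subset_span rfl)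
  have hG5 : ∀ h : P, ¬ algebraMap A₀ P ϖ ∣ h → algebraMap P (integralClosure P F) h ∉ 𝔓 :=
    fun h hh => stmt_notMemMinimalPrimes P F _ h hπ hh 𝔓 h𝔓
  have hunder : 𝔓.under P = Ideal.span {algebraMap A₀ P ϖ} := by
    apply le_antisymm
    · intro h hh
      rw [Ideal.mem_span_singleton]
      by_contra hnd
      exact hG5 h hnd hh
    · rw [Ideal.span_singleton_le_iff_mem]
      exact hmem
  have hht : IsHtOne 𝔓 := stmt_htOneOfLiesOver P (integralClosure P F) _ hπ 𝔓 hprime hunder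
  let O : ValuationSubring F := C1_O 𝔓 (C1_intAt_or 𝔓 hht)
  have hcen : IsCenV 𝔓 O := C1_isCenV_of_intAt_iff O (fun z => Iff.rfl)
  refine ⟨O, ⟨?_, ?_, ?_, ?_⟩, hcen⟩
  · intro a
    rw [IsScalarTower.algebraMap_apply A₀ P F,
      IsScalarTower.algebraMap_apply P (integralClosure P F) F]
    exact intAt_algebraMap (P := 𝔓) _
  · rw [IsScalarTower.algebraMap_apply P (integralClosure P F) F]
    exact intAt_algebraMap (P := 𝔓) _
  · rw [← (hcen _).1, IsScalarTower.algebraMap_apply A₀ P F,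
      IsScalarTower.algebraMap_apply P (integralClosure P F) F]
    exact posAt_algebraMap hmem
  · rintro p ⟨i, hi⟩
    rw [← (hcen _).2.1, aeval_algebraMap_apply,
      IsScalarTower.algebraMap_apply P (integralClosure P F) F]
    apply unitAt_algebraMap
    apply hG5
    rw [C1_dvd_aeval_iff hx]
    exact fun h => hi (h i)

theorem C1_part2 (ϖ : A₀) (x : P) (hϖ : Irreducible ϖ) (hx : IsPolyVar A₀ x) (hfin : FinOverR P F)
    (O : ValuationSubring F) (hO : IsVert A₀ ϖ (algebraMap P F x) O) :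
    ∃ 𝔓 ∈ (Ideal.span {algebraMap P (integralClosure P F) (algebraMap A₀ P ϖ)}).minimalPrimes,
      IsCenV 𝔓 O := by
  obtain ⟨hfinB, hnoeth, hdom, hic, hfrac, hfaith, hint⟩ :=
    stmt_chartBasic A₀ P F (integralClosure P F) x hx hfin
  obtain ⟨hdP, hnP, hufd, hicP, hinjP, hpr⟩ := stmt_polyRing A₀ P x hx
  have hufd' : UniqueFactorizationMonoid P := hufd
  have hπ := hpr ϖ hϖ
  obtain ⟨hO1, hO2, hO3, hO4⟩ := hO
  -- `P ≤ O`
  have hPO : ∀ h : P, algebraMap P F h ∈ O := by
    intro h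
    obtain ⟨p, rfl⟩ := hx.2 h
    rw [← aeval_algebraMap_apply, aeval_eq_sum_range]
    refine sum_mem fun i _ => ?_
    rw [Algebra.smul_def]
    exact mul_mem (hO1 _) (pow_mem hO2 _)
  -- `B ≤ O`
  let φ : P →+* O := (algebraMap P F).codRestrict O.toSubring hPO
  have hBO : ∀ b : integralClosure P F, algebraMap (integralClosure P F) F b ∈ O := by
    intro b
    have hb : IsIntegral P (algebraMap (integralClosure P F) F b) := b.2
    obtain ⟨p, hp, hp0⟩ := hb
    have h1 : IsIntegral O (algebraMap (integralClosure P F) F b) := by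
      refine ⟨p.map φ, hp.map φ, ?_⟩
      rw [eval₂_map]
      exact hp0
    obtain ⟨y, hy⟩ := IsIntegrallyClosed.isIntegral_iff.1 h1
    rw [← hy]
    exact y.2
  let ψ : integralClosure P F →+* O :=
    (algebraMap (integralClosure P F) F).codRestrict O.toSubring hBO
  let 𝔓 : Ideal (integralClosure P F) := (IsLocalRing.maximalIdeal O).comap ψ
  have hprime : 𝔓.IsPrime := Ideal.comap_isPrime ψ _
  have hmem𝔓 : ∀ b, b ∈ 𝔓 ↔ O.valuation (algebraMap (integralClosure P F) F b) < 1 :=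
    fun b => O.valuation_lt_one_iff (ψ b)
  have hπB : algebraMap P (integralClosure P F) (algebraMap A₀ P ϖ) ∈ 𝔓 := by
    rw [hmem𝔓, ← IsScalarTower.algebraMap_apply, ← IsScalarTower.algebraMap_apply]
    exact hO3
  have hunder : 𝔓.under P = Ideal.span {algebraMap A₀ P ϖ} := by
    apply le_antisymm
    · intro h hh
      have hh' : O.valuation (algebraMap P F h) < 1 := by
        have := (hmem𝔓 _).1 hh
        rwa [← IsScalarTower.algebraMap_apply] at this
      obtain ⟨p, rfl⟩ := hx.2 h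
      rw [Ideal.mem_span_singleton, C1_dvd_aeval_iff hx]
      by_contra hnd
      push Not at hnd
      have := hO4 p hnd
      rw [aeval_algebraMap_apply] at this
      exact hh'.ne this
    · rw [Ideal.span_singleton_le_iff_mem]
      exact hπB
  have hht : IsHtOne 𝔓 := stmt_htOneOfLiesOver P (integralClosure P F) _ hπ 𝔓 hprime hunder
  have hπ0 : algebraMap P (integralClosure P F) (algebraMap A₀ P ϖ) ≠ 0 := by
    rw [Ne, FaithfulSMul.algebraMap_eq_zero_iff]
    exact hπ.ne_zero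
  have hmin : 𝔓 ∈ (Ideal.span
      {algebraMap P (integralClosure P F) (algebraMap A₀ P ϖ)}).minimalPrimes := by
    refine ⟨⟨hprime, (Ideal.span_singleton_le_iff_mem _).2 hπB⟩, ?_⟩
    rintro Q ⟨hQ, hQle⟩ hQ𝔓
    rcases hht.2.2 Q hQ hQ𝔓 with h | h
    · exfalso
      apply hπ0
      have := hQle (Ideal.subset_span rfl)
      rw [h] at this
      exact this
    · exact h.ge
  have hs1 : ∀ s, s ∉ 𝔓 → O.valuation (algebraMap (integralClosure P F) F s) = 1 := by
    intro s hs
    have h1 := (O.valuation_le_one_iff _).2 (hBO s)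
    have h2 : ¬ O.valuation (algebraMap (integralClosure P F) F s) < 1 :=
      fun h => hs ((hmem𝔓 s).2 h)
    exact le_antisymm h1 (not_lt.1 h2)
  refine ⟨𝔓, hmin, C1_isCenV_of_intAt_iff O fun z => ⟨?_, ?_⟩⟩
  · rintro ⟨s, hs, p, e⟩
    rw [← O.valuation_le_one_iff]
    have h3 := congrArg O.valuation e
    rw [map_mul, hs1 s hs, one_mul] at h3
    rw [h3]
    exact (O.valuation_le_one_iff _).2 (hBO p)
  · intro hz
    rcases C1_intAt_or 𝔓 hht z with h | h
    · exact h
    · by_cases hu : UnitAt 𝔓 z⁻¹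
      · have := hu.inv
        rw [inv_inv] at this
        exact this.intAt
      · obtain ⟨s, hs, p, hp, e⟩ := (C1_posAt_iff _).2 ⟨h, hu⟩
        have h3 := congrArg O.valuation e
        rw [map_mul, hs1 s hs, one_mul] at h3
        have h4 : O.valuation z⁻¹ < 1 := h3 ▸ (hmem𝔓 p).1 hp
        by_cases hz0 : z = 0
        · rw [hz0]
          exact intAt_zero
        · exfalso
          have h5 := (O.valuation_le_one_iff z).2 hz
          rw [map_inv₀] at h4
          have hv : O.valuation z ≠ 0 := (O.valuation.ne_zero_iff).2 hz0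
          exact absurd h4 (not_lt.2 ((one_le_inv₀ (zero_lt_iff.2 hv)).2 h5))

end Abs

theorem stmt_CenAbs : Stmt_CenAbs := by
  intro A₀ F _ _ _ _ _ _ _ ϖ t hϖ ht hfin
  obtain ⟨hx, -, -⟩ := stmt_polyRConcrete A₀ F t ht
  exact ⟨fun 𝔓 h𝔓 => C1_part1 ϖ (polyX A₀ t) hϖ hx hfin 𝔓 h𝔓,
    fun O hO => C1_part2 ϖ (polyX A₀ t) hϖ hx hfin O hO⟩

end Fermat.Agent.S36.Val
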