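import Fermat.Agent.S36.Val.Interface2

/-!
# S36 / Val : task VAL-C4.  Classification of the vertical valuation rings ⟹ `CenOut` on both charts
-/

set_option autoImplicit false

noncomputable section

namespace Fermat.Agent.S36.Val

open Fermat.Agent Fermat.Agent.CAR
open Fermat.Agent.KL (Chart PolyR cst crd FinOverR)

/-- `IsCenV` gives `IsCen` for the order function of a uniformiser. -/
theorem C4_isCen (hO : Stmt_OrdOf) {B F : Type} [CommRing B] [Field F] [Algebra B F] {P : Ideal B}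
    {W : ValuationSubring F} {u : F} (hu : NR.IsUnif W u) (h : IsCenV P W) :
    IsCen P (ordOf W u) := by
  obtain ⟨-, -, -, hp, hun, -⟩ := hO F W u hu
  intro z
  exact ⟨(h z).1.trans (hp z).symm, (h z).2.1.trans (hun z).symm⟩

/-- one chart. -/
theorem C4_chart (hC : Stmt_CenAbs) (hO : Stmt_OrdOf) {A₀ F : Type} [CommRing A₀] [IsDomain A₀]
    [IsDiscreteValuationRing A₀] [Field F] [CharZero F] [Algebra A₀ F] [FaithfulSMul A₀ F] (ϖ : A₀)
    (t : F) (O : Fin 3 → ValuationSubring F) (u : Fin 3 → F) (hϖ : Irreducible ϖ)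
    (ht : Transcendental A₀ t) (hF : FinOverR (PolyR A₀ t) F)
    (hcl : ∀ W : ValuationSubring F, IsVert A₀ ϖ t W ↔ ∃ X, W = O X)
    (hu : ∀ X, NR.IsUnif (O X) (u X)) :
    CenOut A₀ F ϖ t O (fun X => ordOf (O X) (u X)) := by
  obtain ⟨h1, h2⟩ := hC A₀ F ϖ t hϖ ht hF
  refine ⟨fun P hP => ?_, fun X => ?_⟩
  · obtain ⟨W, hW, hc⟩ := h1 P hP
    obtain ⟨X, rfl⟩ := (hcl W).1 hW
    exact ⟨X, hc, C4_isCen hO (hu X) hc⟩
  · obtain ⟨P, hP, hc⟩ := h2 (O X) ((hcl _).2 ⟨X, rfl⟩)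
    exact ⟨P, hP, hc, C4_isCen hO (hu X) hc⟩

/-- [C4] -/
theorem stmt_CenFin (hC : Stmt_CenAbs) (hV : Stmt_VertInv) (hO : Stmt_OrdOf)
    (hPR : KL.Stmt_polyRConcrete) : Stmt_CenFin := by
  intro A₀ F _ _ _ _ _ _ _ ϖ t O u hϖ ht hF hcl hu
  obtain ⟨-, ht', hF'⟩ := hPR A₀ F t ht
  have hp : Prime ϖ := hϖ.prime
  refine ⟨C4_chart hC hO ϖ t O u hϖ ht hF hcl hu,
    C4_chart hC hO ϖ t⁻¹ O u hϖ ht' (hF' hF) (fun W => ?_) hu⟩
  rw [← hcl W]
  constructor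
  · intro h
    have := hV A₀ F ϖ t⁻¹ W hp h
    rwa [inv_inv] at this
  · exact hV A₀ F ϖ t W hp

end Fermat.Agent.S36.Val

end
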