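import Fermat.Agent.S36.Val.Interface
import Fermat.Agent.CAR.NR.Interface

/-!
# S36 / Val, package [D2] : classification of the valuation rings over `V` for a degree `r + 1`
extension with `(e, f) = (1, 1), (1, r)`
-/

set_option autoImplicit false

noncomputable section

namespace Fermat.Agent.S36.Val

open Fermat.Agent
open Fermat.Agent.CAR (NR.IsUnif)

theorem Class2_lt_one_iff {L : Type*} [Field L] (W : ValuationSubring L) {x : L} (hx : x ≠ 0) :
    W.valuation x < 1 ↔ x⁻¹ ∉ W := by
  rw [← W.valuation_le_one_iff, map_inv₀, not_le,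
    one_lt_inv₀ (zero_lt_iff.2 ((map_ne_zero _).2 hx))]

theorem Class2_over_lt {K L : Type*} [Field K] [Field L] {π : K →+* L} {V : ValuationSubring K}
    {W : ValuationSubring L} (h : Over π V W) (a : K) :
    W.valuation (π a) < 1 ↔ V.valuation a < 1 := by
  by_cases ha : a = 0
  · subst ha
    simp
  · rw [Class2_lt_one_iff W ((map_ne_zero π).2 ha), Class2_lt_one_iff V ha, ← map_inv₀, h]

theorem stmt_Class2 (hFE : CAR.NR.Stmt_FundEq) (hD : Stmt_DegLE) : Stmt_Class2 := by
  intro K L _ _ _ π r V W₁ W₃ g hr hdeg hV h1 h3 hne hres W' hW'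
  letI : Algebra K L := π.toAlgebra
  obtain ⟨hfd, hrank⟩ := (hD K L π (r + 1)).1 hdeg
  haveI : FiniteDimensional K L := hfd
  have hrL : (r : L) = π (r : K) := (map_natCast π r).symm
  have hr0 : (r : L) ≠ 0 := by
    rw [hrL]
    exact (map_ne_zero π).2 hV.ne_zero
  have hb1 : CAR.NR.ResIndepFam V W₁ (fun _ : Fin 1 => (1 : L)) := by
    refine ⟨fun _ => W₁.one_mem, fun c _ hc l => ?_⟩
    have hl : l = 0 := Subsingleton.elim _ _
    subst hl
    have hc' : W₁.valuation (∑ l : Fin 1, π (c l) * 1) < 1 := hc
    rw [Fin.sum_univ_one, mul_one] at hc'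
    exact (Class2_over_lt h1 _).1 hc'
  let D : CAR.NR.ExtData K L Bool :=
    { V := V
      π := (r : K)
      W := fun i => cond i W₃ W₁
      ϖ := fun _ => (r : L)
      e := fun _ => 1
      f := fun i => cond i r 1
      b := fun i => Bool.rec (motive := fun i => Fin (cond i r 1) → L) (fun _ => 1)
        (fun l => g ^ (l : ℕ)) i
      hπ := hV
      inj := by
        intro i j hij
        cases i <;> cases j
        · rfl
        · exact absurd hij hne
        · exact absurd hij.symm hne
        · rfl
      hover := by
        intro i a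
        cases i
        · exact h1 a
        · exact h3 a
      ϖ_ne := fun _ => hr0
      ϖ_lt := by
        intro i
        rw [hrL]
        cases i
        · exact (Class2_over_lt h1 _).2 hV.lt_one
        · exact (Class2_over_lt h3 _).2 hV.lt_one
      e_pos := fun _ => le_rfl
      he := by
        intro i
        rw [pow_one, map_natCast]
      hb := by
        intro i
        cases i
        · exact hb1
        · exact hres
      deg := by
        rw [Fintype.sum_bool]
        show Module.finrank K L ≤ 1 * r + 1 * 1
        rw [one_mul, one_mul]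
        exact hrank }
  obtain ⟨i, hi⟩ := (hFE K L Bool D).2.2.2.1 W' hW'
  cases i
  · exact Or.inl hi
  · exact Or.inr hi

end Fermat.Agent.S36.Val

end
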