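import Fermat.Agent.S36.Val.Interface2
import Fermat.Prelude.Thm_ModularCurve_coeffMap_qExpand

/-!
# S36 / Val, task VAL-P7 : relative degrees over `E` (`Stmt_DegE`)
-/

set_option autoImplicit false

noncomputable section

namespace Fermat.Agent.S36.Val

open Fermat.Agent
open Fermat.Agent.S24 (Qbar FF)
open Fermat.Agent.S36.Base
open ModularCurve (qExpand coeffMap)

/-! ### abstract part -/

/-- a finite family of vectors is expanded in a finite linearly independent family. -/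
theorem DegE_exists_expansion (K V : Type*) [Field K] [AddCommGroup V] [Module K V] {ι : Type*}
    [Finite ι] (μ : ι → V) :
    ∃ (d : ℕ) (l : Fin d → V) (e : ι → Fin d → K), LinearIndependent K l ∧
      ∀ a, μ a = ∑ j, e a j • l j := by
  set W : Submodule K V := Submodule.span K (Set.range μ) with hW
  have : Module.Finite K W := Module.Finite.span_of_finite K (Set.finite_range μ)
  let b := Module.finBasis K W
  refine ⟨_, fun j => (b j : V), fun a j => b.repr ⟨μ a, Submodule.subset_span ⟨a, rfl⟩⟩ j, ?_, ?_⟩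
  · exact b.linearIndependent.map' W.subtype (Submodule.ker_subtype W)
  · intro a
    have := congrArg W.subtype (b.sum_repr ⟨μ a, Submodule.subset_span ⟨a, rfl⟩⟩)
    rw [map_sum] at this
    simp only [map_smul, Submodule.subtype_apply] at this
    exact this.symm

/-- **Descent lemma**, abstract form. -/
theorem DegE_descent_abs {E Kb F₁ F₂ G₁ Ω : Type*} [Field E] [Field Kb] [Algebra E Kb]
    [CommRing F₁] [CommRing F₂] [CommRing G₁] [CommRing Ω]
    (κ : Kb →+* G₁) (ε₁ : F₁ →+* G₁) (a₁ : E →+* F₁) (Φ : G₁ →+* Ω) (ψ : F₂ →+* Ω)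
    (π : F₁ →+* F₂)
    (hconst : ∀ e : E, ε₁ (a₁ e) = κ (algebraMap E Kb e))
    (hπ : ∀ x : F₁, ψ (π x) = Φ (ε₁ x))
    (hspan : ∀ x : G₁, ∃ (n : ℕ) (c : Fin n → Kb) (z : Fin n → F₁), x = ∑ i, κ (c i) * ε₁ (z i))
    (hLD : ∀ (n : ℕ) (l : Fin n → Kb) (z : Fin n → F₂), LinearIndependent E l →
      ∑ i, Φ (κ (l i)) * ψ (z i) = 0 → ∀ i, z i = 0)
    {n : ℕ} (v : Fin n → F₂) (c : Fin n → G₁) (hc : c ≠ 0) (h0 : ∑ i, Φ (c i) * ψ (v i) = 0) :
    ∃ c' : Fin n → F₁, c' ≠ 0 ∧ ∑ i, π (c' i) * v i = 0 := by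
  choose m μ z hcz using fun i => hspan (c i)
  obtain ⟨d, l, e, hl, he⟩ :=
    DegE_exists_expansion E Kb (fun a : (Σ i, Fin (m i)) => μ a.1 a.2)
  set c' : Fin n → Fin d → F₁ := fun i j => ∑ k, a₁ (e ⟨i, k⟩ j) * z i k with hc'
  have key1 : ∀ i, c i = ∑ j, κ (l j) * ε₁ (c' i j) := by
    intro i
    rw [hcz i]
    have h1 : ∀ k, κ (μ i k) * ε₁ (z i k)
        = ∑ j, κ (l j) * (ε₁ (a₁ (e ⟨i, k⟩ j)) * ε₁ (z i k)) := by
      intro k
      have := he ⟨i, k⟩
      simp only at this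
      rw [this, map_sum, Finset.sum_mul]
      refine Finset.sum_congr rfl fun j _ => ?_
      rw [Algebra.smul_def, map_mul, hconst]
      ring
    simp only [h1, hc', map_sum, map_mul, Finset.mul_sum]
    rw [Finset.sum_comm]
  have key2 : ∀ j, ∑ i, π (c' i j) * v i = 0 := by
    apply hLD d l _ hl
    have : ∑ j, Φ (κ (l j)) * ψ (∑ i, π (c' i j) * v i) = ∑ i, Φ (c i) * ψ (v i) := by
      simp only [map_sum, map_mul, hπ, Finset.mul_sum]
      rw [Finset.sum_comm]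
      refine Finset.sum_congr rfl fun i _ => ?_
      rw [key1 i, map_sum, Finset.sum_mul]
      refine Finset.sum_congr rfl fun j _ => ?_
      rw [map_mul]
      ring
    rw [this, h0]
  obtain ⟨i₀, hi₀⟩ : ∃ i, c i ≠ 0 := by
    by_contra hcon
    push Not at hcon
    exact hc (funext hcon)
  obtain ⟨j₀, hj₀⟩ : ∃ j, c' i₀ j ≠ 0 := by
    by_contra hcon
    push Not at hcon
    apply hi₀
    rw [key1 i₀]
    simp [hcon]
  refine ⟨fun i => c' i j₀, ?_, key2 j₀⟩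
  intro h
  exact hj₀ (congrFun h i₀)

/-! ### concrete descent lemma -/

theorem DegE_descent (hS : Base.Stmt_SpanE) (hLD : Base.Stmt_LinDisj) (A : ValuationSubring Qbar)
    (N₁ N₂ : ℕ) (T : LaurentSeries Qbar →+* LaurentSeries Qbar)
    (hT : ∀ c : Qbar, T (algebraMap Qbar (LaurentSeries Qbar) c)
      = algebraMap Qbar (LaurentSeries Qbar) c)
    (π : FE A N₁ →+* FE A N₂)
    (hπ : ∀ x : FE A N₁, cmE A ((π x : FE A N₂) : Base.LE A) = T (cmE A (x : Base.LE A)))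
    {n : ℕ} (v : Fin n → FE A N₂) (c : Fin n → FF N₁) (hc : c ≠ 0)
    (h0 : ∑ i, T (c i : LaurentSeries Qbar) * cmE A (v i : Base.LE A) = 0) :
    ∃ c' : Fin n → FE A N₁, c' ≠ 0 ∧ ∑ i, π (c' i) * v i = 0 := by
  refine DegE_descent_abs (E := IE A) (Kb := Qbar) (algebraMap Qbar (FF N₁)) (emb A N₁)
    (algebraMap (IE A) (FE A N₁)) (T.comp (incl N₁).toRingHom)
    ((cmE A).comp (algebraMap (FE A N₂) (Base.LE A))) π (emb_algebraMap A N₁) hπ (hS A N₁) ?_ v c hc h0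
  intro n l z hl h i
  have h' : ∑ i, algebraMap Qbar (LaurentSeries Qbar) (l i) * cmE A ((z i : FE A N₂) : Base.LE A) = 0 := by
    rw [← h]
    refine Finset.sum_congr rfl fun i _ => ?_
    congr 1
    exact (hT (l i)).symm
  exact Subtype.ext (hLD A n l (fun i => ((z i : FE A N₂) : Base.LE A)) hl h' i)

/-- `Stmt_DegQ` in terms of series. -/
theorem DegE_hQ (hQ : Stmt_DegQ) (r N N' n : ℕ) [NeZero N] (hr : r.Prime) (hN' : N' = r * N)
    (hn : n = if r ∣ N then r else r + 1) (v : Fin (n + 1) → LaurentSeries Qbar)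
    (hv : ∀ i, v i ∈ ModularCurve.modularFunctionFieldBar N') :
    ∃ c : Fin (n + 1) → FF N, c ≠ 0 ∧ ∑ i, (c i : LaurentSeries Qbar) * v i = 0 := by
  subst hN' hn
  have : NeZero (r * N) := ⟨mul_ne_zero hr.ne_zero (NeZero.ne N)⟩
  exact hQ r N hr (fun i => ⟨v i, hv i⟩)

section

variable {A : ValuationSubring Qbar} {r M : ℕ} [NeZero r] [NeZero M] [NeZero (r * M)]
  [NeZero (r ^ 2 * M)]

theorem DegE_i12 (hQ : Stmt_DegQ) (hS : Base.Stmt_SpanE) (hLD : Base.Stmt_LinDisj)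
    (C : Ctx A r M) : DegLE C.i12 r := by
  intro v
  obtain ⟨c, hc0, hc⟩ := DegE_hQ hQ r (r * M) (r ^ 2 * M) r C.hr (by ring)
    (by rw [if_pos (dvd_mul_right r M)]) (fun i => cmE A (v i : Base.LE A)) (fun i => cmE_mem A (v i).2)
  refine DegE_descent hS hLD A _ _ (RingHom.id _) (fun _ => rfl) C.i12 (fun x => ?_) v c hc0 hc
  rw [C.hi12 x]
  rfl

theorem DegE_i01 (hQ : Stmt_DegQ) (hS : Base.Stmt_SpanE) (hLD : Base.Stmt_LinDisj)
    (C : Ctx A r M) : DegLE C.i01 (r + 1) := by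
  intro v
  obtain ⟨c, hc0, hc⟩ := DegE_hQ hQ r M (r * M) (r + 1) C.hr rfl
    (by rw [if_neg C.hrM]) (fun i => cmE A (v i : Base.LE A)) (fun i => cmE_mem A (v i).2)
  refine DegE_descent hS hLD A _ _ (RingHom.id _) (fun _ => rfl) C.i01 (fun x => ?_) v c hc0 hc
  rw [C.hi01 x]
  rfl

omit [NeZero r] [NeZero M] [NeZero (r * M)] [NeZero (r ^ 2 * M)] in
theorem DegE_bar_mono {N₁ N₂ : ℕ} [NeZero N₁] [NeZero N₂] (h : N₁ ∣ N₂) :
    ModularCurve.modularFunctionFieldBar N₁ ≤ ModularCurve.modularFunctionFieldBar N₂ := by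
  show ModularCurve.laurentBaseChange _ _ ≤ ModularCurve.laurentBaseChange _ _
  rw [ModularCurve.laurentBaseChange, IntermediateField.adjoin_le_iff]
  rintro _ ⟨y, hy, rfl⟩
  exact ModularCurve.coeffEmb_mem_laurentBaseChange _ (ModularCurve.full_degeneracy_le h hy)

omit [NeZero M] [NeZero (r * M)] [NeZero (r ^ 2 * M)] in
theorem DegE_qExpand_const (c : Qbar) :
    qExpand Qbar r (algebraMap Qbar (LaurentSeries Qbar) c)
      = algebraMap Qbar (LaurentSeries Qbar) c := by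
  rw [ModularCurve.algebraMap_laurentSeries_eq_single, ModularCurve.qExpand_single, mul_zero]

omit [NeZero M] [NeZero (r * M)] [NeZero (r ^ 2 * M)] in
theorem DegE_qExpand_jd {e : ℕ} (he : e ≠ 0) :
    qExpand Qbar r (S28.jd Qbar e) = S28.jd Qbar (r * e) := by
  rw [← S28.Vq_eq, S28.jd, S28.tower_Vq_Vq Qbar (NeZero.ne r) he, S28.jd]

/-- the inclusion `FF (r M) → FF (r² M)`. -/
def DegE_iota (r M : ℕ) [NeZero (r * M)] [NeZero (r ^ 2 * M)] :
    FF (r * M) →ₐ[Qbar] FF (r ^ 2 * M) :=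
  IntermediateField.inclusion (DegE_bar_mono ⟨r, by ring⟩)

omit [NeZero r] [NeZero M] in
theorem DegE_coe_iota (c : FF (r * M)) :
    ((DegE_iota r M c : FF (r ^ 2 * M)) : LaurentSeries Qbar) = (c : LaurentSeries Qbar) :=
  IntermediateField.coe_inclusion _ c

/-- `c ↦ W_{r²} c`. -/
def DegE_f (C : Ctx A r M) : FF (r * M) →+* LaurentSeries Qbar :=
  (incl (r ^ 2 * M)).toRingHom.comp
    ((C.W2.W : FF (r ^ 2 * M) →+* FF (r ^ 2 * M)).comp (DegE_iota r M).toRingHom)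

/-- `c ↦ V_r (W_r c)`. -/
def DegE_g (C : Ctx A r M) : FF (r * M) →+* LaurentSeries Qbar :=
  (qExpand Qbar r).comp ((incl (r * M)).toRingHom.comp (C.W1.W : FF (r * M) →+* FF (r * M)))

theorem DegE_f_apply (C : Ctx A r M) (c : FF (r * M)) :
    DegE_f C c = ((C.W2.W (DegE_iota r M c) : FF (r ^ 2 * M)) : LaurentSeries Qbar) := rfl

theorem DegE_g_apply (C : Ctx A r M) (c : FF (r * M)) :
    DegE_g C c = qExpand Qbar r ((C.W1.W c : FF (r * M)) : LaurentSeries Qbar) := rfl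

theorem DegE_f_const (C : Ctx A r M) (c : Qbar) :
    DegE_f C (algebraMap Qbar (FF (r * M)) c) = algebraMap Qbar (LaurentSeries Qbar) c := by
  rw [DegE_f_apply, AlgHom.commutes, AlgEquiv.commutes]
  rfl

theorem DegE_g_const (C : Ctx A r M) (c : Qbar) :
    DegE_g C (algebraMap Qbar (FF (r * M)) c) = algebraMap Qbar (LaurentSeries Qbar) c := by
  rw [DegE_g_apply, AlgEquiv.commutes]
  exact DegE_qExpand_const c

theorem DegE_fg_gen (C : Ctx A r M) (d : ℕ) (y : FF (r * M)) (hd : d ∣ r * M) (hy : IsJ y d) :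
    DegE_f C y = DegE_g C y := by
  obtain ⟨a, b, ha, hb, rfl⟩ := (Nat.dvd_mul).1 hd
  have ha0 : 0 < a := Nat.pos_of_dvd_of_pos ha (Nat.pos_of_ne_zero (NeZero.ne r))
  have hb0 : b ≠ 0 := by
    rintro rfl
    exact NeZero.ne M (Nat.eq_zero_of_zero_dvd hb)
  have hra : r / a ≠ 0 := (Nat.div_pos (Nat.le_of_dvd (Nat.pos_of_ne_zero (NeZero.ne r)) ha)
    ha0).ne'
  have hd1 : r / a * b ∣ r * M := Nat.mul_dvd_mul (Nat.div_dvd_of_dvd ha) hb
  have ha2 : a ∣ r ^ 2 := ha.trans (dvd_pow_self r two_ne_zero)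
  have hd2 : r ^ 2 / a * b ∣ r ^ 2 * M := Nat.mul_dvd_mul (Nat.div_dvd_of_dvd ha2) hb
  have e1 : C.W1.W y = ⟨S28.jd Qbar (r / a * b), INJ.Inst.jd_mem_bar (NeZero.ne _) hd1⟩ :=
    C.W1.gen a b y _ ha hb hy rfl
  have hy2 : IsJ (DegE_iota r M y) (a * b) := by
    rw [IsJ, DegE_coe_iota]
    exact hy
  have e2 : C.W2.W (DegE_iota r M y)
      = ⟨S28.jd Qbar (r ^ 2 / a * b), INJ.Inst.jd_mem_bar (NeZero.ne _) hd2⟩ :=
    C.W2.gen a b _ _ ha2 hb hy2 rfl
  rw [DegE_f_apply, DegE_g_apply, e1, e2]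
  show S28.jd Qbar (r ^ 2 / a * b) = qExpand Qbar r (S28.jd Qbar (r / a * b))
  rw [DegE_qExpand_jd (mul_ne_zero hra hb0)]
  congr 1
  rw [← mul_assoc, ← Nat.mul_div_assoc r ha, sq]

theorem DegE_fg (hExt : Stmt_ExtRing) (C : Ctx A r M) : DegE_f C = DegE_g C :=
  hExt (r * M) (LaurentSeries Qbar) (DegE_f C) (DegE_g C)
    (fun c => (DegE_f_const C c).trans (DegE_g_const C c).symm) (DegE_fg_gen C)

/-- `W_{r²}` on level `r M` is `V_r ∘ W_r`. -/
theorem DegE_W (hExt : Stmt_ExtRing) (C : Ctx A r M) (c : FF (r * M)) :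
    ((C.W2.W (DegE_iota r M c) : FF (r ^ 2 * M)) : LaurentSeries Qbar)
      = qExpand Qbar r ((C.W1.W c : FF (r * M)) : LaurentSeries Qbar) := by
  rw [← DegE_f_apply, ← DegE_g_apply, DegE_fg hExt C]

theorem DegE_v12 (hQ : Stmt_DegQ) (hS : Base.Stmt_SpanE) (hLD : Base.Stmt_LinDisj)
    (hExt : Stmt_ExtRing) (C : Ctx A r M) : DegLE C.v12 r := by
  intro v
  obtain ⟨c, hc0, hc⟩ := DegE_hQ hQ r (r * M) (r ^ 2 * M) r C.hr (by ring)
    (by rw [if_pos (dvd_mul_right r M)])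
    (fun i => ((C.W2.W (emb A (r ^ 2 * M) (v i)) : FF (r ^ 2 * M)) : LaurentSeries Qbar))
    (fun i => (C.W2.W (emb A (r ^ 2 * M) (v i))).2)
  have h1 : ∑ i, DegE_iota r M (c i) * C.W2.W (emb A (r ^ 2 * M) (v i)) = 0 := by
    apply (incl (r ^ 2 * M)).toRingHom.injective
    rw [map_sum, map_zero, ← hc]
    refine Finset.sum_congr rfl fun i _ => ?_
    rw [map_mul]
    rfl
  have h2 : ∑ i, C.W2.W (DegE_iota r M (c i)) * emb A (r ^ 2 * M) (v i) = 0 := by
    have := congrArg C.W2.W h1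
    rw [map_sum, map_zero] at this
    simp only [map_mul, C.W2.invol] at this
    exact this
  have h3 : ∑ i, qExpand Qbar r ((C.W1.W (c i) : FF (r * M)) : LaurentSeries Qbar)
      * cmE A (v i : Base.LE A) = 0 := by
    have := congrArg (incl (r ^ 2 * M)).toRingHom h2
    rw [map_sum, map_zero] at this
    rw [← this]
    refine Finset.sum_congr rfl fun i _ => ?_
    rw [map_mul, ← DegE_W hExt C (c i)]
    rfl
  refine DegE_descent hS hLD A _ _ (qExpand Qbar r) DegE_qExpand_const C.v12 (fun x => ?_) v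
    (fun i => C.W1.W (c i)) ?_ h3
  · rw [C.hv12 x]
    exact ModularCurve.coeffMap_qExpand _ r _
  · intro h
    apply hc0
    funext i
    have := congrFun h i
    simpa using this

end

/-- **VAL-P7** (minimal hypotheses). -/
theorem stmt_DegE' (hQ : Stmt_DegQ) (hS : Base.Stmt_SpanE) (hLD : Base.Stmt_LinDisj)
    (hExt : Stmt_ExtRing) : Stmt_DegE := by
  intro A r M _ _ _ _ C
  exact ⟨DegE_i12 hQ hS hLD C, DegE_v12 hQ hS hLD hExt C, DegE_i01 hQ hS hLD C⟩

/-- **VAL-P7** (requested signature). -/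
theorem stmt_DegE (hQ : Stmt_DegQ) (hS : Base.Stmt_SpanE) (hLD : Base.Stmt_LinDisj)
    (hExt : Stmt_ExtRing) (_hP : Stmt_PhiGen) : Stmt_DegE :=
  stmt_DegE' hQ hS hLD hExt

end Fermat.Agent.S36.Val

end

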