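import Fermat.Agent.S36.Val.Interface2
import Fermat.Agent.INJ.Inst.DescentDeg

/-!
# S36 / Val / P7a : relative degrees over `ℚ̄` : `[FF (r N) : FF N] = r` or `r + 1`.   helper83
-/

set_option autoImplicit false

namespace Fermat.Agent.S36.Val

open Fermat.Agent
open Fermat.Agent.S24 (Qbar FF)
open IntermediateField ModularCurve

/-- `n + 1` elements of an extension of relative degree `n` are linearly dependent. -/
theorem DegQ_dep {K M : Type*} [Field K] [Field M] [Algebra K M] {F F' : IntermediateField K M}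
    (h : F ≤ F') {n : ℕ} (hn : n ≠ 0) (hr : relfinrank F F' = n) (v : Fin (n + 1) → F') :
    ∃ c : Fin (n + 1) → F, c ≠ 0 ∧ ∑ i, (c i : M) * (v i : M) = 0 := by
  rw [relfinrank_eq_finrank_of_le h] at hr
  have : Module.Finite F (extendScalars h) := Module.finite_of_finrank_pos (by omega)
  let v' : Fin (n + 1) → extendScalars h := fun i => ⟨(v i : M), (v i).2⟩
  have hdep : ¬ LinearIndependent F v' := by
    intro hli
    have := hli.fintype_card_le_finrank
    rw [Fintype.card_fin, hr] at this
    omega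
  obtain ⟨g, hg, i, hi⟩ := Fintype.not_linearIndependent_iff.1 hdep
  refine ⟨g, fun h0 => hi (congrFun h0 i), ?_⟩
  have h1 := congrArg (fun x : extendScalars h => (x : M)) hg
  have h2 : ((∑ i, g i • v' i : extendScalars h) : M) = ∑ i, (g i : M) * (v i : M) := by
    rw [AddSubmonoidClass.coe_finsetSum]
    rfl
  rw [← h2]
  exact h1

theorem DegQ_relfinrank (r N : ℕ) [NeZero N] [NeZero (r * N)] (hr : r.Prime) :
    relfinrank (modularFunctionFieldBar N) (modularFunctionFieldBar (r * N)) =
      if r ∣ N then r else r + 1 := by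
  have h := INJ.Inst.Descent.psi_mul_relfinrank (Dvd.intro_left r rfl : N ∣ r * N)
  apply Nat.eq_of_mul_eq_mul_left (INJ.Inst.Descent.psi_pos N)
  rw [h]
  split_ifs with hrN
  · rw [S20.dedekindPsi_prime_mul_of_dvd hr (NeZero.ne N) hrN, mul_comm]
  · rw [S20.dedekindPsi_prime_mul_of_not_dvd hr (NeZero.ne N) hrN, mul_comm]

theorem stmt_DegQ : Stmt_DegQ := by
  intro r N _ _ hr v
  refine DegQ_dep (INJ.Inst.Descent.bar_le (Dvd.intro_left r rfl : N ∣ r * N)) ?_
    (DegQ_relfinrank r N hr) v
  split_ifs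
  · exact hr.ne_zero
  · exact Nat.succ_ne_zero r

end Fermat.Agent.S36.Val
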