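import Fermat.Agent.S36.Val.Interface
import Fermat.Agent.CAR.NR.Interface

/-!
# S36 / Val : task VAL-D1.  The abstract degeneracy datum from NR (`Stmt_DegenAbs`)
-/

set_option autoImplicit false

noncomputable section

namespace Fermat.Agent.S36.Val

open Fermat.Agent Fermat.Agent.CAR Module

/-! ### valuation subrings -/

section ValLemmas

variable {L : Type*} [Field L] (W : ValuationSubring L)

theorem D1_lt_one_iff (x : L) : W.valuation x < 1 ↔ x = 0 ∨ x⁻¹ ∉ W := by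
  rcases eq_or_ne x 0 with rfl | hx
  · simp
  · rw [← ValuationSubring.valuation_le_one_iff, map_inv₀, not_le]
    have h0 : 0 < W.valuation x := zero_lt_iff.2 ((Valuation.ne_zero_iff _).2 hx)
    constructor
    · intro h
      exact Or.inr ((one_lt_inv₀ h0).2 h)
    · rintro (h | h)
      · exact absurd h hx
      · exact (one_lt_inv₀ h0).1 h

theorem D1_mem_of_lt {x : L} (h : W.valuation x < 1) : x ∈ W :=
  (ValuationSubring.valuation_le_one_iff _ _).1 h.le

theorem D1_mem_of_eq {x : L} (h : W.valuation x = 1) : x ∈ W :=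
  (ValuationSubring.valuation_le_one_iff _ _).1 h.le

theorem D1_add_lt {a b : L} (ha : W.valuation a < 1) (hb : W.valuation b < 1) :
    W.valuation (a + b) < 1 := Valuation.map_add_lt _ ha hb

theorem D1_neg_lt {a : L} (ha : W.valuation a < 1) : W.valuation (-a) < 1 := by
  rwa [Valuation.map_neg]

theorem D1_sub_lt {a b : L} (ha : W.valuation a < 1) (hb : W.valuation b < 1) :
    W.valuation (a - b) < 1 := by
  rw [sub_eq_add_neg]
  exact D1_add_lt W ha (D1_neg_lt W hb)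

theorem D1_mul_lt {a b : L} (ha : W.valuation a < 1) (hb : b ∈ W) : W.valuation (a * b) < 1 := by
  rw [← ValuationSubring.valuation_le_one_iff] at hb
  rw [map_mul]
  exact lt_of_le_of_lt (mul_le_of_le_one_right' hb) ha

theorem D1_res_iff (a b : W) :
    W.valuation ((a : L) - (b : L)) < 1 ↔ IsLocalRing.residue W a = IsLocalRing.residue W b := by
  rw [← sub_eq_zero, ← map_sub, IsLocalRing.residue_eq_zero_iff,
    ValuationSubring.valuation_lt_one_iff]
  rfl

end ValLemmas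

section OverLemmas

variable {K L : Type*} [Field K] [Field L] [Algebra K L] {V : ValuationSubring K}
  {W : ValuationSubring L}

theorem D1_over_lt (h : ∀ a : K, algebraMap K L a ∈ W ↔ a ∈ V) (a : K) :
    W.valuation (algebraMap K L a) < 1 ↔ V.valuation a < 1 := by
  rw [D1_lt_one_iff, D1_lt_one_iff, ← map_inv₀, h, map_eq_zero]

theorem D1_over_eq (h : ∀ a : K, algebraMap K L a ∈ W ↔ a ∈ V) (a : K) :
    W.valuation (algebraMap K L a) = 1 ↔ V.valuation a = 1 := by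
  rw [eq_iff_le_not_lt, eq_iff_le_not_lt, D1_over_lt h, ValuationSubring.valuation_le_one_iff,
    ValuationSubring.valuation_le_one_iff, h]

theorem D1_over_zpow (h : ∀ a : K, algebraMap K L a ∈ W ↔ a ∈ V) {a b : K} (hb : b ≠ 0) (n : ℤ)
    (hab : V.valuation a = V.valuation b ^ n) :
    W.valuation (algebraMap K L a) = W.valuation (algebraMap K L b) ^ n := by
  have hvb : V.valuation b ≠ 0 := (Valuation.ne_zero_iff _).2 hb
  have h1 : V.valuation (a * (b ^ n)⁻¹) = 1 := by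
    rw [map_mul, map_inv₀, map_zpow₀, hab, mul_inv_cancel₀ (zpow_ne_zero _ hvb)]
  have h2 := (D1_over_eq h _).2 h1
  rw [map_mul, map_inv₀, map_zpow₀, map_mul, map_inv₀, map_zpow₀] at h2
  have hwb : W.valuation (algebraMap K L b) ≠ 0 :=
    (Valuation.ne_zero_iff _).2 ((map_ne_zero _).2 hb)
  exact (mul_inv_eq_one₀ (zpow_ne_zero _ hwb)).1 h2

/-- FROB : `r`-th powers of elements of `W₃` are congruent to elements of `V'`. -/
theorem D1_frob (ho : ∀ a : K, algebraMap K L a ∈ W ↔ a ∈ V) {r : ℕ} (hr : r.Prime)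
    (hr1 : W.valuation (r : L) < 1) {g : L} (hgW : g ∈ W) {g' : K} (hg' : g' ∈ V)
    (hg : W.valuation (g ^ r - algebraMap K L g') < 1) {x : L} (hx : x ∈ W) (c : Fin r → K)
    (hc : ∀ l, c l ∈ V)
    (hxc : W.valuation (x - ∑ l, algebraMap K L (c l) * g ^ (l : ℕ)) < 1) :
    ∃ a ∈ V, W.valuation (x ^ r - algebraMap K L a) < 1 := by
  refine ⟨∑ l, c l ^ r * g' ^ (l : ℕ),
    sum_mem fun l _ => mul_mem (pow_mem (hc l) _) (pow_mem hg' _), ?_⟩
  have hchar : CharP (IsLocalRing.ResidueField W) r := by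
    rw [CharP.charP_iff_prime_eq_zero hr, ← map_natCast (IsLocalRing.residue W) r,
      IsLocalRing.residue_eq_zero_iff, ValuationSubring.valuation_lt_one_iff]
    exact hr1
  have := Fact.mk hr
  let X : W := ⟨x, hx⟩
  let C : Fin r → W := fun l => ⟨algebraMap K L (c l), (ho _).2 (hc l)⟩
  let G : W := ⟨g, hgW⟩
  let G' : W := ⟨algebraMap K L g', (ho _).2 hg'⟩
  have e1 : W.subtype (∑ l, C l * G ^ (l : ℕ)) = ∑ l, algebraMap K L (c l) * g ^ (l : ℕ) := by
    simp only [map_sum, map_mul, map_pow]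
    rfl
  have e2 : W.subtype (∑ l, C l ^ r * G' ^ (l : ℕ)) =
      algebraMap K L (∑ l, c l ^ r * g' ^ (l : ℕ)) := by
    simp only [map_sum, map_mul, map_pow]
    rfl
  have h1 : IsLocalRing.residue W X = IsLocalRing.residue W (∑ l, C l * G ^ (l : ℕ)) := by
    rw [← D1_res_iff]
    have : ((∑ l, C l * G ^ (l : ℕ) : W) : L) = ∑ l, algebraMap K L (c l) * g ^ (l : ℕ) := e1
    rw [this]
    exact hxc
  have h2 : IsLocalRing.residue W (G ^ r) = IsLocalRing.residue W G' := by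
    rw [← D1_res_iff]
    exact hg
  have h3 : IsLocalRing.residue W (X ^ r) =
      IsLocalRing.residue W (∑ l, C l ^ r * G' ^ (l : ℕ)) := by
    rw [map_pow, h1, map_sum, sum_pow_char, map_sum]
    refine Finset.sum_congr rfl fun l _ => ?_
    rw [map_mul, map_mul, map_pow, map_pow, map_pow, mul_pow, ← h2, map_pow, ← pow_mul, ← pow_mul,
      mul_comm (l : ℕ) r]
  rw [← D1_res_iff] at h3
  have : ((∑ l, C l ^ r * G' ^ (l : ℕ) : W) : L) =
      algebraMap K L (∑ l, c l ^ r * g' ^ (l : ℕ)) := e2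
  rw [this] at h3
  exact h3

theorem D1_resIndep_one (h : ∀ a : K, algebraMap K L a ∈ W ↔ a ∈ V) :
    NR.ResIndepFam V W (fun _ : Fin 1 => (1 : L)) := by
  refine ⟨fun _ => one_mem _, fun c _ hs l => ?_⟩
  rw [Fin.sum_univ_one, mul_one, D1_over_lt h] at hs
  rwa [Subsingleton.elim l 0]

end OverLemmas

/-! ### the two extension data -/

section Core

variable {K L : Type} [Field K] [Field L] [Algebra K L] [CharZero K]

/-- the hypotheses of `Stmt_DegenAbs`, with `π = algebraMap K L`. -/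
structure D1_Hyp (r : ℕ) (V V' : ValuationSubring K) (W₁ W₂ W₃ : ValuationSubring L) (ϖ₂ g : L)
    (g' : K) : Prop where
  hr : r.Prime
  deg : finrank K L ≤ r
  hV : NR.IsUnif V (r : K)
  hV' : NR.IsUnif V' (r : K)
  o₁ : ∀ a : K, algebraMap K L a ∈ W₁ ↔ a ∈ V
  o₂ : ∀ a : K, algebraMap K L a ∈ W₂ ↔ a ∈ V
  o₃ : ∀ a : K, algebraMap K L a ∈ W₃ ↔ a ∈ V'
  ne : W₁ ≠ W₂
  ϖ_ne : ϖ₂ ≠ 0
  ϖ_lt : W₂.valuation ϖ₂ < 1
  ϖ_le : W₂.valuation (r : L) ≤ W₂.valuation ϖ₂ ^ (r - 1)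
  g'_mem : g' ∈ V'
  hg : W₃.valuation (g ^ r - algebraMap K L g') < 1
  ind : NR.ResIndepFam V' W₃ (fun i : Fin r => g ^ (i : ℕ))

variable {r : ℕ} {V V' : ValuationSubring K} {W₁ W₂ W₃ : ValuationSubring L} {ϖ₂ g : L} {g' : K}

theorem D1_Hyp.r_ne (H : D1_Hyp r V V' W₁ W₂ W₃ ϖ₂ g g') : (r : L) ≠ 0 := by
  rw [← map_natCast (algebraMap K L)]
  exact (map_ne_zero _).2 (Nat.cast_ne_zero.2 H.hr.ne_zero)

/-- the extension datum over `V` : `true ↦ W₁` (`e = f = 1`), `false ↦ W₂` (`e = r - 1`, `f = 1`). -/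
def D1_Hyp.D (H : D1_Hyp r V V' W₁ W₂ W₃ ϖ₂ g g') : NR.ExtData K L Bool where
  V := V
  π := (r : K)
  W := fun i => cond i W₁ W₂
  ϖ := fun i => cond i (r : L) ϖ₂
  e := fun i => cond i 1 (r - 1)
  f := fun _ => 1
  b := fun _ _ => 1
  hπ := H.hV
  inj := by
    rintro (_ | _) (_ | _) h
    · rfl
    · exact absurd h.symm H.ne
    · exact absurd h H.ne
    · rfl
  hover := by
    rintro (_ | _) a
    · exact H.o₂ a
    · exact H.o₁ a
  ϖ_ne := by
    rintro (_ | _)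
    · exact H.ϖ_ne
    · exact H.r_ne
  ϖ_lt := by
    rintro (_ | _)
    · exact H.ϖ_lt
    · show W₁.valuation (r : L) < 1
      rw [← map_natCast (algebraMap K L)]
      exact (D1_over_lt H.o₁ _).2 H.hV.lt_one
  e_pos := by
    rintro (_ | _)
    · exact Nat.le_sub_one_of_lt H.hr.one_lt
    · exact le_rfl
  he := by
    rintro (_ | _)
    · show W₂.valuation (algebraMap K L (r : K)) ≤ W₂.valuation ϖ₂ ^ (r - 1)
      rw [map_natCast]
      exact H.ϖ_le
    · show W₁.valuation (algebraMap K L (r : K)) ≤ W₁.valuation (r : L) ^ 1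
      rw [map_natCast, pow_one]
  hb := by
    rintro (_ | _)
    · exact D1_resIndep_one H.o₂
    · exact D1_resIndep_one H.o₁
  deg := by
    rw [Fintype.sum_bool]
    show finrank K L ≤ 1 * 1 + (r - 1) * 1
    have h1 := H.hr.one_lt
    have h2 := H.deg
    omega

/-- the extension datum over `V'` : `W₃` (`e = 1`, `f = r`). -/
def D1_Hyp.D' (H : D1_Hyp r V V' W₁ W₂ W₃ ϖ₂ g g') : NR.ExtData K L Unit where
  V := V'
  π := (r : K)
  W := fun _ => W₃
  ϖ := fun _ => (r : L)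
  e := fun _ => 1
  f := fun _ => r
  b := fun _ i => g ^ (i : ℕ)
  hπ := H.hV'
  inj := fun _ _ _ => rfl
  hover := fun _ a => H.o₃ a
  ϖ_ne := fun _ => H.r_ne
  ϖ_lt := fun _ => by
    rw [← map_natCast (algebraMap K L)]
    exact (D1_over_lt H.o₃ _).2 H.hV'.lt_one
  e_pos := fun _ => le_rfl
  he := fun _ => by rw [map_natCast, pow_one]
  hb := fun _ => H.ind
  deg := by
    rw [Finset.univ_unique, Finset.sum_singleton, one_mul]
    exact H.deg

theorem D1_core (hFE : NR.Stmt_FundEq) (hON : NR.Stmt_OrdNorm) (hRN : NR.Stmt_RedNorm)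
    (hO : Stmt_OrdOf) {A₀ : Type} [CommRing A₀] [Algebra A₀ K] [Algebra A₀ L]
    [FiniteDimensional K L]
    (hconst : ∀ a : A₀, algebraMap K L (algebraMap A₀ K a) = algebraMap A₀ L a)
    (H : D1_Hyp r V V' W₁ W₂ W₃ ϖ₂ g g') :
    NR.IsUnif W₁ (r : L) ∧ NR.IsUnif W₂ ϖ₂ ∧ NR.IsUnif W₃ (r : L) ∧
    W₂.valuation (r : L) = W₂.valuation ϖ₂ ^ (r - 1) ∧
    (∀ W' : ValuationSubring L, (∀ a : K, algebraMap K L a ∈ W' ↔ a ∈ V) → W' = W₁ ∨ W' = W₂) ∧
    (∀ W' : ValuationSubring L, (∀ a : K, algebraMap K L a ∈ W' ↔ a ∈ V') → W' = W₃) ∧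
    finrank K L = r ∧
    ∃ D : Degen A₀ L K (ordOf W₁ (r : L)) (ordOf W₂ ϖ₂) (ordOf W₃ (r : L)) r,
      D.π = algebraMap K L ∧ ∀ x : L, D.N x = Algebra.norm K x := by
  obtain ⟨hU, hE, hRES, hCL, -, hFR⟩ := hFE K L Bool H.D
  obtain ⟨hU', -, hRES', hCL', -, -⟩ := hFE K L Unit H.D'
  have hU1 : NR.IsUnif W₁ (r : L) := hU true
  have hU2 : NR.IsUnif W₂ ϖ₂ := hU false
  have hU3 : NR.IsUnif W₃ (r : L) := hU' ()
  have hfr : finrank K L = r := by
    rw [hFR, Fintype.sum_bool]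
    show 1 * 1 + (r - 1) * 1 = r
    have := H.hr.one_lt
    omega
  have hrK : (r : K) ≠ 0 := Nat.cast_ne_zero.2 H.hr.ne_zero
  -- (RES)
  have res1 : ∀ x ∈ W₁, ∃ c ∈ V, W₁.valuation (x - algebraMap K L c) < 1 := by
    intro x hx
    have hh : ∃ c : Fin 1 → K, (∀ l, c l ∈ V) ∧
        W₁.valuation (x - ∑ l : Fin 1, algebraMap K L (c l) * 1) < 1 := hRES true x hx
    obtain ⟨c, hc, h'⟩ := hh
    refine ⟨c 0, hc 0, ?_⟩
    rwa [Fin.sum_univ_one, mul_one] at h'
  have res2 : ∀ x ∈ W₂, ∃ c ∈ V, W₂.valuation (x - algebraMap K L c) < 1 := by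
    intro x hx
    have hh : ∃ c : Fin 1 → K, (∀ l, c l ∈ V) ∧
        W₂.valuation (x - ∑ l : Fin 1, algebraMap K L (c l) * 1) < 1 := hRES false x hx
    obtain ⟨c, hc, h'⟩ := hh
    refine ⟨c 0, hc 0, ?_⟩
    rwa [Fin.sum_univ_one, mul_one] at h'
  -- (FROB)
  have hgW : g ∈ W₃ := by
    have := H.ind.1 ⟨1, H.hr.one_lt⟩
    simpa using this
  have frob : ∀ x ∈ W₃, ∃ a ∈ V', W₃.valuation (x ^ r - algebraMap K L a) < 1 := by
    intro x hx
    obtain ⟨c, hc, h⟩ := hRES' () x hx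
    exact D1_frob H.o₃ H.hr hU3.lt_one hgW H.g'_mem H.hg hx c hc h
  have pins : ∀ i, NR.PInsep H.D.V (H.D.W i) r := by
    rintro (_ | _) x hx
    · obtain ⟨c, hc, h⟩ := res2 x hx
      exact ⟨0, c, hc, by rw [pow_zero, pow_one]; exact h⟩
    · obtain ⟨c, hc, h⟩ := res1 x hx
      exact ⟨0, c, hc, by rw [pow_zero, pow_one]; exact h⟩
  have pins' : ∀ i, NR.PInsep H.D'.V (H.D'.W i) r := by
    intro _ x hx
    obtain ⟨a, ha, h⟩ := frob x hx
    exact ⟨1, a, ha, by rw [pow_one]; exact h⟩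
  have rn := hRN K L Bool H.D r H.hr H.hV.lt_one pins
  have rn' := hRN K L Unit H.D' r H.hr H.hV'.lt_one pins'
  obtain ⟨a1, b1, -, p1, u1, -⟩ := hO L W₁ (r : L) hU1
  obtain ⟨a2, -, -, p2, u2, -⟩ := hO L W₂ ϖ₂ hU2
  obtain ⟨a3, b3, -, p3, u3, -⟩ := hO L W₃ (r : L) hU3
  -- the fields of `Degen`
  have hNc : ∀ a : A₀, Algebra.norm K (algebraMap A₀ L a) = algebraMap A₀ K a ^ r := by
    intro a
    rw [← hconst, Algebra.norm_algebraMap, hfr]
  have hna : ∀ (y : L) (y₂ : K), VUnit (ordOf W₁ (r : L)) y → VUnit (ordOf W₂ ϖ₂) y →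
      VPos (ordOf W₂ ϖ₂) (y - algebraMap K L y₂) →
      VPos (ordOf W₁ (r : L))
        (algebraMap K L (Algebra.norm K y) - y * algebraMap K L y₂ ^ (r - 1)) := by
    intro y y₂ h1 h2 h3
    rw [u1] at h1
    rw [u2] at h2
    rw [p2] at h3
    rw [p1]
    have hy1 : y ∈ W₁ := D1_mem_of_eq _ h1
    have hy2 : y ∈ W₂ := D1_mem_of_eq _ h2
    obtain ⟨c₁, hc₁, hc₁'⟩ := res1 y hy1
    have hy₂W : algebraMap K L y₂ ∈ W₂ := by
      have := sub_mem hy2 (D1_mem_of_lt _ h3)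
      rwa [sub_sub_cancel] at this
    have hy₂V : y₂ ∈ V := (H.o₂ _).1 hy₂W
    have key := (rn y (by
      rintro (_ | _)
      · exact hy2
      · exact hy1)).2 (fun i => cond i c₁ y₂) (by
      rintro (_ | _)
      · exact hy₂V
      · exact hc₁) (by
      rintro (_ | _)
      · show W₂.valuation (y ^ 1 - algebraMap K L y₂) < 1
        rw [pow_one]
        exact h3
      · show W₁.valuation (y ^ 1 - algebraMap K L c₁) < 1
        rw [pow_one]
        exact hc₁')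
    rw [Fintype.prod_bool] at key
    have key' : V.valuation (Algebra.norm K y - c₁ ^ 1 * y₂ ^ (r - 1)) < 1 := key
    rw [pow_one] at key'
    have k2 := (D1_over_lt H.o₁ _).2 key'
    rw [map_sub, map_mul, map_pow] at k2
    have k3 : W₁.valuation ((y - algebraMap K L c₁) * algebraMap K L y₂ ^ (r - 1)) < 1 :=
      D1_mul_lt _ hc₁' (pow_mem ((H.o₁ _).2 hy₂V) _)
    have k4 := D1_sub_lt _ k2 k3
    have e : algebraMap K L (Algebra.norm K y) - y * algebraMap K L y₂ ^ (r - 1) =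
        algebraMap K L (Algebra.norm K y) - algebraMap K L c₁ * algebraMap K L y₂ ^ (r - 1) -
          (y - algebraMap K L c₁) * algebraMap K L y₂ ^ (r - 1) := by ring
    rw [e]
    exact k4
  have hnb : ∀ y : L, VUnit (ordOf W₃ (r : L)) y →
      VPos (ordOf W₃ (r : L)) (algebraMap K L (Algebra.norm K y) - y ^ r) := by
    intro y h
    rw [u3] at h
    rw [p3]
    have hy : y ∈ W₃ := D1_mem_of_eq _ h
    obtain ⟨c, hc, hc'⟩ := frob y hy
    have key := (rn' y (fun _ => hy)).2 (fun _ => c) (fun _ => hc) (fun _ => hc')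
    rw [Finset.univ_unique, Finset.prod_singleton] at key
    have key' : V'.valuation (Algebra.norm K y - c ^ 1) < 1 := key
    rw [pow_one] at key'
    have k2 := (D1_over_lt H.o₃ _).2 key'
    rw [map_sub] at k2
    have k4 := D1_sub_lt _ k2 hc'
    have e : algebraMap K L (Algebra.norm K y) - y ^ r =
        algebraMap K L (Algebra.norm K y) - algebraMap K L c - (y ^ r - algebraMap K L c) := by ring
    rw [e]
    exact k4
  have hsame : ∀ x : K, VPos (ordOf W₁ (r : L)) (algebraMap K L x) ↔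
      VPos (ordOf W₂ ϖ₂) (algebraMap K L x) := by
    intro x
    rw [p1, p2, D1_over_lt H.o₁, D1_over_lt H.o₂]
  have hres₁ : ∀ y : L, VUnit (ordOf W₁ (r : L)) y →
      ∃ y' : K, VPos (ordOf W₁ (r : L)) (y - algebraMap K L y') := by
    intro y h
    rw [u1] at h
    obtain ⟨c, -, hc⟩ := res1 y (D1_mem_of_eq _ h)
    exact ⟨c, (p1 _).2 hc⟩
  have hres₂ : ∀ y : L, VUnit (ordOf W₂ ϖ₂) y →
      ∃ y' : K, VPos (ordOf W₂ ϖ₂) (y - algebraMap K L y') := by
    intro y h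
    rw [u2] at h
    obtain ⟨c, -, hc⟩ := res2 y (D1_mem_of_eq _ h)
    exact ⟨c, (p2 _).2 hc⟩
  have hv₁ : ∀ z : L, z ≠ 0 → ordOf W₁ (r : L) (algebraMap K L (Algebra.norm K z)) =
      ordOf W₁ (r : L) z + ordOf W₂ ϖ₂ z := by
    intro z hz
    have h := hON K L Bool H.D z (fun i => cond i (ordOf W₁ (r : L) z) (ordOf W₂ ϖ₂ z)) (by
      rintro (_ | _)
      · exact a2 z hz
      · exact a1 z hz)
    rw [Fintype.sum_bool] at h
    have h' : V.valuation (Algebra.norm K z) = V.valuation (r : K) ^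
        (((1 : ℕ) : ℤ) * ordOf W₁ (r : L) z + ((1 : ℕ) : ℤ) * ordOf W₂ ϖ₂ z) := h
    have h2 := D1_over_zpow H.o₁ hrK _ h'
    rw [map_natCast] at h2
    rw [b1 _ _ h2]
    push_cast
    ring
  have hv₃ : ∀ z : L, z ≠ 0 → ordOf W₃ (r : L) (algebraMap K L (Algebra.norm K z)) =
      r * ordOf W₃ (r : L) z := by
    intro z hz
    have h := hON K L Unit H.D' z (fun _ => ordOf W₃ (r : L) z) (fun _ => a3 z hz)
    rw [Finset.univ_unique, Finset.sum_singleton] at h
    have h' : V'.valuation (Algebra.norm K z) = V'.valuation (r : K) ^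
        ((r : ℤ) * ordOf W₃ (r : L) z) := h
    have h2 := D1_over_zpow H.o₃ hrK _ h'
    rw [map_natCast] at h2
    exact b3 _ _ h2
  refine ⟨hU1, hU2, hU3, ?_, ?_, ?_, hfr, ⟨
    { π := algebraMap K L
      N :=
        { toFun := Algebra.norm K
          map_zero' := Algebra.norm_zero
          map_one' := map_one _
          map_mul' := map_mul _ }
      π_const := hconst
      N_const := hNc
      na := hna
      nb := hnb
      same := hsame
      res₁ := hres₁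
      res₂ := hres₂
      v₁ := hv₁
      v₃ := hv₃ }, rfl, fun _ => rfl⟩⟩
  · have := hE false
    have h' : W₂.valuation (algebraMap K L (r : K)) = W₂.valuation ϖ₂ ^ (r - 1) := this
    rwa [map_natCast] at h'
  · intro W' hW'
    obtain ⟨i, hi⟩ := hCL W' hW'
    rcases i with _ | _
    · exact Or.inr hi
    · exact Or.inl hi
  · intro W' hW'
    obtain ⟨_, hi⟩ := hCL' W' hW'
    exact hi

end Core

/-- [D1] -/
theorem stmt_DegenAbs (hFE : NR.Stmt_FundEq) (hON : NR.Stmt_OrdNorm) (hRN : NR.Stmt_RedNorm)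
    (hO : Stmt_OrdOf) (hD : Stmt_DegLE) : Stmt_DegenAbs := by
  intro A₀ K L _ _ _ _ _ _ π r V V' W₁ W₂ W₃ ϖ₂ g g' hr hconst hdeg hV hV' o1 o2 o3 hne hϖ0 hϖ1
    hϖ2 hg' hg hind
  letI : Algebra K L := π.toAlgebra
  obtain ⟨hfd, hle⟩ := (hD K L π r).1 hdeg
  haveI : FiniteDimensional K L := hfd
  exact D1_core hFE hON hRN hO hconst
    ⟨hr, hle, hV, hV', o1, o2, o3, hne, hϖ0, hϖ1, hϖ2, hg', hg, hind⟩

end Fermat.Agent.S36.Val

end
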