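import Fermat.Agent.S36.Val.EmbDefs
import Fermat.Agent.S24.Hermite

/-!
# S36 / Val, [E5] : function level formula for `j(d · δτ)` (`Stmt_DeltaFun`)
-/

set_option autoImplicit false

noncomputable section

namespace Fermat.Agent.S36.Val

open UpperHalfPlane CongruenceSubgroup
open scoped MatrixGroups Manifold
open Fermat.Agent
open Fermat.Agent.S24 (jFun jFunD)

theorem E5_coe_delta (r M : ℕ) (τ : ℍ) :
    ((deltaMat r M • τ : ℍ) : ℂ) = (τ : ℂ) / (((r : ℂ) * M) * τ + 1) := by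
  rw [S24.Hermite.coe_smul_eq]
  simp [deltaMat]

theorem E5_delta_denom_ne (r M : ℕ) (τ : ℍ) : ((r : ℂ) * M) * (τ : ℂ) + 1 ≠ 0 := by
  have := S24.Hermite.denom_ne (deltaMat r M) τ
  simpa [deltaMat] using this

theorem E5_low {r M e : ℕ} (hr : 0 < r) (hM : 0 < M) (he : e ∣ r * M) (τ : ℍ) :
    jFunD e (deltaMat r M • τ) = jFunD e τ := by
  obtain ⟨e', he'⟩ := he
  have he0 : 0 < e := Nat.pos_of_mul_pos_right (he' ▸ Nat.mul_pos hr hM)
  let γ : SL(2, ℤ) := ⟨!![1, 0; (e' : ℤ), 1], by rw [Matrix.det_fin_two_of]; ring⟩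
  unfold jFunD
  have h : (e : ℂ) * ((deltaMat r M • τ : ℍ) : ℂ) =
      ((γ • (ofComplex ((e : ℂ) * (τ : ℂ))) : ℍ) : ℂ) := by
    have hd1 := E5_delta_denom_ne r M τ
    have hd2 := S24.Hermite.denom_ne γ (ofComplex ((e : ℂ) * (τ : ℂ)))
    rw [E5_coe_delta, S24.Hermite.coe_smul_eq]
    rw [S24.QX.coe_ofComplex_natCast_mul he0] at hd2 ⊢
    have a00 : ((γ 0 0 : ℤ) : ℂ) = 1 := by simp [γ]
    have a01 : ((γ 0 1 : ℤ) : ℂ) = 0 := by simp [γ]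
    have a10 : ((γ 1 0 : ℤ) : ℂ) = e' := by simp [γ]
    have a11 : ((γ 1 1 : ℤ) : ℂ) = 1 := by simp [γ]
    rw [a10, a11] at hd2
    rw [a00, a01, a10, a11]
    have hrM : (r : ℂ) * M = e * e' := by exact_mod_cast he'
    rw [hrM] at hd1 ⊢
    have : (e' : ℂ) * ((e : ℂ) * (τ : ℂ)) + 1 = (e : ℂ) * e' * τ + 1 := by ring
    rw [this]
    field_simp
    ring
  rw [h, ofComplex_apply, S24.jFun_smul]

theorem E5_top {r M d : ℕ} {s k : ℤ} (hr : 0 < r) (hM : 0 < M) (hd : d ∣ M)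
    (hs : s * M = 1 + r * k) (τ : ℍ) :
    jFunD (r ^ 2 * d) (deltaMat r M • τ) = ES.Mid.HA2.aff 1 ((s : ℝ) / r) (jFunD d) τ := by
  obtain ⟨e', he'⟩ := hd
  have hd0 : 0 < d := Nat.pos_of_mul_pos_right (he' ▸ hM)
  let γ : SL(2, ℤ) := ⟨!![(r : ℤ), -((d : ℤ) * s); (e' : ℤ), -k], by
    rw [Matrix.det_fin_two_of]
    have : (M : ℤ) = d * e' := by exact_mod_cast he'
    rw [this] at hs
    linarith⟩
  rw [ES.Mid.HA2.aff_apply]
  unfold jFunD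
  set Z : ℍ := ofComplex ((d : ℂ) *
    ((ofComplex (((1 : ℝ) : ℂ) * (τ : ℂ) + (((s : ℝ) / r : ℝ) : ℂ)) : ℍ) : ℂ)) with hZ
  have hZc : (Z : ℂ) = (d : ℂ) * ((τ : ℂ) + (s : ℂ) / r) := by
    rw [hZ, S24.QX.coe_ofComplex_natCast_mul hd0, ES.Mid.HA2.coe_ofComplex_aff one_pos]
    push_cast
    ring
  have h : ((r ^ 2 * d : ℕ) : ℂ) * ((deltaMat r M • τ : ℍ) : ℂ) = ((γ • Z : ℍ) : ℂ) := by
    have hd1 := E5_delta_denom_ne r M τ
    have hd2 := S24.Hermite.denom_ne γ Z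
    rw [E5_coe_delta, S24.Hermite.coe_smul_eq]
    rw [hZc] at hd2 ⊢
    have a00 : ((γ 0 0 : ℤ) : ℂ) = r := by simp [γ]
    have a01 : ((γ 0 1 : ℤ) : ℂ) = -((d : ℂ) * s) := by simp [γ]
    have a10 : ((γ 1 0 : ℤ) : ℂ) = e' := by simp [γ]
    have a11 : ((γ 1 1 : ℤ) : ℂ) = -k := by simp [γ]
    rw [a10, a11] at hd2
    rw [a00, a01, a10, a11]
    have hrC : (r : ℂ) ≠ 0 := by exact_mod_cast hr.ne'
    have hMC : (M : ℂ) = d * e' := by exact_mod_cast he'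
    have hsC : (s : ℂ) * ((d : ℂ) * e') = 1 + r * k := by
      rw [← hMC]; exact_mod_cast hs
    have hden : (e' : ℂ) * ((d : ℂ) * ((τ : ℂ) + (s : ℂ) / r)) + -(k : ℂ) =
        ((r : ℂ) * M * τ + 1) / r := by
      rw [hMC]
      field_simp
      linear_combination hsC
    rw [hden]
    push_cast
    field_simp
    ring
  rw [h, ofComplex_apply, S24.jFun_smul]

theorem stmt_DeltaFun : Stmt_DeltaFun := by
  intro r M d s k hr hM hd hs τ
  exact ⟨fun e he => E5_low hr hM he τ, E5_top hr hM hd hs τ⟩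

end Fermat.Agent.S36.Val

end
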