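import Fermat.Agent.S36.Val.EmbDefs

/-!
# S36 / Val : [E1] the embedding attached to `g : ℍ → ℍ`, [E2], [E2'] transport
-/

set_option autoImplicit false

noncomputable section

namespace Fermat.Agent.S36.Val

open UpperHalfPlane CongruenceSubgroup
open scoped MatrixGroups Manifold
open Fermat.Agent
open Fermat.Agent.S24 (Qbar FF funAlg iota jFunD)
open Fermat.Agent.S24.QX (qExpHom cmI Rep)
open Fermat.Agent.ES.Mid (tw gal GQ Growth)
attribute [local instance] Fermat.Agent.S24.algQbarComplex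

/-- `q`-expansions of `θ ∘ g`, `θ ∈ funAlg N`. -/
theorem E1_exists_rep (N : ℕ) (g : ℍ → ℍ)
    (hgen : ∀ d : ℕ, d ∣ N → ∃ x : LaurentSeries Qbar, Rep (cmI x) (fun τ => jFunD d (g τ)))
    {θ : ℍ → ℂ} (hθ : θ ∈ funAlg N) :
    ∃ x : LaurentSeries Qbar, Rep (cmI x) (fun τ => θ (g τ)) := by
  unfold funAlg at hθ
  induction hθ using Algebra.adjoin_induction with
  | mem θ hθ =>
    obtain ⟨d, hd, rfl⟩ := hθ
    exact hgen d hd
  | algebraMap c => exact ⟨_, S24.QX.rep_algebraMap c⟩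
  | add θ θ' _ _ h h' =>
    obtain ⟨x, hr⟩ := h
    obtain ⟨x', hr'⟩ := h'
    exact ⟨x + x', by rw [map_add]; exact hr.add hr'⟩
  | mul θ θ' _ _ h h' =>
    obtain ⟨x, hr⟩ := h
    obtain ⟨x', hr'⟩ := h'
    exact ⟨x * x', by rw [map_mul]; exact hr.mul hr'⟩

/-- The `q`-expansion of `θ ∘ g`. -/
def E1_fun (N : ℕ) (g : ℍ → ℍ)
    (hgen : ∀ d : ℕ, d ∣ N → ∃ x : LaurentSeries Qbar, Rep (cmI x) (fun τ => jFunD d (g τ)))
    (θ : funAlg N) : LaurentSeries Qbar :=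
  Classical.choose (E1_exists_rep N g hgen θ.2)

theorem E1_fun_rep (N : ℕ) (g : ℍ → ℍ)
    (hgen : ∀ d : ℕ, d ∣ N → ∃ x : LaurentSeries Qbar, Rep (cmI x) (fun τ => jFunD d (g τ)))
    (θ : funAlg N) : Rep (cmI (E1_fun N g hgen θ)) (fun τ => (θ : ℍ → ℂ) (g τ)) :=
  Classical.choose_spec (E1_exists_rep N g hgen θ.2)

theorem E1_fun_eq {N : ℕ} {g : ℍ → ℍ}
    (hgen : ∀ d : ℕ, d ∣ N → ∃ x : LaurentSeries Qbar, Rep (cmI x) (fun τ => jFunD d (g τ)))
    {θ : funAlg N} {x : LaurentSeries Qbar} (h : Rep (cmI x) (fun τ => (θ : ℍ → ℂ) (g τ))) :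
    E1_fun N g hgen θ = x :=
  S24.QX.cmI_injective ((E1_fun_rep N g hgen θ).unique h)

/-- `θ ↦` the `q`-expansion of `θ ∘ g`, as an algebra homomorphism. -/
def E1_hom (N : ℕ) (g : ℍ → ℍ)
    (hgen : ∀ d : ℕ, d ∣ N → ∃ x : LaurentSeries Qbar, Rep (cmI x) (fun τ => jFunD d (g τ))) :
    funAlg N →ₐ[Qbar] LaurentSeries Qbar where
  toFun θ := E1_fun N g hgen θ
  map_one' := E1_fun_eq hgen <| by
    have := S24.QX.rep_algebraMap 1
    simp only [map_one] at this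
    show Rep (cmI 1) (1 : ℍ → ℂ)
    rw [map_one]
    exact this
  map_mul' θ θ' := E1_fun_eq hgen <| by
    show Rep (cmI (E1_fun N g hgen θ * E1_fun N g hgen θ'))
      ((fun τ => (θ : ℍ → ℂ) (g τ)) * (fun τ => (θ' : ℍ → ℂ) (g τ)))
    rw [map_mul]
    exact (E1_fun_rep N g hgen θ).mul (E1_fun_rep N g hgen θ')
  map_zero' := E1_fun_eq hgen <| by
    have := S24.QX.rep_algebraMap 0
    simp only [map_zero] at this
    show Rep (cmI 0) (0 : ℍ → ℂ)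
    rw [map_zero]
    exact this
  map_add' θ θ' := E1_fun_eq hgen <| by
    show Rep (cmI (E1_fun N g hgen θ + E1_fun N g hgen θ'))
      ((fun τ => (θ : ℍ → ℂ) (g τ)) + (fun τ => (θ' : ℍ → ℂ) (g τ)))
    rw [map_add]
    exact (E1_fun_rep N g hgen θ).add (E1_fun_rep N g hgen θ')
  commutes' c := E1_fun_eq hgen <| S24.QX.rep_algebraMap c

theorem E1_hom_injective (N : ℕ) (g : ℍ → ℍ) (hg : Function.Surjective g)
    (hgen : ∀ d : ℕ, d ∣ N → ∃ x : LaurentSeries Qbar, Rep (cmI x) (fun τ => jFunD d (g τ))) :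
    Function.Injective (E1_hom N g hgen) := by
  intro θ θ' h
  have h1 : E1_fun N g hgen θ = E1_fun N g hgen θ' := h
  have h2 := E1_fun_rep N g hgen θ
  rw [h1] at h2
  have h3 := h2.unique_right (E1_fun_rep N g hgen θ')
  apply Subtype.ext
  funext z
  obtain ⟨τ, rfl⟩ := hg z
  exact congrFun h3 τ

/-- **[E1]** -/
theorem stmt_EmbGen : Stmt_EmbGen := by
  intro N _ g hg hgen
  refine ⟨S24.liftHom (qExpHom N) (S24.QX.qExpHom_injective N) (INJ.Inst.fricke_frac N)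
    (E1_hom N g hgen) (E1_hom_injective N g hg hgen), fun θ => ?_⟩
  rw [S24.liftHom_apply]
  exact E1_fun_rep N g hgen θ

/-- **[E2]** -/
theorem stmt_Transport : Stmt_Transport := by
  intro N _ g φ hφ y θ₁ θ₂ G x hθ₂ hy hG hx
  have h1 : Rep (cmI x * cmI (φ (qExpHom N θ₂))) (G * fun τ => (θ₂ : ℍ → ℂ) (g τ)) :=
    hx.mul (hφ θ₂)
  have h2 : (G * fun τ => (θ₂ : ℍ → ℂ) (g τ)) = fun τ => (θ₁ : ℍ → ℂ) (g τ) := by
    funext τ
    exact hG τ
  rw [h2, ← map_mul] at h1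
  have h3 : x * φ (qExpHom N θ₂) = φ (qExpHom N θ₁) :=
    S24.QX.cmI_injective (h1.unique (hφ θ₁))
  have h4 : φ (qExpHom N θ₂) ≠ 0 := by
    rw [Ne, map_eq_zero]
    intro h0
    exact hθ₂ (S24.QX.qExpHom_injective N (by rw [h0, map_zero]))
  apply mul_right_cancel₀ h4
  rw [h3, ← map_mul, hy]

/-- **[E2']** -/
theorem stmt_TransportInv : Stmt_TransportInv := by
  intro N _ g φ hφ Y y x hmd hinv hgr hy hx
  obtain ⟨θ₁, θ₂, hθ₂, hfun, hser⟩ :=
    ES.Mid.INV.invRat N Y (y : LaurentSeries Qbar) hmd hinv hgr hy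
  exact stmt_Transport N g φ hφ y θ₁ θ₂ (fun τ => Y (g τ)) x hθ₂ (Subtype.ext hser)
    (fun τ => hfun (g τ)) hx

end Fermat.Agent.S36.Val

end
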