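import Fermat.Agent.S36.Val.Interface2

/-!
# S36 / Val / X1 : ring homomorphisms out of `FE A N` are determined by the constants and the
`j(q^d)`
-/

set_option autoImplicit false

noncomputable section

namespace Fermat.Agent.S36.Val

open Fermat.Agent
open Fermat.Agent.S24 (Qbar)
open Fermat.Agent.S36.Base
open ModularCurve (coeffEmb qExpand)

/-- the image in `E((q))` of the equaliser of `f` and `g`. -/
def ExtRingE_T (A : ValuationSubring Qbar) (N : ℕ) (L : Type) [Field L] (f g : FE A N →+* L) :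
    Subfield (Base.LE A) :=
  (RingHom.eqLocusField f g).map (algebraMap (FE A N) (Base.LE A))

theorem ExtRingE_mem_T (A : ValuationSubring Qbar) (N : ℕ) (L : Type) [Field L]
    (f g : FE A N →+* L) (y : FE A N) (hy : f y = g y) : (y : Base.LE A) ∈ ExtRingE_T A N L f g :=
  ⟨y, hy, rfl⟩

theorem ExtRingE_of_mem_T (A : ValuationSubring Qbar) (N : ℕ) (L : Type) [Field L]
    (f g : FE A N →+* L) (y : FE A N) (hy : (y : Base.LE A) ∈ ExtRingE_T A N L f g) : f y = g y := by
  obtain ⟨z, hz, hzy⟩ := hy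
  have h : z = y := Subtype.ext hzy
  rw [← h]
  exact hz

theorem ExtRingE_full (A : ValuationSubring Qbar) (N : ℕ) [NeZero N] (L : Type) [Field L]
    (f g : FE A N →+* L) (hj : ∀ d : ℕ, d ∣ N → f (jE A N d) = g (jE A N d))
    (z : LaurentSeries ℚ) (hz : z ∈ ModularCurve.modularFunctionFieldFull N) :
    coeffEmb (IE A) z ∈ ExtRingE_T A N L f g := by
  unfold ModularCurve.modularFunctionFieldFull at hz
  induction hz using IntermediateField.adjoin_induction with
  | mem x hx =>
    obtain ⟨d, hd0, hd, rfl⟩ := hx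
    have h1 : qExpand ℚ d ModularCurve.jq = S28.jd ℚ d := by
      rw [S28.jd, S28.Vq_eq]
      rfl
    have h2 : coeffEmb (IE A) (qExpand ℚ d ModularCurve.jq) = ((jE A N d : FE A N) : Base.LE A) := by
      rw [h1, coeffEmb, INJ.Inst.coeffMap_jd]
      exact (isJE_jE A N hd).symm
    rw [h2]
    exact ExtRingE_mem_T A N L f g _ (hj d hd)
  | algebraMap c =>
    rw [eq_ratCast, map_ratCast]
    exact SubfieldClass.ratCast_mem _ c
  | add x y _ _ hx hy =>
    rw [map_add]
    exact add_mem hx hy
  | inv x _ hx =>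
    rw [map_inv₀]
    exact inv_mem hx
  | mul x y _ _ hx hy =>
    rw [map_mul]
    exact mul_mem hx hy

/-- [X1] -/
theorem stmt_ExtRingE : Stmt_ExtRingE := by
  intro A N _ L _ f g hc hj
  ext y
  apply ExtRingE_of_mem_T A N L f g y
  have hy : (y : Base.LE A) ∈ FE A N := y.2
  rw [ModularCurve.mem_laurentBaseChange_iff] at hy
  refine (Subfield.closure_le.2 ?_) hy
  rintro x (⟨c, rfl⟩ | ⟨z, hz, rfl⟩)
  · exact ExtRingE_mem_T A N L f g (algebraMap (IE A) (FE A N) c) (hc c)
  · exact ExtRingE_full A N L f g hj z hz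

end Fermat.Agent.S36.Val

end
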