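import Fermat.Agent.S36.Val.Interface2
import Fermat.Agent.S36.Val.GVApi
import Fermat.Agent.S36.Val.JTw
import Fermat.Agent.INJ.Inst.Basic

/-!
# S36 / Val, [P6] : residue independence and Frobenius congruences (`Stmt_Indep`)
-/

set_option autoImplicit false

noncomputable section

namespace Fermat.Agent.S36.Val

open Fermat.Agent
open Fermat.Agent.S24 (Qbar FF)
open Fermat.Agent.INJ.Inst (kA)
open Fermat.Agent.INJ.Inst.Gauss (IsRatio red rho inc)
open Fermat.Agent.S36.Base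
open ModularCurve (qExpand coeffMap)

section Series

variable {A : ValuationSubring Qbar}

theorem Indep_jd_inc (d : ℕ) : S28.jd Qbar d = inc A (S28.jd A d) :=
  (INJ.Inst.coeffMap_jd A.subtype d).symm

theorem Indep_gint_jd (d : ℕ) : GInt A (S28.jd Qbar d) := by
  rw [Indep_jd_inc (A := A)]; exact gint_inc _

theorem Indep_gred_jd (d : ℕ) : gred A (S28.jd Qbar d) = S28.jd (kA A) d := by
  rw [Indep_jd_inc (A := A), gred_inc]; exact INJ.Inst.coeffMap_jd _ d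

theorem Indep_qExpand_jd (R : Type) [CommRing R] (r d : ℕ) [NeZero r] (hd : d ≠ 0) :
    qExpand R r (S28.jd R d) = S28.jd R (r * d) := by
  rw [← S28.Vq_eq, S28.jd, S28.tower_Vq_Vq R (NeZero.ne r) hd, S28.jd]

theorem Indep_char {r : ℕ} (hr : r.Prime) (hA : A.LiesOverPrime r) : (r : kA A) = 0 := by
  have := JTw_charP A hr hA
  exact CharP.cast_eq_zero (kA A) r

/-- the general lemma. -/
theorem Indep_general (hE : Stmt_GVExpand) (hI : Stmt_IndepPow) (hJ : Stmt_JFrob) {r : ℕ}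
    [NeZero r] (hr : r.Prime) (hA : A.LiesOverPrime r) {K L : Type} [Field K] [Field L]
    (π : K →+* L) (φV : K →+* LaurentSeries Qbar) (φW : L →+* LaurentSeries Qbar)
    (hV : ∀ x, Sat A (φV x)) (hW : ∀ x, Sat A (φW x))
    (hc : ∀ x, φW (π x) = qExpand Qbar r (φV x)) (g : L) (hg : φW g = S28.jd Qbar 1) :
    ResIndep π (gv φV hV) (gv φW hW) (fun i : Fin r => g ^ (i : ℕ)) := by
  refine ⟨fun l => ?_, fun c hcV hlt l => ?_⟩
  · rw [mem_gv, map_pow, hg]; exact (Indep_gint_jd 1).pow _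
  · rw [gv_lt_one_iff] at hlt ⊢
    have hcV' : ∀ l, GInt A (φV (c l)) := fun l => (mem_gv _ _ _).1 (hcV l)
    refine ⟨hcV' l, ?_⟩
    have hterm : ∀ l : Fin r, GInt A (qExpand Qbar r (φV (c l)) * S28.jd Qbar 1 ^ (l : ℕ)) :=
      fun l => ((hE A r _ (hcV' l)).1).mul ((Indep_gint_jd 1).pow _)
    have hsum : φW (∑ l, π (c l) * g ^ (l : ℕ))
        = ∑ l, qExpand Qbar r (φV (c l)) * S28.jd Qbar 1 ^ (l : ℕ) := by
      rw [map_sum]
      refine Finset.sum_congr rfl fun l _ => ?_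
      rw [map_mul, map_pow, hc, hg]
    have h0 := hlt.2
    rw [hsum, gred_sum _ _ (fun l _ => hterm l)] at h0
    have h1 : ∑ l : Fin r, qExpand (kA A) r (gred A (φV (c l))) * S28.jd (kA A) 1 ^ (l : ℕ)
        = 0 := by
      rw [← h0]
      refine Finset.sum_congr rfl fun l _ => ?_
      rw [gred_mul (hE A r _ (hcV' l)).1 ((Indep_gint_jd 1).pow _), (hE A r _ (hcV' l)).2,
        gred_pow (Indep_gint_jd 1), Indep_gred_jd]
    exact hI (kA A) r (S28.jd (kA A) 1) (hJ (kA A) r hr (Indep_char hr hA)).2 _ h1 l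

/-- `j(q)^r ≡ j(q^r)`. -/
theorem Indep_frob (hJ : Stmt_JFrob) {r : ℕ} (hr : r.Prime) (hA : A.LiesOverPrime r) :
    GInt A (S28.jd Qbar 1 ^ r - S28.jd Qbar r) ∧
      gred A (S28.jd Qbar 1 ^ r - S28.jd Qbar r) = 0 := by
  refine ⟨((Indep_gint_jd 1).pow r).sub (Indep_gint_jd r), ?_⟩
  rw [gred_sub ((Indep_gint_jd 1).pow r) (Indep_gint_jd r), gred_pow (Indep_gint_jd 1),
    Indep_gred_jd, Indep_gred_jd, (hJ (kA A) r hr (Indep_char hr hA)).1 1 one_pos, mul_one,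
    sub_self]

theorem Indep_frob' (hJ : Stmt_JFrob) {r : ℕ} (hr : r.Prime) (hA : A.LiesOverPrime r) :
    GInt A (S28.jd Qbar r - S28.jd Qbar 1 ^ r) ∧
      gred A (S28.jd Qbar r - S28.jd Qbar 1 ^ r) = 0 := by
  refine ⟨(Indep_gint_jd r).sub ((Indep_gint_jd 1).pow r), ?_⟩
  rw [gred_sub (Indep_gint_jd r) ((Indep_gint_jd 1).pow r), gred_pow (Indep_gint_jd 1),
    Indep_gred_jd, Indep_gred_jd, (hJ (kA A) r hr (Indep_char hr hA)).1 1 one_pos, mul_one,
    sub_self]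

/-- `j(q) ≢ j(q^r)^r`. -/
theorem Indep_ne (hJ : Stmt_JFrob) {r : ℕ} (hr : r.Prime) (hA : A.LiesOverPrime r) :
    GInt A (S28.jd Qbar 1 - S28.jd Qbar r ^ r) ∧
      gred A (S28.jd Qbar 1 - S28.jd Qbar r ^ r) ≠ 0 := by
  refine ⟨(Indep_gint_jd 1).sub ((Indep_gint_jd r).pow r), ?_⟩
  rw [gred_sub (Indep_gint_jd 1) ((Indep_gint_jd r).pow r), gred_pow (Indep_gint_jd r),
    Indep_gred_jd, Indep_gred_jd, (hJ (kA A) r hr (Indep_char hr hA)).1 r hr.pos]
  intro h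
  have h1 := congrArg (fun z : LaurentSeries (kA A) => z.coeff (-((r * r : ℕ) : ℤ))) h
  simp only [HahnSeries.coeff_sub, HahnSeries.coeff_zero] at h1
  rw [INJ.Inst.coeff_jd (kA A) (mul_ne_zero hr.ne_zero hr.ne_zero),
    HahnSeries.coeff_eq_zero_of_lt_order, zero_sub] at h1
  · exact one_ne_zero (neg_eq_zero.1 h1)
  · rw [(hJ (kA A) r hr (Indep_char hr hA)).2]
    have h2 : 2 ≤ r := hr.two_le
    have h3 : 2 * 2 ≤ r * r := Nat.mul_le_mul h2 h2
    push_cast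
    have h4 : (4 : ℤ) ≤ (r : ℤ) * r := by exact_mod_cast h3
    omega

end Series

/-- **[P6]**. -/
theorem stmt_Indep (hP : Stmt_PhiGen) (hL : Stmt_PhiLevel) (_hG : Stmt_GVApi)
    (hE : Stmt_GVExpand) (hI : Stmt_IndepPow) (hJ : Stmt_JFrob) : Stmt_Indep := by
  intro A r M _ _ _ _ C
  obtain ⟨hPA, -, hPC, -, -, -, -⟩ := hP A
  obtain ⟨-, -, hL3, hL4, -, -, -, hL8⟩ := hL A r M C
  have hr := C.hr
  have hA := C.hA
  have hr2 : 0 < r ^ 2 := pow_pos hr.pos 2
  -- values on the generators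
  have g2 : phiC A C.W2 (jE A (r ^ 2 * M) (r ^ 2)) = S28.jd Qbar 1 := by
    have h := hPC (r ^ 2) M C.W2 (r ^ 2) 1 dvd_rfl (one_dvd M)
    simpa only [mul_one, Nat.div_self hr2] using h
  have g1 : phiC A C.W1 (jE A (r * M) r) = S28.jd Qbar 1 := by
    have h := hPC r M C.W1 r 1 dvd_rfl (one_dvd M)
    simpa only [mul_one, Nat.div_self hr.pos] using h
  have g1' : phiC A C.W1 (jE A (r * M) 1) = S28.jd Qbar r := by
    have h := hPC r M C.W1 1 1 (one_dvd r) (one_dvd M)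
    simpa only [mul_one, Nat.div_one] using h
  have a2 : phiA A (r ^ 2 * M) (jE A (r ^ 2 * M) 1) = S28.jd Qbar 1 :=
    hPA (r ^ 2 * M) 1 (one_dvd _)
  have a1 : phiA A (r * M) (jE A (r * M) 1) = S28.jd Qbar 1 := hPA (r * M) 1 (one_dvd _)
  have a1r : phiA A (r * M) (jE A (r * M) r) = S28.jd Qbar r := hPA (r * M) r (dvd_mul_right r M)
  have hq : qExpand Qbar r (S28.jd Qbar 1) = S28.jd Qbar r := by
    rw [Indep_qExpand_jd Qbar r 1 one_ne_zero, mul_one]
  refine ⟨?_, ?_, ?_, ?_, ?_, ?_, ?_, ?_⟩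
  · exact Indep_general hE hI hJ hr hA C.i12 (phiC A C.W1) (phiC A C.W2)
      (fun _ => sat_incl A _ _) (fun _ => sat_incl A _ _) hL3 _ g2
  · show GInt A (phiC A C.W1 (jE A (r * M) r))
    rw [g1]; exact Indep_gint_jd 1
  · show (OC A C.W2).valuation _ < 1
    refine (gv_lt_one_iff _ _ _).2 ?_
    rw [map_sub, map_pow, g2, hL3, g1, hq]
    exact Indep_frob hJ hr hA
  · exact Indep_general hE hI hJ hr hA C.v12 (phiA A (r * M)) (phiA A (r ^ 2 * M))
      (fun _ => sat_incl A _ _) (fun _ => sat_incl A _ _) hL4 _ a2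
  · show GInt A (phiA A (r * M) (jE A (r * M) 1))
    rw [a1]; exact Indep_gint_jd 1
  · show (OA A (r ^ 2 * M)).valuation _ < 1
    refine (gv_lt_one_iff _ _ _).2 ?_
    rw [map_sub, map_pow, a2, hL4, a1, hq]
    exact Indep_frob hJ hr hA
  · exact Indep_general hE hI hJ hr hA C.i01 (phiA A M) (phiC A C.W1)
      (fun _ => sat_incl A _ _) (fun _ => sat_incl A _ _) hL8 _ g1
  · intro h
    have h1 : (OA A (r * M)).valuation (jE A (r * M) r - jE A (r * M) 1 ^ r) < 1 := by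
      refine (gv_lt_one_iff _ _ _).2 ?_
      rw [map_sub, map_pow, a1r, a1]
      exact Indep_frob' hJ hr hA
    have h2 : (OC A C.W1).valuation (jE A (r * M) r - jE A (r * M) 1 ^ r) = 1 := by
      refine (gv_eq_one_iff _ _ _).2 ?_
      rw [map_sub, map_pow, g1, g1']
      exact Indep_ne hJ hr hA
    rw [h] at h1
    exact absurd h2 (ne_of_lt h1)

end Fermat.Agent.S36.Val

end
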