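import Fermat.Agent.S36.Val.Interface2
import Fermat.Prelude.Def_ModularCurve_HeckeOperator

/-!
# S36 / Val / X2 : the level maps `FE A N₁ → FE A N₂`
-/

set_option autoImplicit false

noncomputable section

namespace Fermat.Agent.S36.Val

open Fermat.Agent
open Fermat.Agent.S24 (Qbar FF)
open Fermat.Agent.S36.Base
open ModularCurve (qExpand coeffMap laurentBaseChange modularFunctionFieldFull)

theorem X2_mono (L : Type*) [Field L] [Algebra ℚ L]
    {F₀ F₁ : IntermediateField ℚ (LaurentSeries ℚ)} (h : F₀ ≤ F₁) :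
    laurentBaseChange L F₀ ≤ laurentBaseChange L F₁ := by
  rw [laurentBaseChange, IntermediateField.adjoin_le_iff]
  rintro _ ⟨y, hy, rfl⟩
  exact ModularCurve.coeffEmb_mem_laurentBaseChange L (h hy)

theorem X2_le (A : ValuationSubring Qbar) {N₁ N₂ : ℕ} [NeZero N₁] [NeZero N₂] (h : N₁ ∣ N₂) :
    FE A N₁ ≤ FE A N₂ :=
  X2_mono (IE A) (ModularCurve.full_degeneracy_le h)

theorem X2_qExpand_const (L : Type*) [Field L] (r : ℕ) [NeZero r] (a : L) :
    qExpand L r (algebraMap L (LaurentSeries L) a) = algebraMap L (LaurentSeries L) a := by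
  rw [ModularCurve.algebraMap_laurentSeries_eq_single, ModularCurve.qExpand_single, mul_zero]

theorem X2_exists_incl {L : Type*} [Field L] {K₁ K₂ : IntermediateField L (LaurentSeries L)}
    (h : K₁ ≤ K₂) : ∃ π : K₁ →+* K₂, ∀ x : K₁, ((π x : K₂) : LaurentSeries L) = x :=
  ⟨(IntermediateField.inclusion h).toRingHom, fun _ => rfl⟩

theorem X2_exists_V {L : Type*} [Field L] (r : ℕ) [NeZero r]
    {K₁ K₂ : IntermediateField L (LaurentSeries L)} (h : ∀ x ∈ K₁, qExpand L r x ∈ K₂) :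
    ∃ π : K₁ →+* K₂, ∀ x : K₁, ((π x : K₂) : LaurentSeries L) = qExpand L r x :=
  ⟨{ toFun := fun x => ⟨qExpand L r x, h x x.2⟩
     map_one' := Subtype.ext (map_one (qExpand L r))
     map_mul' := fun _ _ => Subtype.ext (map_mul (qExpand L r) _ _)
     map_zero' := Subtype.ext (map_zero (qExpand L r))
     map_add' := fun _ _ => Subtype.ext (map_add (qExpand L r) _ _) }, fun _ => rfl⟩

theorem X2_qExpand_mem (L : Type*) [Field L] [Algebra ℚ L] (N r : ℕ) [NeZero r]
    (x : LaurentSeries L) (hx : x ∈ laurentBaseChange L (modularFunctionFieldFull N)) :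
    qExpand L r x ∈ laurentBaseChange L (modularFunctionFieldFull (N * r)) :=
  (ModularCurve.heckeBetaBarRingHom L N r ⟨x, hx⟩).2

theorem stmt_LevelMaps : Stmt_LevelMaps := by
  intro A N₁ N₂ _ _
  refine ⟨fun h => X2_exists_incl (X2_le A h), ?_⟩
  intro r _ h
  have : NeZero (N₁ * r) := ⟨Nat.mul_ne_zero (NeZero.ne N₁) (NeZero.ne r)⟩
  have h' : N₁ * r ∣ N₂ := by rwa [mul_comm]
  exact X2_exists_V r fun x hx => X2_le A h' (X2_qExpand_mem (IE A) N₁ r x hx)

theorem X2_coe_algebraMap (A : ValuationSubring Qbar) (N : ℕ) (a : AE A) :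
    ((algebraMap (AE A) (FE A N) a : FE A N) : Base.LE A)
      = algebraMap (IE A) (Base.LE A) (algebraMap (AE A) (IE A) a) := rfl

theorem X2_incl_const (A : ValuationSubring Qbar) {N₁ N₂ : ℕ} (π : FE A N₁ →+* FE A N₂)
    (h : IsInclE A π) (a : AE A) :
    π (algebraMap (AE A) (FE A N₁) a) = algebraMap (AE A) (FE A N₂) a :=
  Subtype.ext (by rw [h, X2_coe_algebraMap, X2_coe_algebraMap])

theorem X2_V_const (A : ValuationSubring Qbar) (r : ℕ) [NeZero r] {N₁ N₂ : ℕ}
    (π : FE A N₁ →+* FE A N₂) (h : IsVE A r π) (a : AE A) :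
    π (algebraMap (AE A) (FE A N₁) a) = algebraMap (AE A) (FE A N₂) a :=
  Subtype.ext (by rw [h, X2_coe_algebraMap, X2_coe_algebraMap, X2_qExpand_const])

theorem stmt_LevelConst : Stmt_LevelConst := by
  intro A r M _ _ _ _ C
  exact ⟨X2_incl_const A C.i12 C.hi12, X2_V_const A r C.v12 C.hv12, X2_incl_const A C.i01 C.hi01⟩

end Fermat.Agent.S36.Val

end
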