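import Fermat.Agent.S36.Val.Interface2

/-!
# S36 / Val / VAL-M1 : first main output (uniformisers, `ord`, `D₁`, `D₂`, classification)
-/

set_option autoImplicit false

noncomputable section

namespace Fermat.Agent.S36.Val

open Fermat.Agent
open Fermat.Agent.S24 (Qbar FF)
open Fermat.Agent.S36.Base
open Fermat.Agent.CAR (NR.IsUnif)

theorem Main1_over_comp {K₀ K₁ K₂ : Type*} [Field K₀] [Field K₁] [Field K₂] {π : K₀ →+* K₁}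
    {ρ : K₁ →+* K₂} {V₀ : ValuationSubring K₀} {V₁ : ValuationSubring K₁}
    {V₂ : ValuationSubring K₂} (h : Over π V₀ V₁) (h' : Over ρ V₁ V₂) :
    Over (ρ.comp π) V₀ V₂ := fun a => (h' (π a)).trans (h a)

theorem Main1_over_unique {K₁ K₂ : Type*} [Field K₁] [Field K₂] {ρ : K₁ →+* K₂}
    {V V' : ValuationSubring K₁} {W : ValuationSubring K₂} (h : Over ρ V W) (h' : Over ρ V' W) :
    V = V' := by
  ext a
  exact (h a).symm.trans (h' a)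

/-- the abstract assembly. -/
theorem Main1_abs (hDA : Stmt_DegenAbs) (hC2 : Stmt_Class2) (hO : Stmt_OrdOf)
    (A₀ F₀ F₁ F₂ : Type) [CommRing A₀] [Field F₀] [Field F₁] [Field F₂] [CharZero F₀] [CharZero F₁]
    [Algebra A₀ F₁] [Algebra A₀ F₂] (i01 : F₀ →+* F₁) (i12 v12 : F₁ →+* F₂) (r : ℕ)
    (hr : r.Prime) (V₀ : ValuationSubring F₀) (VA VC : ValuationSubring F₁)
    (O : Fin 3 → ValuationSubring F₂) (pM g h : F₂) (g' h' : F₁)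
    (hc12 : ∀ a : A₀, i12 (algebraMap A₀ F₁ a) = algebraMap A₀ F₂ a)
    (hcv12 : ∀ a : A₀, v12 (algebraMap A₀ F₁ a) = algebraMap A₀ F₂ a)
    (hd12 : DegLE i12 r) (hdv12 : DegLE v12 r) (hd01 : DegLE i01 (r + 1))
    (hU0 : NR.IsUnif V₀ (r : F₀)) (hUA : NR.IsUnif VA (r : F₁)) (hUC : NR.IsUnif VC (r : F₁))
    (oi0 : Over i12 VA (O 0)) (oi1 : Over i12 VA (O 1)) (oi2 : Over i12 VC (O 2))
    (ov0 : Over v12 VA (O 0)) (ov1 : Over v12 VC (O 1)) (ov2 : Over v12 VC (O 2))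
    (o0A : Over i01 V₀ VA) (o0C : Over i01 V₀ VC)
    (hp : pM ≠ 0) (hp0 : (O 0).valuation pM = 1) (hp2 : (O 2).valuation pM = 1)
    (hp1 : (O 1).valuation pM < 1)
    (hpr : (O 1).valuation (r : F₂) ≤ (O 1).valuation pM ^ (r - 1))
    (hR2 : ResIndep i12 VC (O 2) (fun i : Fin r => g ^ (i : ℕ))) (hg' : g' ∈ VC)
    (hg : (O 2).valuation (g ^ r - i12 g') < 1)
    (hR0 : ResIndep v12 VA (O 0) (fun i : Fin r => h ^ (i : ℕ))) (hh' : h' ∈ VA)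
    (hh : (O 0).valuation (h ^ r - v12 h') < 1)
    (hR1 : ResIndep i01 V₀ VC (fun i : Fin r => g' ^ (i : ℕ))) (hAC : VA ≠ VC) :
    (NR.IsUnif (O 0) (r : F₂) ∧ NR.IsUnif (O 1) pM ∧ NR.IsUnif (O 2) (r : F₂)) ∧
    (ordOf (O 0) (r : F₂) (r : F₂) = 1 ∧ ordOf (O 1) pM (r : F₂) = (r : ℤ) - 1 ∧
      ordOf (O 2) (r : F₂) (r : F₂) = 1) ∧
    (ordOf (O 0) (r : F₂) pM = 0 ∧ ordOf (O 1) pM pM = 1 ∧ ordOf (O 2) (r : F₂) pM = 0) ∧
    (∀ X Y, O X = O Y → X = Y) ∧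
    (∀ W' : ValuationSubring F₂, Over (i12.comp i01) V₀ W' → ∃ X, W' = O X) ∧
    (∀ X, Over (i12.comp i01) V₀ (O X)) ∧
    (∃ D₁ : Degen A₀ F₂ F₁ (ordOf (O 0) (r : F₂)) (ordOf (O 1) pM) (ordOf (O 2) (r : F₂)) r,
      D₁.π = i12 ∧ ∀ x, D₁.N x = @Algebra.norm _ _ _ _ i12.toAlgebra x) ∧
    (∃ D₂ : Degen A₀ F₂ F₁ (ordOf (O 2) (r : F₂)) (ordOf (O 1) pM) (ordOf (O 0) (r : F₂)) r,
      D₂.π = v12 ∧ ∀ x, D₂.N x = @Algebra.norm _ _ _ _ v12.toAlgebra x) ∧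
    @Module.finrank _ _ _ _ i12.toAlgebra.toModule = r ∧
    @Module.finrank _ _ _ _ v12.toAlgebra.toModule = r := by
  have h01 : O 0 ≠ O 1 := by
    intro e
    rw [e] at hp0
    exact absurd hp0 hp1.ne
  have h21 : O 2 ≠ O 1 := by
    intro e
    rw [e] at hp2
    exact absurd hp2 hp1.ne
  have h02 : O 0 ≠ O 2 := by
    intro e
    rw [e] at oi0
    exact hAC (Main1_over_unique oi0 oi2)
  obtain ⟨u0, u1, u2, hval, cA, cC, hfr, D₁, hD₁⟩ := hDA A₀ F₁ F₂ i12 r VA VC (O 0) (O 1) (O 2)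
    pM g g' hr hc12 hd12 hUA hUC oi0 oi1 oi2 h01 hp hp1 hpr hg' hg hR2
  obtain ⟨-, -, -, -, -, -, hfr', D₂, hD₂⟩ := hDA A₀ F₁ F₂ v12 r VC VA (O 2) (O 1) (O 0)
    pM h h' hr hcv12 hdv12 hUC hUA ov2 ov1 ov0 h21 hp hp1 hpr hh' hh hR0
  refine ⟨⟨u0, u1, u2⟩, ⟨(hO F₂ _ _ u0).2.2.2.2.2, ?_, (hO F₂ _ _ u2).2.2.2.2.2⟩,
    ⟨?_, (hO F₂ _ _ u1).2.2.2.2.2, ?_⟩, ?_, ?_, ?_, ⟨D₁, hD₁⟩, ⟨D₂, hD₂⟩, hfr, hfr'⟩
  · refine (hO F₂ _ _ u1).2.1 _ _ ?_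
    have e : (r : ℤ) - 1 = ((r - 1 : ℕ) : ℤ) := by
      rw [Nat.cast_sub hr.one_le, Nat.cast_one]
    rw [e, zpow_natCast]
    exact hval
  · refine (hO F₂ _ _ u0).2.1 _ _ ?_
    rw [zpow_zero]
    exact hp0
  · refine (hO F₂ _ _ u2).2.1 _ _ ?_
    rw [zpow_zero]
    exact hp2
  · intro X Y hXY
    fin_cases X <;> fin_cases Y <;> first
      | rfl
      | exact absurd hXY h01
      | exact absurd hXY h21
      | exact absurd hXY h02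
      | exact absurd hXY.symm h01
      | exact absurd hXY.symm h21
      | exact absurd hXY.symm h02
  · intro W' hW'
    have o1 : Over i12 (W'.comap i12) W' := fun _ => Iff.rfl
    have o2 : Over i01 V₀ (W'.comap i12) := fun a => hW' a
    rcases hC2 F₀ F₁ i01 r V₀ VA VC g' hr.pos hd01 hU0 o0A o0C hAC hR1 _ o2 with e | e
    · rw [e] at o1
      rcases cA W' o1 with e' | e'
      · exact ⟨0, e'⟩
      · exact ⟨1, e'⟩
    · rw [e] at o1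
      exact ⟨2, cC W' o1⟩
  · intro X
    fin_cases X
    · exact Main1_over_comp o0A oi0
    · exact Main1_over_comp o0A oi1
    · exact Main1_over_comp o0C oi2

theorem stmt_Main1 (hDA : Stmt_DegenAbs) (hC2 : Stmt_Class2) (hOv : Stmt_OverAll)
    (hU : Stmt_UnifR) (hPM : Stmt_PM) (hI : Stmt_Indep) (hDeg : Stmt_DegE)
    (hLC : Stmt_LevelConst) (hO : Stmt_OrdOf) : Stmt_Main1 := by
  intro A r M _ _ _ _ C
  obtain ⟨oi0, oi1, oi2, ov0, ov1, ov2, o0A, o0C⟩ := hOv A r M C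
  obtain ⟨hUA, hUC⟩ := hU A r C.hr C.hA
  obtain ⟨hp, hp0, hp2, hp1, hpr⟩ := hPM A r M C
  obtain ⟨hR2, hg', hg, hR0, hh', hh, hR1, hAC⟩ := hI A r M C
  obtain ⟨hd12, hdv12, hd01⟩ := hDeg A r M C
  obtain ⟨hc12, hcv12, -⟩ := hLC A r M C
  obtain ⟨⟨u0, u1, u2⟩, h2, h3, h4, h5, h6, h7, h8, h9, h10⟩ :=
    Main1_abs hDA hC2 hO (AE A) (FE A M) (FE A (r * M)) (FE A (r ^ 2 * M)) C.i01 C.i12 C.v12 r
      C.hr (OA A M) (OA A (r * M)) (OC A C.W1) C.O C.pM (jE A (r ^ 2 * M) (r ^ 2))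
      (jE A (r ^ 2 * M) 1) (jE A (r * M) r) (jE A (r * M) 1) hc12 hcv12 hd12 hdv12 hd01
      (hUA M) (hUA (r * M)) (hUC r M C.W1) oi0 oi1 oi2 ov0 ov1 ov2 o0A o0C hp hp0 hp2 hp1 hpr
      hR2 hg' hg hR0 hh' hh hR1 hAC
  refine ⟨?_, h2, h3, h4, h5, h6, h7, h8, h9, h10⟩
  intro X
  fin_cases X
  · exact u0
  · exact u1
  · exact u2

end Fermat.Agent.S36.Val

end
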