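import Fermat.Agent.S36.Val.Interface2

/-!
# S36 / Val / [M2] : second main output, the `cen` fields  (helper50, task 988)
-/

set_option autoImplicit false

noncomputable section

namespace Fermat.Agent.S36.Val

open Fermat.Agent
open Fermat.Agent.S24 (Qbar FF)
open Fermat.Agent.S36.Base
open Fermat.Agent.KL (Chart PolyR cst crd FinOverR)
open Fermat.Agent.CAR (NR.IsUnif)
open Polynomial

/-- transcendence only depends on the underlying series. -/
theorem M2_transcendental (A : ValuationSubring Qbar) {N₁ N₂ : ℕ} (x : FE A N₁) (y : FE A N₂)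
    (h : (y : Base.LE A) = (x : Base.LE A)) (hx : Transcendental (IE A) x) :
    Transcendental (IE A) y := by
  rw [← transcendental_algebraMap_iff (algebraMap (FE A N₂) (Base.LE A)).injective]
  rw [← transcendental_algebraMap_iff (algebraMap (FE A N₁) (Base.LE A)).injective] at hx
  have h' : algebraMap (FE A N₂) (Base.LE A) y = algebraMap (FE A N₁) (Base.LE A) x := h
  rw [h']
  exact hx

/-- **[M2]**. -/
theorem stmt_Main2 (hM1 : Stmt_Main1) (hCF : Stmt_CenFin) (hVO : Stmt_VertOver)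
    (hLC : Stmt_LevelConst) (hDVR : Base.Stmt_DVR) (hFin : Base.Stmt_Fin) : Stmt_Main2 := by
  intro A r M _ _ _ _ C t₀ hG htr
  obtain ⟨hU, -, -, -, hcl, hov, -⟩ := hM1 A r M C
  obtain ⟨hc12, -, hc01⟩ := hLC A r M C
  have hπc : ∀ a : AE A, (C.i12.comp C.i01) (algebraMap (AE A) (FE A M) a)
      = algebraMap (AE A) (FE A (r ^ 2 * M)) a := fun a => by
    rw [RingHom.comp_apply, hc01, hc12]
  have hvert : ∀ O : ValuationSubring (FE A (r ^ 2 * M)),
      IsVert (AE A) ((r : ℕ) : AE A) (C.i12 (C.i01 t₀)) O ↔ ∃ X, O = C.O X := by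
    intro O
    constructor
    · intro h
      have hover : Over (C.i12.comp C.i01) (O.comap (C.i12.comp C.i01)) O := fun a => Iff.rfl
      have h1 := (hVO (AE A) _ _ (C.i12.comp C.i01) _ t₀ (O.comap (C.i12.comp C.i01)) O hπc
        hover).2 h
      have h2 := hG.2 _ h1
      rw [h2] at hover
      exact hcl O hover
    · rintro ⟨X, rfl⟩
      exact (hVO (AE A) _ _ (C.i12.comp C.i01) _ t₀ (OA A M) (C.O X) hπc (hov X)).1 hG.1
  obtain ⟨hdvr, hirr⟩ := hDVR r A C.hr C.hA
  have htr' : Transcendental (IE A) (C.i12 (C.i01 t₀)) :=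
    M2_transcendental A t₀ _ (by rw [C.hi12, C.hi01]) htr
  obtain ⟨htrA, hfin⟩ := hFin A (r ^ 2 * M) (C.i12 (C.i01 t₀)) htr'
  have hfinal := hCF (AE A) (FE A (r ^ 2 * M)) ((r : ℕ) : AE A) (C.i12 (C.i01 t₀)) C.O C.unif hirr
    htrA hfin hvert hU
  exact ⟨hvert, hfinal.1, hfinal.2⟩

end Fermat.Agent.S36.Val

end
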