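import Fermat.Agent.S36.Val.Interface

/-!
# S36 / Val : [D3] the norm is the product over `[L : K]` distinct embeddings (helper58)
-/

set_option autoImplicit false

namespace Fermat.Agent.S36.Val

theorem D3_normProd_aux (K L Ω : Type) [Field K] [Field L] [Field Ω] [CharZero K] [Algebra K L]
    [FiniteDimensional K L] (n : ℕ) (ι : K →+* Ω) (σ : Fin n → (L →+* Ω))
    (hn : Module.finrank K L = n) (hσ : Function.Injective σ)
    (hc : ∀ j, (σ j).comp (algebraMap K L) = ι) (x : L) :
    ι (Algebra.norm K x) = ∏ j, σ j x := by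
  let Ωb := AlgebraicClosure Ω
  let _ : Algebra K Ωb := ((algebraMap Ω Ωb).comp ι).toAlgebra
  let σ' : Fin n → (L →ₐ[K] Ωb) := fun j =>
    { (algebraMap Ω Ωb).comp (σ j) with
      commutes' := fun k => by
        change algebraMap Ω Ωb (σ j (algebraMap K L k)) = algebraMap Ω Ωb (ι k)
        rw [← hc j]; rfl }
  have hσ' : Function.Injective σ' := by
    intro i j hij
    apply hσ
    ext y
    have := DFunLike.congr_fun hij y
    exact (algebraMap Ω Ωb).injective this
  have hcard : Fintype.card (L →ₐ[K] Ωb) = n := by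
    rw [AlgHom.card, hn]
  have hbij : Function.Bijective σ' := by
    rw [Fintype.bijective_iff_injective_and_card]
    exact ⟨hσ', by rw [hcard, Fintype.card_fin]⟩
  have h1 := Algebra.norm_eq_prod_embeddings K Ωb x
  apply (algebraMap Ω Ωb).injective
  rw [map_prod]
  change algebraMap K Ωb (Algebra.norm K x) = _
  rw [h1]
  exact (Fintype.prod_bijective σ' hbij _ _ (fun j => rfl)).symm

theorem stmt_NormProd : Stmt_NormProd := by
  intro K L Ω _ _ _ _ π n ι σ hfd hn hσ hc x
  let _ := π.toAlgebra
  exact D3_normProd_aux K L Ω n ι σ hn hσ hc x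

end Fermat.Agent.S36.Val
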