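import Fermat.Agent.S36.Val.Interface2
import Fermat.Agent.S36.Dict.FU
import Fermat.Agent.ES.Mid.HF1
import Fermat.Agent.INJ.Inst.DescentDeg
import Fermat.Agent.S28.NewPrime

/-!
# S36 / Val, [M3] : the norms are the multiplicative `U_r`
-/

set_option autoImplicit false

noncomputable section

namespace Fermat.Agent.S36.Val

open Fermat.Agent
open Fermat.Agent.S24 (Qbar FF)
open Fermat.Agent.S36.Base
open Fermat.Agent.ES.Mid (tw twProd compress)
open Fermat.Agent.INJ.Inst (frickeEquiv frickeHom)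
open ModularCurve (qExpand coeffMap)

/-- `x(q) ↦ x(ζ q)` as a ring homomorphism. -/
def NormU_twR (ζ : Qbarˣ) : LaurentSeries Qbar →+* LaurentSeries Qbar where
  toFun := tw ζ
  map_one' := ES.Mid.HF1.tw_one_right ζ
  map_mul' := ES.Mid.HF1.tw_mul ζ
  map_zero' := by ext n; simp
  map_add' x y := by ext n; simp [mul_add]

theorem NormU_twR_apply (ζ : Qbarˣ) (x : LaurentSeries Qbar) : NormU_twR ζ x = tw ζ x := rfl

theorem NormU_jd_one_coeff : (S28.jd Qbar 1).coeff (-1 : ℤ) = 1 := by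
  rw [S28.NewPrime.jd_one]
  exact ModularCurve.coeff_jqModC_neg_one Qbar

/-- abstract form of both statements. -/
theorem NormU_abs (hNP : Stmt_NormProd) (K L : Type) [Field K] [Field L] [CharZero K]
    (π : K →+* L) (r : ℕ) [NeZero r]
    (hrank : @Module.finrank K L _ _ π.toAlgebra.toModule = r)
    (ζ : Qbarˣ) (hζ : IsPrimitiveRoot ζ r)
    (ψ₁ : K →+* LaurentSeries Qbar) (ψ₂ : L →+* LaurentSeries Qbar)
    (hπ : ∀ x, ψ₂ (π x) = qExpand Qbar r (ψ₁ x))
    (x₀ : L) (hx₀ : ψ₂ x₀ = S28.jd Qbar 1) (u : L) :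
    ψ₁ (@Algebra.norm K L _ _ π.toAlgebra u) = Dict.formalU r ζ (ψ₂ u) := by
  have hfin : @FiniteDimensional K L _ _ π.toAlgebra.toModule := by
    letI := π.toAlgebra
    exact Module.finite_of_finrank_pos (by rw [hrank]; exact Nat.pos_of_ne_zero (NeZero.ne r))
  let σ : Fin r → (L →+* LaurentSeries Qbar) := fun j => (NormU_twR (ζ ^ (j : ℕ))).comp ψ₂
  let ι : K →+* LaurentSeries Qbar := (qExpand Qbar r).comp ψ₁
  have hinj : Function.Injective σ := by
    intro i j hij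
    have h1 : tw (ζ ^ (i : ℕ)) (S28.jd Qbar 1) = tw (ζ ^ (j : ℕ)) (S28.jd Qbar 1) := by
      have := congrArg (fun f : L →+* LaurentSeries Qbar => f x₀) hij
      simpa only [σ, RingHom.comp_apply, NormU_twR_apply, hx₀] using this
    have h2 := congrArg (fun x : LaurentSeries Qbar => x.coeff (-1 : ℤ)) h1
    simp only [ES.Mid.tw_coeff, NormU_jd_one_coeff, mul_one] at h2
    have h3 : (ζ ^ (i : ℕ)) ^ (-1 : ℤ) = (ζ ^ (j : ℕ)) ^ (-1 : ℤ) := Units.ext h2
    rw [zpow_neg_one, zpow_neg_one, inv_inj] at h3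
    exact Fin.ext (hζ.pow_inj i.2 j.2 h3)
  have hcomp : ∀ j, (σ j).comp π = ι := by
    intro j
    refine RingHom.ext fun x => ?_
    show tw (ζ ^ (j : ℕ)) (ψ₂ (π x)) = qExpand Qbar r (ψ₁ x)
    rw [hπ, Dict.FU_tw_qExpand, ← pow_mul, mul_comm, pow_mul, hζ.pow_eq_one, one_pow,
      ES.Mid.HF1.tw_one_left]
  have key := hNP K L (LaurentSeries Qbar) π r ι σ hfin hrank hinj hcomp u
  have h4 : twProd r ζ (ψ₂ u) = ∏ j : Fin r, σ j u :=
    (Fin.prod_univ_eq_prod_range (fun j => tw (ζ ^ j) (ψ₂ u)) r).symm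
  show _ = compress r (twProd r ζ (ψ₂ u))
  rw [h4, ← key]
  exact (ES.Mid.HF1.compress_qExpand r _).symm

/-- the Fricke involution on the generators. -/
theorem NormU_fricke_gen (N : ℕ) [NeZero N] (d : ℕ) (hd : d ∣ N) (x y : FF N)
    (hx : (x : LaurentSeries Qbar) = S28.jd Qbar d)
    (hy : (y : LaurentSeries Qbar) = S28.jd Qbar (N / d)) : frickeEquiv N x = y := by
  have hd0 : NeZero d :=
    ⟨fun h0 => NeZero.ne N (by rw [h0] at hd; exact Nat.eq_zero_of_zero_dvd hd)⟩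
  have he0 : NeZero (N / d) := ⟨INJ.Inst.div_ne_zero_of_dvd (NeZero.ne N) hd⟩
  have hx' : x = S24.jBar N d hd := Subtype.ext (by rw [hx, INJ.Inst.fricke_coe_jBar])
  have hy' : y = S24.jBar N (N / d) (Nat.div_dvd_of_dvd hd) :=
    Subtype.ext (by rw [hy, INJ.Inst.fricke_coe_jBar])
  show frickeHom N x = y
  rw [hx', hy', ← S24.QX.qExpHom_jAlg, INJ.Inst.frickeHom_qExpHom, INJ.Inst.frickeAlg_jAlg,
    S24.QX.qExpHom_jAlg]

/-- abstract form of `NormU_fricke_raise` (the involutions are variables). -/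
theorem NormU_raise_abs (hExt : Stmt_ExtRing) (N e N' : ℕ) [NeZero N] [NeZero e] [NeZero N']
    (hN' : N' = e * N) (W : FF N ≃ₐ[Qbar] FF N) (W' : FF N' ≃ₐ[Qbar] FF N')
    (hW : ∀ d : ℕ, d ∣ N → ∀ x y : FF N, (x : LaurentSeries Qbar) = S28.jd Qbar d →
      (y : LaurentSeries Qbar) = S28.jd Qbar (N / d) → W x = y)
    (hW' : ∀ d : ℕ, d ∣ N' → ∀ x y : FF N', (x : LaurentSeries Qbar) = S28.jd Qbar d →
      (y : LaurentSeries Qbar) = S28.jd Qbar (N' / d) → W' x = y)
    (y : FF N) (y' : FF N')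
    (h : (y' : LaurentSeries Qbar) = (y : LaurentSeries Qbar)) :
    ((W' y' : FF N') : LaurentSeries Qbar) = qExpand Qbar e ((W y : FF N) : LaurentSeries Qbar) := by
  have hdvd : N ∣ N' := Dvd.intro_left e hN'.symm
  have hle : ModularCurve.modularFunctionFieldBar N ≤ ModularCurve.modularFunctionFieldBar N' :=
    INJ.Inst.Descent.bar_le hdvd
  let inc : FF N →ₐ[Qbar] FF N' := IntermediateField.inclusion hle
  let f : FF N →+* LaurentSeries Qbar :=
    ((incl N').toRingHom.comp (W' : FF N' →+* FF N')).comp inc.toRingHom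
  let g : FF N →+* LaurentSeries Qbar :=
    (qExpand Qbar e).comp ((incl N).toRingHom.comp (W : FF N →+* FF N))
  have hfg : f = g := by
    refine hExt N (LaurentSeries Qbar) f g ?_ ?_
    · intro c
      show incl N' (W' (inc (algebraMap Qbar (FF N) c)))
        = qExpand Qbar e (incl N (W (algebraMap Qbar (FF N) c)))
      rw [AlgHom.commutes, AlgEquiv.commutes, AlgHom.commutes, AlgEquiv.commutes, AlgHom.commutes]
      exact ((ModularCurve.qExpandAlgHomC Qbar e).commutes c).symm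
    · intro d x hd hx
      have hd0 : d ≠ 0 := fun h0 => NeZero.ne N (by rw [h0] at hd; exact Nat.eq_zero_of_zero_dvd hd)
      have hd' : d ∣ N' := hd.trans hdvd
      have h1 : NeZero (N / d) := ⟨INJ.Inst.div_ne_zero_of_dvd (NeZero.ne N) hd⟩
      have h2 : NeZero (N' / d) := ⟨INJ.Inst.div_ne_zero_of_dvd (NeZero.ne N') hd'⟩
      have e1 : W x = S24.jBar N (N / d) (Nat.div_dvd_of_dvd hd) :=
        hW d hd x _ hx (INJ.Inst.fricke_coe_jBar _ _ _)
      have e2 : W' (inc x) = S24.jBar N' (N' / d) (Nat.div_dvd_of_dvd hd') :=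
        hW' d hd' (inc x) _ ((IntermediateField.coe_inclusion hle x).trans hx)
          (INJ.Inst.fricke_coe_jBar _ _ _)
      show ((W' (inc x) : FF N') : LaurentSeries Qbar)
        = qExpand Qbar e ((W x : FF N) : LaurentSeries Qbar)
      rw [e1, e2, INJ.Inst.fricke_coe_jBar, INJ.Inst.fricke_coe_jBar, ← S28.Vq_eq,
        S28.NewPrime.Vq_jd e (N / d) (NeZero.ne e) (NeZero.ne _), hN', Nat.mul_div_assoc e hd]
  have hy' : y' = inc y := Subtype.ext (h.trans (IntermediateField.coe_inclusion hle y).symm)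
  rw [hy']
  exact congrArg (fun F : FF N →+* LaurentSeries Qbar => F y) hfg

/-- the Fricke involutions at the levels `N` and `e * N`. -/
theorem NormU_fricke_raise (hExt : Stmt_ExtRing) (N e N' : ℕ) [NeZero N] [NeZero e] [NeZero N']
    (hN' : N' = e * N) (y : FF N) (y' : FF N')
    (h : (y' : LaurentSeries Qbar) = (y : LaurentSeries Qbar)) :
    ((frickeEquiv N' y' : FF N') : LaurentSeries Qbar)
      = qExpand Qbar e ((frickeEquiv N y : FF N) : LaurentSeries Qbar) :=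
  NormU_raise_abs hExt N e N' hN' (frickeEquiv N) (frickeEquiv N') (NormU_fricke_gen N)
    (NormU_fricke_gen N') y y' h

theorem NormU_phiA_apply (A : ValuationSubring Qbar) (N : ℕ) (x : FE A N) :
    phiA A N x = cmE A (x : Base.LE A) := rfl

theorem NormU_cmE_jd (A : ValuationSubring Qbar) (d : ℕ) :
    cmE A (S28.jd (IE A) d) = S28.jd Qbar d :=
  INJ.Inst.coeffMap_jd _ _

/-- **[M3]** -/
theorem stmt_NormU (hM1 : Stmt_Main1) (hNP : Stmt_NormProd) (hExt : Stmt_ExtRing) :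
    Stmt_NormU := by
  intro A r M _ _ _ _ C ζ hζ u
  obtain ⟨-, -, -, -, -, -, -, -, hr1, hr2⟩ := hM1 A r M C
  constructor
  · refine NormU_abs hNP _ _ C.v12 r hr2 ζ hζ (phiA A (r * M)) (phiA A (r ^ 2 * M)) ?_
      (jE A (r ^ 2 * M) 1) ?_ u
    · intro x
      rw [NormU_phiA_apply, NormU_phiA_apply, C.hv12 x]
      exact ModularCurve.coeffMap_qExpand _ _ _
    · rw [NormU_phiA_apply, isJE_jE A (r ^ 2 * M) (one_dvd _), NormU_cmE_jd]
  · let ψ₁ : FE A (r * M) →+* LaurentSeries Qbar :=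
      (incl (r * M)).toRingHom.comp
        ((frickeEquiv (r * M) : FF (r * M) →+* FF (r * M)).comp (emb A (r * M)))
    let ψ₂ : FE A (r ^ 2 * M) →+* LaurentSeries Qbar :=
      (incl (r ^ 2 * M)).toRingHom.comp
        ((frickeEquiv (r ^ 2 * M) : FF (r ^ 2 * M) →+* FF (r ^ 2 * M)).comp (emb A (r ^ 2 * M)))
    refine NormU_abs hNP _ _ C.i12 r hr1 ζ hζ ψ₁ ψ₂ ?_ (jE A (r ^ 2 * M) (r ^ 2 * M)) ?_ u
    · intro x
      refine NormU_fricke_raise hExt (r * M) r (r ^ 2 * M) (by ring) (emb A (r * M) x)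
        (emb A (r ^ 2 * M) (C.i12 x)) ?_
      rw [coe_emb, coe_emb, C.hi12 x]
    · have h1 : NeZero 1 := ⟨one_ne_zero⟩
      have e1 : frickeEquiv (r ^ 2 * M) (emb A (r ^ 2 * M) (jE A (r ^ 2 * M) (r ^ 2 * M)))
          = S24.jBar (r ^ 2 * M) 1 (one_dvd _) := by
        refine NormU_fricke_gen (r ^ 2 * M) (r ^ 2 * M) dvd_rfl _ _ ?_ ?_
        · rw [coe_emb, isJE_jE A (r ^ 2 * M) dvd_rfl, NormU_cmE_jd]
        · rw [INJ.Inst.fricke_coe_jBar, Nat.div_self (Nat.pos_of_ne_zero (NeZero.ne _))]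
      show ((frickeEquiv (r ^ 2 * M) (emb A (r ^ 2 * M) (jE A (r ^ 2 * M) (r ^ 2 * M))) :
        FF (r ^ 2 * M)) : LaurentSeries Qbar) = _
      rw [e1, INJ.Inst.fricke_coe_jBar]

end Fermat.Agent.S36.Val

end
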