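import Fermat.Agent.S36.Val.Interface

/-!
# S36 / Val / O : `ordOf` API, `Over` from one direction, `DegLE` and `finrank`
-/

set_option autoImplicit false

noncomputable section

namespace Fermat.Agent.S36.Val

open Fermat.Agent
open Fermat.Agent.CAR (NR.IsUnif)

/-- [O1] -/
theorem stmt_OrdOf : Stmt_OrdOf := by
  intro L _ W ϖ h
  have hv0 : W.valuation ϖ ≠ 0 := (W.valuation.ne_zero_iff).2 h.ne_zero
  have hv0' : 0 < W.valuation ϖ := zero_lt_iff.2 hv0
  have hv1 : W.valuation ϖ < 1 := h.lt_one
  have hinj : Function.Injective (fun n : ℤ => W.valuation ϖ ^ n) :=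
    zpow_right_injective₀ hv0' hv1.ne
  have A1 : ∀ z : L, z ≠ 0 → W.valuation z = W.valuation ϖ ^ ordOf W ϖ z := by
    intro z hz
    have hex := h.exists_zpow z hz
    unfold ordOf
    rw [dif_pos hex]
    exact hex.choose_spec
  have A2 : ∀ (z : L) (n : ℤ), W.valuation z = W.valuation ϖ ^ n → ordOf W ϖ z = n := by
    intro z n hn
    have hz : z ≠ 0 := by
      intro hz
      rw [hz, map_zero] at hn
      exact (zpow_ne_zero n hv0) hn.symm
    exact hinj ((A1 z hz).symm.trans hn)
  refine ⟨A1, A2, ?_, ?_, ?_, ?_⟩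
  · intro x y hx hy
    apply A2
    rw [map_mul, A1 x hx, A1 y hy, zpow_add₀ hv0]
  · intro z
    unfold VPos
    by_cases hz : z = 0
    · simp [hz]
    · rw [A1 z hz, zpow_lt_one_iff_right_of_lt_one₀ hv0' hv1]
      simp [hz]
  · intro z
    unfold VUnit
    by_cases hz : z = 0
    · simp [hz]
    · rw [A1 z hz, zpow_eq_one_iff_right₀ hv0'.le hv1.ne]
      simp [hz]
  · apply A2
    rw [zpow_one]

/-- [O2] -/
theorem stmt_OverOf : Stmt_OverOf := by
  intro K L _ _ π V W h1 h2
  have hgt : ∀ a : K, 1 < V.valuation a → 1 < W.valuation (π a) := by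
    intro a ha
    have ha0 : a ≠ 0 := by
      intro h0
      rw [h0, map_zero] at ha
      exact absurd ha (by simp)
    have hv0 : 0 < V.valuation a := zero_lt_iff.2 ((V.valuation.ne_zero_iff).2 ha0)
    have hw0 : 0 < W.valuation (π a) :=
      zero_lt_iff.2 ((W.valuation.ne_zero_iff).2 ((map_ne_zero π).2 ha0))
    have h3 : V.valuation a⁻¹ < 1 := by
      rw [map_inv₀, inv_lt_one₀ hv0]
      exact ha
    have h4 := h2 _ h3
    rw [map_inv₀, map_inv₀, inv_lt_one₀ hw0] at h4
    exact h4
  have hle : ∀ a : K, V.valuation a ≤ 1 → W.valuation (π a) ≤ 1 := by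
    intro a ha
    rw [ValuationSubring.valuation_le_one_iff] at ha ⊢
    exact h1 a ha
  have B1 : ∀ a : K, W.valuation (π a) < 1 ↔ V.valuation a < 1 := by
    intro a
    refine ⟨fun h => ?_, h2 a⟩
    by_contra hc
    rw [not_lt] at hc
    rcases hc.lt_or_eq with hc | hc
    · exact absurd (hgt a hc) (not_lt.2 h.le)
    · -- `a` is a unit of `V`
      have ha0 : a ≠ 0 := by
        intro h0
        rw [h0, map_zero] at hc
        exact one_ne_zero hc
      have hw0 : 0 < W.valuation (π a) :=
        zero_lt_iff.2 ((W.valuation.ne_zero_iff).2 ((map_ne_zero π).2 ha0))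
      have h3 : V.valuation a⁻¹ ≤ 1 := by
        rw [map_inv₀, ← hc, inv_one]
      have h4 := hle _ h3
      rw [map_inv₀, map_inv₀, inv_le_one₀ hw0] at h4
      exact absurd h (not_lt.2 h4)
  have B0 : ∀ a : K, W.valuation (π a) ≤ 1 ↔ V.valuation a ≤ 1 := by
    intro a
    refine ⟨fun h => ?_, hle a⟩
    by_contra hc
    rw [not_le] at hc
    exact absurd (hgt a hc) (not_lt.2 h)
  refine ⟨?_, B1, ?_⟩
  · intro a
    rw [← ValuationSubring.valuation_le_one_iff, ← ValuationSubring.valuation_le_one_iff]
    exact B0 a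
  · intro a
    constructor
    · intro h
      exact le_antisymm ((B0 a).1 h.le) (not_lt.1 fun hc => absurd ((B1 a).2 hc) (by rw [h]; simp))
    · intro h
      exact le_antisymm ((B0 a).2 h.le) (not_lt.1 fun hc => absurd ((B1 a).1 hc) (by rw [h]; simp))

/-- [O3] -/
theorem stmt_DegLE : Stmt_DegLE := by
  intro K L _ _ π n
  letI : Algebra K L := π.toAlgebra
  have hsm : ∀ (c : K) (v : L), c • v = π c * v := fun c v => by
    rw [Algebra.smul_def]
    rfl
  change DegLE π n ↔ FiniteDimensional K L ∧ Module.finrank K L ≤ n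
  constructor
  · intro h
    have hdep : ∀ v : Fin (n + 1) → L, ¬ LinearIndependent K v := by
      intro v
      rw [Fintype.not_linearIndependent_iff]
      obtain ⟨c, hc, hs⟩ := h v
      refine ⟨c, ?_, ?_⟩
      · simp only [hsm]
        exact hs
      · by_contra hcon
        apply hc
        funext i
        by_contra hi
        exact hcon ⟨i, hi⟩
    have hrank : Module.rank K L ≤ (n : Cardinal) := by
      apply rank_le
      intro s hs
      by_contra hcon
      rw [not_le] at hcon
      -- an injection `Fin (n + 1) → s`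
      have hcard : n + 1 ≤ Fintype.card s := by
        rw [Fintype.card_coe]
        exact hcon
      let e : Fin (n + 1) ↪ s :=
        (Fin.castLEEmb hcard).trans (Fintype.equivFin s).symm.toEmbedding
      exact hdep _ (hs.comp e e.injective)
    have hfin : FiniteDimensional K L :=
      Module.rank_lt_aleph0_iff.1 (lt_of_le_of_lt hrank Cardinal.natCast_lt_aleph0)
    exact ⟨hfin, Module.finrank_le_of_rank_le hrank⟩
  · rintro ⟨hfin, hr⟩ v
    have hdep : ¬ LinearIndependent K v := by
      intro hli
      have := hli.fintype_card_le_finrank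
      rw [Fintype.card_fin] at this
      omega
    rw [Fintype.not_linearIndependent_iff] at hdep
    obtain ⟨c, hs, i, hi⟩ := hdep
    refine ⟨c, ?_, ?_⟩
    · intro h0
      exact hi (by rw [h0]; rfl)
    · simp only [hsm] at hs
      exact hs

end Fermat.Agent.S36.Val

end
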