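import Fermat.Agent.S36.Val.Interface2

/-!
# S36 / Val / P3 : which valuation ring lies over which
-/

set_option autoImplicit false

noncomputable section

namespace Fermat.Agent.S36.Val

open Fermat.Agent
open Fermat.Agent.S24 (Qbar FF)
open Fermat.Agent.INJ.Inst (kA)
open Fermat.Agent.S36.Base
open Fermat.Agent.ES.Mid (tw)
open ModularCurve (qExpand)

/-- the general principle. -/
theorem P3_over (hO : Stmt_OverOf) (hG : Stmt_GVApi) {A : ValuationSubring Qbar} {K L : Type}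
    [Field K] [Field L] (π : K →+* L) (φV : K →+* LaurentSeries Qbar) (hV : ∀ x, Sat A (φV x))
    (φW : L →+* LaurentSeries Qbar) (hW : ∀ x, Sat A (φW x))
    (T : LaurentSeries Qbar → LaurentSeries Qbar)
    (hT : ∀ x, GInt A x → GInt A (T x) ∧ (gred A x = 0 → gred A (T x) = 0))
    (hc : ∀ x, φW (π x) = T (φV x)) :
    Over π (gv φV hV) (gv φW hW) := by
  have h8 := (hG A).2.2.2.2.2.2.2
  refine (hO K L π _ _ ?_ ?_).1
  · intro a ha
    rw [mem_gv] at ha ⊢
    rw [hc]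
    exact (hT _ ha).1
  · intro a ha
    rw [(h8 K φV hV a).1] at ha
    rw [(h8 L φW hW (π a)).1, hc]
    exact ⟨(hT _ ha.1).1, (hT _ ha.1).2 ha.2⟩

theorem P3_id (A : ValuationSubring Qbar) (x : LaurentSeries Qbar) (h : GInt A x) :
    GInt A (id x) ∧ (gred A x = 0 → gred A (id x) = 0) := ⟨h, fun h0 => h0⟩

theorem P3_expand (hE : Stmt_GVExpand) (A : ValuationSubring Qbar) (e : ℕ) [NeZero e]
    (x : LaurentSeries Qbar) (h : GInt A x) :
    GInt A (qExpand Qbar e x) ∧ (gred A x = 0 → gred A (qExpand Qbar e x) = 0) := by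
  obtain ⟨h1, h2⟩ := hE A e x h
  refine ⟨h1, fun h0 => ?_⟩
  rw [h2, h0, map_zero]

theorem P3_tw (hT : Stmt_GVTw) (A : ValuationSubring Qbar) {r : ℕ} (hr : r.Prime)
    (hA : A.LiesOverPrime r) (ζ : Qbarˣ) (hζ : ζ ^ r = 1) (x : LaurentSeries Qbar)
    (h : GInt A x) : GInt A (tw ζ x) ∧ (gred A x = 0 → gred A (tw ζ x) = 0) := by
  obtain ⟨h1, h2⟩ := hT A r hr hA ζ hζ x h
  refine ⟨h1, fun h0 => ?_⟩
  rw [h2, h0]

/-- **[P3]** -/
theorem stmt_OverAll (hL : Stmt_PhiLevel) (hO : Stmt_OverOf) (hG : Stmt_GVApi)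
    (hE : Stmt_GVExpand) (hT : Stmt_GVTw) : Stmt_OverAll := by
  intro A r M _ _ _ _ C
  obtain ⟨l1, l2, l3, l4, l5, l6, l7, l8⟩ := hL A r M C
  refine ⟨?_, ?_, ?_, ?_, ?_, ?_, ?_, ?_⟩
  · exact P3_over hO hG C.i12 (phiA A (r * M)) (fun _ => sat_incl A _ _) (phiA A (r ^ 2 * M))
      (fun _ => sat_incl A _ _) id (P3_id A) l1
  · exact P3_over hO hG C.i12 (phiA A (r * M)) (fun _ => sat_incl A _ _) (phiM A C.D)
      (fun _ => C.hS _) id (P3_id A) l2
  · exact P3_over hO hG C.i12 (phiC A C.W1) (fun _ => sat_incl A _ _) (phiC A C.W2)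
      (fun _ => sat_incl A _ _) (qExpand Qbar r) (P3_expand hE A r) l3
  · exact P3_over hO hG C.v12 (phiA A (r * M)) (fun _ => sat_incl A _ _) (phiA A (r ^ 2 * M))
      (fun _ => sat_incl A _ _) (qExpand Qbar r) (P3_expand hE A r) l4
  · exact P3_over hO hG C.v12 (phiC A C.W1) (fun _ => sat_incl A _ _) (phiM A C.D)
      (fun _ => C.hS _) (tw C.D.ζ) (P3_tw hT A C.hr C.hA C.D.ζ C.D.prim.pow_eq_one) l6
  · exact P3_over hO hG C.v12 (phiC A C.W1) (fun _ => sat_incl A _ _) (phiC A C.W2)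
      (fun _ => sat_incl A _ _) id (P3_id A) l5
  · exact P3_over hO hG C.i01 (phiA A M) (fun _ => sat_incl A _ _) (phiA A (r * M))
      (fun _ => sat_incl A _ _) id (P3_id A) l7
  · exact P3_over hO hG C.i01 (phiA A M) (fun _ => sat_incl A _ _) (phiC A C.W1)
      (fun _ => sat_incl A _ _) (qExpand Qbar r) (P3_expand hE A r) l8

end Fermat.Agent.S36.Val

end
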