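import Fermat.Agent.S36.Val.Interface2
import Fermat.Agent.S36.Val.GVApi
import Fermat.Agent.S28.Toolkit

/-!
# S36 / Val, [P5] : the element `p_mid = j(q^(r^2)) - j(q)` (`Stmt_PM`)
-/

set_option autoImplicit false

noncomputable section

namespace Fermat.Agent.S36.Val

open Fermat.Agent
open Fermat.Agent.S24 (Qbar FF)
open Fermat.Agent.INJ.Inst (kA)
open Fermat.Agent.INJ.Inst.Gauss (IsRatio red rho inc)
open Fermat.Agent.S36.Base
open Fermat.Agent.ES.Mid (tw twProd compress)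
open ModularCurve (qExpand coeffMap)

/-- `j(q^a) ≠ j(q^b)` over a nontrivial ring. -/
theorem PM_jd_sub_ne_zero (k : Type) [CommRing k] [Nontrivial k] {a b : ℕ} (ha : a ≠ 0)
    (hb : b ≠ 0) (hab : a ≠ b) : S28.jd k a - S28.jd k b ≠ 0 := by
  intro h
  have h1 : S28.jd k a = S28.jd k b := sub_eq_zero.1 h
  have h2 := congrArg HahnSeries.order h1
  rw [S28.order_jd ha, S28.order_jd hb] at h2
  apply hab
  omega

/-- `j(q^a) - j(q^b)` is Gauss integral with non zero reduction. -/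
theorem PM_jd_sub (A : ValuationSubring Qbar) {a b : ℕ} (ha : a ≠ 0) (hb : b ≠ 0) (hab : a ≠ b) :
    GInt A (S28.jd Qbar a - S28.jd Qbar b) ∧ gred A (S28.jd Qbar a - S28.jd Qbar b) ≠ 0 := by
  have h : S28.jd Qbar a - S28.jd Qbar b = inc A (S28.jd A a - S28.jd A b) := by
    rw [map_sub, INJ.Inst.coeffMap_jd, INJ.Inst.coeffMap_jd]
  rw [h]
  refine ⟨gint_inc _, ?_⟩
  rw [gred_inc, map_sub, INJ.Inst.coeffMap_jd, INJ.Inst.coeffMap_jd]
  exact PM_jd_sub_ne_zero (kA A) ha hb hab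

theorem stmt_PM (hP : Stmt_PhiGen) (_hG : Stmt_GVApi) (hJ : Stmt_JTw) : Stmt_PM := by
  intro A r M _ _ _ _ C
  obtain ⟨hPA, -, hPC, -, hPMl, hPMt, hPMc⟩ := hP A
  have hr := C.hr
  have hr2 : r ^ 2 ≠ 0 := pow_ne_zero _ hr.ne_zero
  have hr21 : r ^ 2 ≠ 1 := by
    intro h
    have := hr.one_lt
    nlinarith
  -- the three images
  have hA : phiA A (r ^ 2 * M) C.pM = S28.jd Qbar (r ^ 2) - S28.jd Qbar 1 := by
    rw [Ctx.pM, map_sub, hPA _ _ (Dvd.intro _ rfl), hPA _ _ (one_dvd _)]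
  have hC : phiC A C.W2 C.pM = S28.jd Qbar 1 - S28.jd Qbar (r ^ 2) := by
    have h1 := hPC (r ^ 2) M C.W2 (r ^ 2) 1 dvd_rfl (one_dvd _)
    have h2 := hPC (r ^ 2) M C.W2 1 1 (one_dvd _) (one_dvd _)
    rw [mul_one, Nat.div_self (Nat.pos_of_ne_zero hr2), mul_one] at h1
    rw [mul_one, Nat.div_one, mul_one] at h2
    rw [Ctx.pM, map_sub, h1, h2]
  have hM : phiM A C.D C.pM = tw C.D.ζ (S28.jd Qbar 1) - S28.jd Qbar 1 := by
    have h1 := hPMt r M C.D 1 (one_dvd _)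
    have h2 := hPMl r M C.D 1 (one_dvd _)
    rw [mul_one] at h1
    rw [Ctx.pM, map_sub, h1, h2]
  obtain ⟨⟨h, hh, hhe⟩, ⟨hz, hz'⟩, hrz⟩ := hJ A r hr C.hA C.D.ζ C.D.prim
  rw [hhe] at hM
  have hO0 : C.O 0 = OA A (r ^ 2 * M) := rfl
  have hO1 : C.O 1 = OM A C.D C.hS := rfl
  have hO2 : C.O 2 = OC A C.W2 := rfl
  have hz0 : (C.D.ζ : Qbar) - 1 ≠ 0 := by
    intro h0
    apply hz'
    rw [h0, inv_zero]
    exact A.zero_mem
  have hres : resA A ⟨(C.D.ζ : Qbar) - 1, hz⟩ = 0 := by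
    rw [IsLocalRing.residue_eq_zero_iff, IsLocalRing.mem_maximalIdeal, mem_nonunits_iff]
    intro hu
    obtain ⟨u, hu⟩ := hu
    apply hz'
    have h1 : ((u⁻¹ : Aˣ) : A) * ⟨(C.D.ζ : Qbar) - 1, hz⟩ = 1 := by rw [← hu]; simp
    have h2 : (((u⁻¹ : Aˣ) : A) : Qbar) * ((C.D.ζ : Qbar) - 1) = 1 := congrArg Subtype.val h1
    rw [← eq_inv_of_mul_eq_one_left h2]
    exact Subtype.property _
  have hpM0 : C.pM ≠ 0 := by
    intro h0
    rw [h0, map_zero] at hA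
    exact PM_jd_sub_ne_zero Qbar hr2 one_ne_zero hr21 hA.symm
  refine ⟨hpM0, ?_, ?_, ?_, ?_⟩
  · rw [hO0]
    refine (gv_eq_one_iff (phiA A (r ^ 2 * M)) _ C.pM).2 ?_
    rw [hA]
    exact PM_jd_sub A hr2 one_ne_zero hr21
  · rw [hO2]
    refine (gv_eq_one_iff (phiC A C.W2) _ C.pM).2 ?_
    rw [hC]
    exact PM_jd_sub A one_ne_zero hr2 hr21.symm
  · rw [hO1]
    refine (gv_lt_one_iff (phiM A C.D) _ C.pM).2 ?_
    rw [hM]
    refine ⟨(gint_const hz).mul (gint_inc h), ?_⟩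
    rw [gred_mul (gint_const hz) (gint_inc h), gred_const hz, hres, map_zero, zero_mul]
  · have hq : (C.O 1).valuation ((r : FE A (r ^ 2 * M)) / C.pM ^ (r - 1)) ≤ 1 := by
      rw [hO1]
      refine (gv_le_one_iff (phiM A C.D) _ _).2 ?_
      rw [map_div₀, map_pow, hM, map_natCast, mul_pow]
      have h1 : ((r : ℕ) : LaurentSeries Qbar)
          / (algebraMap Qbar (LaurentSeries Qbar) ((C.D.ζ : Qbar) - 1) ^ (r - 1) * inc A h ^ (r - 1))
          = algebraMap Qbar (LaurentSeries Qbar) ((r : Qbar) / ((C.D.ζ : Qbar) - 1) ^ (r - 1))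
            * (inc A h ^ (r - 1))⁻¹ := by
        rw [map_div₀, map_pow, map_natCast, div_mul_eq_div_div, div_eq_mul_inv _ (inc A h ^ (r - 1))]
      rw [h1]
      refine (gint_const hrz).mul (((gint_inc h).pow _).inv ?_)
      rw [gred_pow (gint_inc h), gred_inc]
      exact pow_ne_zero _ hh
    have hv0 : (C.O 1).valuation C.pM ^ (r - 1) ≠ 0 :=
      pow_ne_zero _ (((C.O 1).valuation.ne_zero_iff).2 hpM0)
    rw [map_div₀, map_pow] at hq
    exact (div_le_one₀ (zero_lt_iff.2 hv0)).1 hq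

end Fermat.Agent.S36.Val

end
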