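import Fermat.Agent.S36.Val.Interface2

/-!
# S36 / Val, task VAL-P2 : the embeddings and the level maps (`Stmt_PhiLevel`)
-/

set_option autoImplicit false

noncomputable section

namespace Fermat.Agent.S36.Val

open Fermat.Agent
open Fermat.Agent.S24 (Qbar FF)
open Fermat.Agent.S36.Base
open Fermat.Agent.ES.Mid (tw)
open ModularCurve (qExpand coeffMap)

/-- `tw ζ` as a ring homomorphism. -/
def PhiLevel_twHom (ζ : Qbarˣ) : LaurentSeries Qbar →+* LaurentSeries Qbar where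
  toFun := tw ζ
  map_one' := ES.Mid.HF1.tw_one_right ζ
  map_mul' := ES.Mid.HF1.tw_mul ζ
  map_zero' := by ext n; simp
  map_add' x y := by ext n; simp [mul_add]

theorem PhiLevel_twHom_apply (ζ : Qbarˣ) (x : LaurentSeries Qbar) :
    PhiLevel_twHom ζ x = tw ζ x := rfl

theorem PhiLevel_qExpand_jd (R : Type) [CommRing R] (r d : ℕ) [NeZero r] (hd : d ≠ 0) :
    qExpand R r (S28.jd R d) = S28.jd R (r * d) := by
  rw [S28.jd, S28.jd, ← S28.Vq_eq, S28.tower_Vq_Vq R (NeZero.ne r) hd]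

theorem PhiLevel_qExpand_alg (K : Type) [Field K] (r : ℕ) [NeZero r] (c : K) :
    qExpand K r (algebraMap K (LaurentSeries K) c) = algebraMap K (LaurentSeries K) c := by
  rw [ModularCurve.algebraMap_laurentSeries_eq_single, ModularCurve.qExpand_single, mul_zero]

theorem PhiLevel_tw_alg (ζ : Qbarˣ) (c : Qbar) :
    tw ζ (algebraMap Qbar (LaurentSeries Qbar) c) = algebraMap Qbar (LaurentSeries Qbar) c := by
  rw [ModularCurve.algebraMap_laurentSeries_eq_single]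
  ext n
  rw [ES.Mid.tw_coeff, HahnSeries.coeff_single]
  split_ifs with h
  · subst h; simp
  · simp

theorem PhiLevel_tw_qExpand (r : ℕ) [NeZero r] (ζ : Qbarˣ) (hζ : ζ ^ r = 1)
    (x : LaurentSeries Qbar) : tw ζ (qExpand Qbar r x) = qExpand Qbar r x := by
  ext n
  rw [ES.Mid.tw_coeff]
  by_cases hn : (r : ℤ) ∣ n
  · obtain ⟨m, rfl⟩ := hn
    rw [zpow_mul, zpow_natCast, hζ, one_zpow, Units.val_one, one_mul]
  · rw [ModularCurve.qExpand_coeff_of_not_dvd r _ hn, mul_zero]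

variable (A : ValuationSubring Qbar)

theorem PhiLevel_phiA (N : ℕ) (x : FE A N) : phiA A N x = cmE A (x : Base.LE A) := rfl

theorem PhiLevel_coe_alg (N : ℕ) (c : IE A) :
    ((algebraMap (IE A) (FE A N) c : FE A N) : Base.LE A) = algebraMap (IE A) (Base.LE A) c := rfl

theorem PhiLevel_incl_alg {N₁ N₂ : ℕ} (π : FE A N₁ →+* FE A N₂) (h : IsInclE A π) (c : IE A) :
    π (algebraMap (IE A) (FE A N₁) c) = algebraMap (IE A) (FE A N₂) c :=
  Subtype.ext ((h _).trans ((PhiLevel_coe_alg A N₁ c).trans (PhiLevel_coe_alg A N₂ c).symm))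

theorem PhiLevel_incl_jE {N₁ N₂ : ℕ} [NeZero N₁] [NeZero N₂] (π : FE A N₁ →+* FE A N₂)
    (h : IsInclE A π) {d : ℕ} (h1 : d ∣ N₁) (h2 : d ∣ N₂) : π (jE A N₁ d) = jE A N₂ d :=
  Subtype.ext ((h _).trans ((isJE_jE A N₁ h1).trans (isJE_jE A N₂ h2).symm))

theorem PhiLevel_V_alg {r : ℕ} [NeZero r] {N₁ N₂ : ℕ} (π : FE A N₁ →+* FE A N₂)
    (h : IsVE A r π) (c : IE A) :
    π (algebraMap (IE A) (FE A N₁) c) = algebraMap (IE A) (FE A N₂) c :=
  Subtype.ext ((h _).trans ((congrArg (qExpand (IE A) r) (PhiLevel_coe_alg A N₁ c)).trans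
    ((PhiLevel_qExpand_alg (IE A) r c).trans (PhiLevel_coe_alg A N₂ c).symm)))

theorem PhiLevel_V_jE {r : ℕ} [NeZero r] {N₁ N₂ : ℕ} [NeZero N₁] [NeZero N₂]
    (π : FE A N₁ →+* FE A N₂) (h : IsVE A r π) {d : ℕ} (h1 : d ∣ N₁) (h2 : r * d ∣ N₂) :
    π (jE A N₁ d) = jE A N₂ (r * d) := by
  have hd : d ≠ 0 := fun h0 => NeZero.ne N₁ (by rw [h0] at h1; exact Nat.eq_zero_of_zero_dvd h1)
  refine Subtype.ext ((h _).trans ?_)
  rw [isJE_jE A N₁ h1, isJE_jE A N₂ h2, PhiLevel_qExpand_jd (IE A) r d hd]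

theorem PhiLevel_dvd12 {r M : ℕ} : r * M ∣ r ^ 2 * M := ⟨r, by ring⟩

section

variable {A} {r M : ℕ} [NeZero r] [NeZero M] [NeZero (r * M)] [NeZero (r ^ 2 * M)]

theorem PhiLevel_c1 (C : Ctx A r M) (x : FE A (r * M)) :
    phiA A (r ^ 2 * M) (C.i12 x) = phiA A (r * M) x := by
  rw [PhiLevel_phiA, PhiLevel_phiA, C.hi12 x]

theorem PhiLevel_c4 (C : Ctx A r M) (x : FE A (r * M)) :
    phiA A (r ^ 2 * M) (C.v12 x) = qExpand Qbar r (phiA A (r * M) x) := by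
  rw [PhiLevel_phiA, PhiLevel_phiA, C.hv12 x]
  exact ModularCurve.coeffMap_qExpand _ r _

theorem PhiLevel_c7 (C : Ctx A r M) (x : FE A M) :
    phiA A (r * M) (C.i01 x) = phiA A M x := by
  rw [PhiLevel_phiA, PhiLevel_phiA, C.hi01 x]

theorem PhiLevel_c2 (hX : Stmt_ExtRingE) (hP : Stmt_PhiGen) (C : Ctx A r M) (x : FE A (r * M)) :
    phiM A C.D (C.i12 x) = phiA A (r * M) x := by
  obtain ⟨hA1, hA2, hC1, hC2, hM1, hM2, hM3⟩ := hP A
  have := hX A (r * M) (LaurentSeries Qbar) ((phiM A C.D).comp C.i12) (phiA A (r * M)) ?_ ?_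
  · exact RingHom.congr_fun this x
  · intro c
    rw [RingHom.comp_apply, PhiLevel_incl_alg A _ C.hi12, hM3, hA2]
  · intro d hd
    rw [RingHom.comp_apply, PhiLevel_incl_jE A _ C.hi12 hd (hd.trans PhiLevel_dvd12),
      hM1 r M C.D d hd, hA1 _ d hd]

theorem PhiLevel_c3 (hX : Stmt_ExtRingE) (hP : Stmt_PhiGen) (C : Ctx A r M) (x : FE A (r * M)) :
    phiC A C.W2 (C.i12 x) = qExpand Qbar r (phiC A C.W1 x) := by
  obtain ⟨hA1, hA2, hC1, hC2, hM1, hM2, hM3⟩ := hP A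
  have := hX A (r * M) (LaurentSeries Qbar) ((phiC A C.W2).comp C.i12)
    ((qExpand Qbar r).comp (phiC A C.W1)) ?_ ?_
  · exact RingHom.congr_fun this x
  · intro c
    rw [RingHom.comp_apply, RingHom.comp_apply, PhiLevel_incl_alg A _ C.hi12, hC2, hC2,
      PhiLevel_qExpand_alg]
  · intro d hd
    obtain ⟨a, b, ha, hb, rfl⟩ := (Nat.dvd_mul).1 hd
    have hb0 : b ≠ 0 := fun h0 => NeZero.ne M (by rw [h0] at hb; exact Nat.eq_zero_of_zero_dvd hb)
    have hra : r / a ≠ 0 := (Nat.div_pos (Nat.le_of_dvd (NeZero.pos r) ha)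
      (Nat.pos_of_dvd_of_pos ha (NeZero.pos r))).ne'
    rw [RingHom.comp_apply, RingHom.comp_apply,
      PhiLevel_incl_jE A _ C.hi12 hd (hd.trans PhiLevel_dvd12),
      hC1 (r ^ 2) M C.W2 a b (ha.trans (dvd_pow_self r two_ne_zero)) hb, hC1 r M C.W1 a b ha hb,
      PhiLevel_qExpand_jd Qbar r _ (mul_ne_zero hra hb0), pow_two, Nat.mul_div_assoc r ha,
      mul_assoc]

theorem PhiLevel_c5 (hX : Stmt_ExtRingE) (hP : Stmt_PhiGen) (C : Ctx A r M) (x : FE A (r * M)) :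
    phiC A C.W2 (C.v12 x) = phiC A C.W1 x := by
  obtain ⟨hA1, hA2, hC1, hC2, hM1, hM2, hM3⟩ := hP A
  have := hX A (r * M) (LaurentSeries Qbar) ((phiC A C.W2).comp C.v12) (phiC A C.W1) ?_ ?_
  · exact RingHom.congr_fun this x
  · intro c
    rw [RingHom.comp_apply, PhiLevel_V_alg A _ C.hv12, hC2, hC2]
  · intro d hd
    have hd2 : r * d ∣ r ^ 2 * M := by
      rw [pow_two, mul_assoc]; exact mul_dvd_mul_left r hd
    obtain ⟨a, b, ha, hb, rfl⟩ := (Nat.dvd_mul).1 hd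
    have hra : r * a ∣ r ^ 2 := by rw [pow_two]; exact mul_dvd_mul_left r ha
    rw [RingHom.comp_apply, PhiLevel_V_jE A _ C.hv12 hd hd2, ← mul_assoc,
      hC1 (r ^ 2) M C.W2 (r * a) b hra hb, hC1 r M C.W1 a b ha hb, pow_two,
      Nat.mul_div_mul_left _ _ (NeZero.pos r)]

theorem PhiLevel_c6 (hX : Stmt_ExtRingE) (hP : Stmt_PhiGen) (C : Ctx A r M) (x : FE A (r * M)) :
    phiM A C.D (C.v12 x) = tw C.D.ζ (phiC A C.W1 x) := by
  obtain ⟨hA1, hA2, hC1, hC2, hM1, hM2, hM3⟩ := hP A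
  have := hX A (r * M) (LaurentSeries Qbar) ((phiM A C.D).comp C.v12)
    ((PhiLevel_twHom C.D.ζ).comp (phiC A C.W1)) ?_ ?_
  · exact RingHom.congr_fun this x
  · intro c
    rw [RingHom.comp_apply, RingHom.comp_apply, PhiLevel_V_alg A _ C.hv12, hM3, hC2,
      PhiLevel_twHom_apply, PhiLevel_tw_alg]
  · intro d hd
    have hd2 : r * d ∣ r ^ 2 * M := by
      rw [pow_two, mul_assoc]; exact mul_dvd_mul_left r hd
    obtain ⟨a, b, ha, hb, rfl⟩ := (Nat.dvd_mul).1 hd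
    have hb0 : b ≠ 0 := fun h0 => NeZero.ne M (by rw [h0] at hb; exact Nat.eq_zero_of_zero_dvd hb)
    rw [RingHom.comp_apply, RingHom.comp_apply, PhiLevel_V_jE A _ C.hv12 hd hd2,
      hC1 r M C.W1 a b ha hb, PhiLevel_twHom_apply]
    rcases (Nat.dvd_prime C.hr).1 ha with rfl | rfl
    · rw [one_mul, Nat.div_one, hM1 r M C.D (r * b) (mul_dvd_mul_left r hb),
        ← PhiLevel_qExpand_jd Qbar r b hb0, PhiLevel_tw_qExpand r _ C.D.prim.pow_eq_one]
    · rw [← mul_assoc, ← pow_two, hM2 a M C.D b hb, Nat.div_self (NeZero.pos a), one_mul]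

theorem PhiLevel_c8 (hX : Stmt_ExtRingE) (hP : Stmt_PhiGen) (C : Ctx A r M) (x : FE A M) :
    phiC A C.W1 (C.i01 x) = qExpand Qbar r (phiA A M x) := by
  obtain ⟨hA1, hA2, hC1, hC2, hM1, hM2, hM3⟩ := hP A
  have := hX A M (LaurentSeries Qbar) ((phiC A C.W1).comp C.i01)
    ((qExpand Qbar r).comp (phiA A M)) ?_ ?_
  · exact RingHom.congr_fun this x
  · intro c
    rw [RingHom.comp_apply, RingHom.comp_apply, PhiLevel_incl_alg A _ C.hi01, hC2, hA2,
      PhiLevel_qExpand_alg]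
  · intro d hd
    have hd0 : d ≠ 0 := fun h0 => NeZero.ne M (by rw [h0] at hd; exact Nat.eq_zero_of_zero_dvd hd)
    have h1 := hC1 r M C.W1 1 d (one_dvd r) hd
    rw [one_mul, Nat.div_one] at h1
    rw [RingHom.comp_apply, RingHom.comp_apply,
      PhiLevel_incl_jE A _ C.hi01 hd (hd.trans (dvd_mul_left M r)), h1, hA1 M d hd,
      PhiLevel_qExpand_jd Qbar r d hd0]

end

/-- **[P2]** -/
theorem stmt_PhiLevel (hX : Stmt_ExtRingE) (hP : Stmt_PhiGen) : Stmt_PhiLevel := by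
  intro A r M _ _ _ _ C
  exact ⟨PhiLevel_c1 C, PhiLevel_c2 hX hP C, PhiLevel_c3 hX hP C, PhiLevel_c4 C,
    PhiLevel_c5 hX hP C, PhiLevel_c6 hX hP C, PhiLevel_c7 C, PhiLevel_c8 hX hP C⟩

end Fermat.Agent.S36.Val

end
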