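import Fermat.Agent.S36.Val.Interface
import Fermat.Agent.S28.Toolkit
import Fermat.Agent.S28.Tower
import Fermat.Agent.ES.Mid.HF2

/-!
# S36 / Val / S1, S2 : independence of powers over `k((q^r))`, Frobenius of `j`
(helper50, task 946)
-/

set_option autoImplicit false

noncomputable section

namespace Fermat.Agent.S36.Val

open Fermat.Agent
open ModularCurve (qExpand coeffMap)

/-- a finite sum of series, the nonzero ones having pairwise distinct orders, vanishes only if all
terms vanish. -/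
theorem S1_sum_eq_zero {k ι : Type*} [Field k] [Fintype ι] (T : ι → LaurentSeries k)
    (hord : ∀ i j, T i ≠ 0 → T j ≠ 0 → (T i).order = (T j).order → i = j)
    (hsum : ∑ i, T i = 0) : ∀ i, T i = 0 := by
  classical
  by_contra hne
  push Not at hne
  obtain ⟨i₁, hi₁⟩ := hne
  set s : Finset ι := Finset.univ.filter fun i => T i ≠ 0 with hs
  have hsne : s.Nonempty := ⟨i₁, by simp [hs, hi₁]⟩
  obtain ⟨i₀, hi₀s, hmin⟩ := Finset.exists_min_image s (fun i => (T i).order) hsne
  have hi₀ : T i₀ ≠ 0 := (Finset.mem_filter.1 hi₀s).2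
  have hc := congrArg (fun x : LaurentSeries k => x.coeff (T i₀).order) hsum
  simp only [HahnSeries.coeff_sum, HahnSeries.coeff_zero] at hc
  rw [Finset.sum_eq_single i₀] at hc
  · exact (HahnSeries.coeff_order_eq_zero.not.mpr hi₀) hc
  · intro j _ hj
    by_cases hTj : T j = 0
    · rw [hTj, HahnSeries.coeff_zero]
    · have hle := hmin j (Finset.mem_filter.2 ⟨Finset.mem_univ _, hTj⟩)
      have hlt : (T i₀).order < (T j).order :=
        lt_of_le_of_ne hle fun h => hj (hord i₀ j hi₀ hTj h).symm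
      exact HahnSeries.coeff_eq_zero_of_lt_order hlt
  · intro h
    exact absurd (Finset.mem_univ _) h

/-- [S1]. -/
theorem stmt_IndepPow : Stmt_IndepPow := by
  intro k _ r _ y hy c hsum
  have hr : r ≠ 0 := NeZero.ne r
  have hy0 : y ≠ 0 := by
    rintro rfl
    rw [HahnSeries.order_zero] at hy
    omega
  have hq : ∀ x : LaurentSeries k, qExpand k r x = S28.Vq k r x := fun x => by rw [S28.Vq_eq]
  have hT0 : ∀ i : Fin r, qExpand k r (c i) * y ^ (i : ℕ) ≠ 0 → c i ≠ 0 := by
    intro i h h0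
    apply h
    rw [h0, map_zero, zero_mul]
  have hTord : ∀ i : Fin r, c i ≠ 0 →
      (qExpand k r (c i) * y ^ (i : ℕ)).order = (r : ℤ) * (c i).order - (i : ℕ) := by
    intro i hi
    have h1 : qExpand k r (c i) ≠ 0 := by
      rw [hq, Ne, S28.Vq_eq_zero_iff]
      exact hi
    rw [HahnSeries.order_mul h1 (pow_ne_zero _ hy0), HahnSeries.order_pow, hy, hq,
      S28.order_Vq hr]
    simp
    ring
  have hall := S1_sum_eq_zero (fun i : Fin r => qExpand k r (c i) * y ^ (i : ℕ)) (by
    intro i j hi hj hij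
    rw [hTord i (hT0 i hi), hTord j (hT0 j hj)] at hij
    have hi' : ((i : ℕ) : ℤ) < r := by exact_mod_cast i.2
    have hj' : ((j : ℕ) : ℤ) < r := by exact_mod_cast j.2
    have hi0 : (0 : ℤ) ≤ ((i : ℕ) : ℤ) := by positivity
    have hj0 : (0 : ℤ) ≤ ((j : ℕ) : ℤ) := by positivity
    have hdvd : (r : ℤ) ∣ ((i : ℕ) : ℤ) - ((j : ℕ) : ℤ) :=
      ⟨(c i).order - (c j).order, by linarith⟩
    have habs : |((i : ℕ) : ℤ) - ((j : ℕ) : ℤ)| < r := by
      rw [abs_lt]
      constructor <;> linarith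
    have h0 := Int.eq_zero_of_abs_lt_dvd hdvd habs
    apply Fin.ext
    have : ((i : ℕ) : ℤ) = ((j : ℕ) : ℤ) := by linarith
    exact_mod_cast this) hsum
  intro i
  have h1 := hall i
  rcases mul_eq_zero.1 h1 with h2 | h2
  · rw [hq, S28.Vq_eq_zero_iff] at h2
    exact h2
  · exact absurd h2 (pow_ne_zero _ hy0)

/-- [S2]. -/
theorem stmt_JFrob : Stmt_JFrob := by
  intro k _ r hr hrk
  have : Fact r.Prime := ⟨hr⟩
  have : CharP k r := (CharP.charP_iff_prime_eq_zero hr).mpr hrk
  have : NeZero r := ⟨hr.ne_zero⟩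
  refine ⟨fun d hd => ?_, ?_⟩
  · rw [ES.Mid.HF2.pow_eq r (S28.jd k d), S28.tower_coeffMap_jd, ← S28.Vq_eq,
      S28.Vq_jd hr.ne_zero hd.ne']
  · rw [S28.order_jd one_ne_zero]
    rfl

end Fermat.Agent.S36.Val

end
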