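import Fermat.Agent.S36.Val.Interface2

/-!
# S36 / Val, task VAL-P4 : `r` is a uniformiser of the Gauss rings of `FE A N`
-/

set_option autoImplicit false

noncomputable section

namespace Fermat.Agent.S36.Val

open Fermat.Agent
open Fermat.Agent.S24 (Qbar FF funAlg)
open Fermat.Agent.S24.QX (qExpHom)
open Fermat.Agent.INJ.Inst (kA)
open Fermat.Agent.INJ.Inst.Gauss (IsRatio red rho inc)
open Fermat.Agent.S36.Base
open Fermat.Agent.CAR (NR.IsUnif)
open ModularCurve (qExpand coeffMap)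

/-- finitely generated coefficient module, all coefficients fixed by inertia. -/
def P4_Good (A : ValuationSubring Qbar) (X : LaurentSeries Qbar) : Prop :=
  ES.Mid.INT.FGCoeff X ∧ ∀ σ ∈ A.inertiaSubgroupIn ℚ, ∀ n, σ (X.coeff n) = X.coeff n

/-- the constant series. -/
local notation "cst" => algebraMap Qbar (LaurentSeries Qbar)

theorem P4_coeff_cst_mul (c : Qbar) (X : LaurentSeries Qbar) (n : ℤ) :
    (cst c * X).coeff n = c * X.coeff n := by
  rw [ModularCurve.algebraMap_laurentSeries_eq_single, HahnSeries.coeff_single_zero_mul]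

/-- normalisation of a good series by a power of `r`. -/
theorem P4_normalise (hU : Base.Stmt_Unram) {A : ValuationSubring Qbar} {r : ℕ} (hr : r.Prime)
    (hA : A.LiesOverPrime r) {X : LaurentSeries Qbar} (hX : X ≠ 0) (hg : P4_Good A X) :
    ∃ (k : ℤ) (f : LaurentSeries A), rho (resA A) f ≠ 0 ∧ cst ((r : Qbar) ^ k) * X = inc A f := by
  obtain ⟨l, hl0, hlA, n₀, hn₀⟩ := ES.Mid.INT.exists_scale A hX hg.1
  have hc0 : X.coeff n₀ ≠ 0 := by
    intro h
    rw [h, mul_zero] at hn₀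
    exact zero_ne_one hn₀
  have hl : l = (X.coeff n₀)⁻¹ := eq_inv_of_mul_eq_one_left hn₀
  have hfix : ∀ σ ∈ A.inertiaSubgroupIn ℚ, σ l = l := by
    intro σ hσ
    rw [hl, map_inv₀, hg.2 σ hσ]
  obtain ⟨k, hk1, hk2⟩ := hU r A hr hA l hl0 hfix
  have hr0 : (r : Qbar) ≠ 0 := Nat.cast_ne_zero.2 hr.ne_zero
  have hrk : (r : Qbar) ^ k ≠ 0 := zpow_ne_zero _ hr0
  have hcoef : ∀ n, (cst ((r : Qbar) ^ (-k)) * X).coeff n
      = (l * (r : Qbar) ^ k)⁻¹ * (l * X.coeff n) := by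
    intro n
    rw [P4_coeff_cst_mul, zpow_neg, mul_inv]
    field_simp
  have hmem : ∀ n, (cst ((r : Qbar) ^ (-k)) * X).coeff n ∈ A := by
    intro n
    rw [hcoef]
    exact A.mul_mem _ _ hk2 (hlA n)
  refine ⟨-k, ES.Mid.INT.lift A _ hmem, ?_, (ES.Mid.INT.coeffMap_lift A _ hmem).symm⟩
  intro h0
  have h1 := congrArg (fun z => HahnSeries.coeff z n₀) h0
  simp only [ModularCurve.coeffMap_coeff, HahnSeries.coeff_zero] at h1
  -- the coefficient `n₀` is a unit of `A`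
  have h2 : (ES.Mid.INT.lift A _ hmem).coeff n₀ * ⟨l * (r : Qbar) ^ k, hk1⟩ = 1 := by
    apply Subtype.ext
    show (cst ((r : Qbar) ^ (-k)) * X).coeff n₀ * (l * (r : Qbar) ^ k) = 1
    rw [hcoef, hn₀, mul_one]
    exact inv_mul_cancel₀ (mul_ne_zero hl0 hrk)
  have h3 := congrArg (resA A) h2
  rw [map_mul, h1, zero_mul, map_one] at h3
  exact zero_ne_one h3

theorem P4_natCast_residue {A : ValuationSubring Qbar} {r : ℕ} (hA : A.LiesOverPrime r) :
    (r : kA A) = 0 := by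
  have h1 : ((r : A) : Qbar) ∈ A.nonunits := by
    have h0 : (r : Qbar) ∈ A.nonunits := hA
    simpa using h0
  have h2 : (r : A) ∈ IsLocalRing.maximalIdeal A :=
    (ValuationSubring.coe_mem_nonunits_iff).mp h1
  have h3 := (IsLocalRing.residue_eq_zero_iff (r : A)).mpr h2
  simpa using h3

/-- the abstract statement. -/
theorem P4_unif (hU : Base.Stmt_Unram) (hG : Stmt_GVApi) {A : ValuationSubring Qbar} {r : ℕ}
    (hr : r.Prime) (hA : A.LiesOverPrime r) {F : Type} [Field F] (φ : F →+* LaurentSeries Qbar)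
    (h : ∀ x, Sat A (φ x))
    (hP : ∀ x : F, x ≠ 0 → ∃ X₁ X₂ : LaurentSeries Qbar, X₁ ≠ 0 ∧ X₂ ≠ 0 ∧ P4_Good A X₁ ∧
      P4_Good A X₂ ∧ φ x * X₂ = X₁) : NR.IsUnif (gv φ h) (r : F) := by
  obtain ⟨hG1, hG2, -, -, -, -, -, hG8⟩ := hG A
  have hr0 : (r : Qbar) ≠ 0 := Nat.cast_ne_zero.2 hr.ne_zero
  have hφr : φ (r : F) = cst (r : Qbar) := by rw [map_natCast, map_natCast]
  have hrF : (r : F) ≠ 0 := by
    intro h0
    have h1 : cst (r : Qbar) = 0 := by rw [← hφr, h0, map_zero]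
    exact hr0 ((map_eq_zero _).1 h1)
  refine ⟨hrF, ?_, ?_⟩
  · rw [(hG8 F φ h (r : F)).1]
    have h1 : φ (r : F) = inc A (r : LaurentSeries A) := by rw [map_natCast, map_natCast]
    rw [h1]
    refine ⟨(hG1 _).1, ?_⟩
    rw [(hG1 _).2, map_natCast]
    have h2 : algebraMap (kA A) (LaurentSeries (kA A)) (r : kA A) = (r : LaurentSeries (kA A)) :=
      map_natCast (algebraMap (kA A) (LaurentSeries (kA A))) r
    rw [← h2, P4_natCast_residue hA, map_zero]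
  · intro x hx
    obtain ⟨X₁, X₂, hX₁, hX₂, hg₁, hg₂, he⟩ := hP x hx
    obtain ⟨k₁, f₁, hf₁, e₁⟩ := P4_normalise hU hr hA hX₁ hg₁
    obtain ⟨k₂, f₂, hf₂, e₂⟩ := P4_normalise hU hr hA hX₂ hg₂
    have hc2 : cst ((r : Qbar) ^ k₂) ≠ 0 := by
      rw [Ne, map_eq_zero]; exact zpow_ne_zero _ hr0
    have key : φ (x * (r : F) ^ (k₁ - k₂)) * inc A f₂ = inc A f₁ := by
      rw [map_mul, map_zpow₀, hφr, ← map_zpow₀, ← e₁, ← e₂, ← he, zpow_sub₀ hr0, map_div₀]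
      field_simp
    have h1 := hG2 _ f₁ f₂ hf₂ key
    have h2 : (gv φ h).valuation (x * (r : F) ^ (k₁ - k₂)) = 1 := by
      rw [(hG8 F φ h _).2]
      refine ⟨h1.1, ?_⟩
      rw [h1.2]
      exact div_ne_zero hf₁ hf₂
    refine ⟨k₂ - k₁, ?_⟩
    rw [map_mul, map_zpow₀] at h2
    have hv : (gv φ h).valuation (r : F) ≠ 0 := (map_ne_zero _).2 hrF
    rw [← neg_sub k₁ k₂, zpow_neg]
    exact eq_inv_of_mul_eq_one_left h2

/-! ### the embeddings -/

theorem P4_phiA_coe (A : ValuationSubring Qbar) (N : ℕ) (x : FE A N) :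
    phiA A N x = ((emb A N x : FF N) : LaurentSeries Qbar) := rfl

theorem P4_good_emb (A : ValuationSubring Qbar) (N : ℕ) [NeZero N] (a : FE A N) (θ : funAlg N)
    (h : emb A N a = qExpHom N θ) : P4_Good A (phiA A N a) := by
  constructor
  · rw [P4_phiA_coe, h]
    exact ES.Mid.INT.fgCoeff_of_mem_serAlg (S24.QX.qExpFun_mem N θ)
  · intro σ hσ n
    rw [P4_phiA_coe, coe_emb, cmE_coeff]
    exact IE.fixed A _ hσ

theorem P4_hP_phiA (hF : Base.Stmt_Frac) (A : ValuationSubring Qbar) (N : ℕ) [NeZero N]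
    (x : FE A N) (hx : x ≠ 0) :
    ∃ X₁ X₂ : LaurentSeries Qbar, X₁ ≠ 0 ∧ X₂ ≠ 0 ∧ P4_Good A X₁ ∧ P4_Good A X₂ ∧
      phiA A N x * X₂ = X₁ := by
  obtain ⟨θ₁, θ₂, a₁, a₂, ha₂, he, h1, h2⟩ := hF A N x
  have ha₁ : a₁ ≠ 0 := by
    rw [← he]; exact mul_ne_zero hx ha₂
  refine ⟨phiA A N a₁, phiA A N a₂, (map_ne_zero _).2 ha₁, (map_ne_zero _).2 ha₂,
    P4_good_emb A N a₁ θ₁ h1, P4_good_emb A N a₂ θ₂ h2, ?_⟩
  rw [← map_mul, he]

theorem P4_phiC_eq (hD : Base.Stmt_Descent) (A : ValuationSubring Qbar) {Q M : ℕ}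
    [NeZero (Q * M)] (Wm : ALMap Q M) (x : FE A (Q * M)) :
    ∃ x' : FE A (Q * M), phiC A Wm x = phiA A (Q * M) x' := by
  obtain ⟨x', hx'⟩ := hD A (Q * M) (Wm.W (emb A (Q * M) x)) (fun σ hσ => by
    rw [← Wm.gal, gal_emb A (Q * M) x hσ])
  refine ⟨x', ?_⟩
  rw [P4_phiA_coe, hx']
  rfl

/-- **[P4]**. -/
theorem stmt_UnifR (hU : Base.Stmt_Unram) (hF : Base.Stmt_Frac) (hD : Base.Stmt_Descent)
    (hG : Stmt_GVApi) : Stmt_UnifR := by
  intro A r hr hA
  constructor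
  · intro N _
    exact P4_unif hU hG hr hA (phiA A N) _ (fun x hx => P4_hP_phiA hF A N x hx)
  · intro Q M _ Wm
    refine P4_unif hU hG hr hA (phiC A Wm) _ (fun x hx => ?_)
    obtain ⟨x', hx'⟩ := P4_phiC_eq hD A Wm x
    have hx'0 : x' ≠ 0 := by
      rintro rfl
      rw [map_zero] at hx'
      exact hx ((map_eq_zero _).1 hx')
    rw [hx']
    exact P4_hP_phiA hF A (Q * M) x' hx'0

end Fermat.Agent.S36.Val

end
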