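import Fermat.Agent.S36.Val.Interface

/-!
# S36 / Val / C2, C3 : vertical valuation rings, `t ↔ t⁻¹`, restriction and extension
-/

set_option autoImplicit false

noncomputable section

namespace Fermat.Agent.S36.Val

open Polynomial

theorem C2_lt_one_iff {K : Type*} [Field K] (V : ValuationSubring K) (x : K) :
    V.valuation x < 1 ↔ x = 0 ∨ x⁻¹ ∉ V := by
  by_cases hx : x = 0
  · simp [hx]
  · have h0 : 0 < V.valuation x := zero_lt_iff.2 ((_root_.map_ne_zero _).2 hx)
    rw [← V.valuation_le_one_iff x⁻¹, map_inv₀, not_le, one_lt_inv₀ h0]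
    simp [hx]

theorem C2_over_lt {K L : Type*} [Field K] [Field L] {π : K →+* L} {V : ValuationSubring K}
    {W : ValuationSubring L} (h : Over π V W) (x : K) :
    W.valuation (π x) < 1 ↔ V.valuation x < 1 := by
  rw [C2_lt_one_iff, C2_lt_one_iff, map_eq_zero, ← map_inv₀, h]

theorem C2_over_le {K L : Type*} [Field K] [Field L] {π : K →+* L} {V : ValuationSubring K}
    {W : ValuationSubring L} (h : Over π V W) (x : K) :
    W.valuation (π x) ≤ 1 ↔ V.valuation x ≤ 1 := by
  rw [ValuationSubring.valuation_le_one_iff, ValuationSubring.valuation_le_one_iff, h]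

theorem C2_over_eq {K L : Type*} [Field K] [Field L] {π : K →+* L} {V : ValuationSubring K}
    {W : ValuationSubring L} (h : Over π V W) (x : K) :
    W.valuation (π x) = 1 ↔ V.valuation x = 1 := by
  rw [eq_iff_le_not_lt, eq_iff_le_not_lt, C2_over_le h, C2_over_lt h]

/-- **[C2]** -/
theorem stmt_VertInv : Stmt_VertInv := by
  intro A₀ F _ _ _ _ ϖ t O hϖ h
  obtain ⟨h1, h2, h3, h4⟩ := h
  have ht : O.valuation t = 1 := by
    have := h4 X ⟨1, by
      rw [coeff_X_one]
      exact fun hd => hϖ.not_isUnit (isUnit_of_dvd_one hd)⟩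
    rwa [aeval_X] at this
  have ht0 : t ≠ 0 := by
    rintro rfl
    rw [map_zero] at ht
    exact zero_ne_one ht
  have hti : O.valuation t⁻¹ = 1 := by rw [map_inv₀, ht, inv_one]
  refine ⟨h1, ?_, h3, ?_⟩
  · rw [← O.valuation_le_one_iff, hti]
  · rintro p ⟨i, hi⟩
    have hrev : O.valuation (aeval t p.reverse) = 1 := by
      refine h4 _ ⟨revAt p.natDegree i, ?_⟩
      rw [coeff_reverse, revAt_invol]
      exact hi
    let _ : Invertible t⁻¹ := invertibleOfNonzero (inv_ne_zero ht0)
    have e := eval₂_reverse_mul_pow (algebraMap A₀ F) t⁻¹ p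
    rw [invOf_eq_inv, inv_inv] at e
    rw [aeval_def, ← e, map_mul, map_pow, hti, one_pow, mul_one, ← aeval_def, hrev]

/-- **[C3]** -/
theorem stmt_VertOver : Stmt_VertOver := by
  intro A₀ K L _ _ _ _ _ π ϖ t V W hπ hO
  have hae : ∀ p : A₀[X], aeval (π t) p = π (aeval t p) := by
    intro p
    rw [aeval_def, aeval_def, hom_eval₂]
    congr 1
    exact RingHom.ext fun a => (hπ a).symm
  unfold IsVert
  constructor
  · rintro ⟨h1, h2, h3, h4⟩
    refine ⟨fun a => ?_, (hO t).2 h2, ?_, fun p hp => ?_⟩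
    · rw [← hπ, hO]; exact h1 a
    · rw [← hπ, C2_over_lt hO]; exact h3
    · rw [hae, C2_over_eq hO]; exact h4 p hp
  · rintro ⟨h1, h2, h3, h4⟩
    refine ⟨fun a => ?_, (hO t).1 h2, ?_, fun p hp => ?_⟩
    · rw [← hO, hπ]; exact h1 a
    · rw [← C2_over_lt hO, hπ]; exact h3
    · rw [← C2_over_eq hO, ← hae]; exact h4 p hp

end Fermat.Agent.S36.Val

end
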