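import Fermat.Agent.S36.Val.Interface3
import Fermat.Agent.S36.Val.AL
import Fermat.Agent.S36.Val.CenAbs
import Fermat.Agent.S36.Val.CenFin
import Fermat.Agent.S36.Val.Class2
import Fermat.Agent.S36.Val.DegE
import Fermat.Agent.S36.Val.DegQ
import Fermat.Agent.S36.Val.DegenAbs
import Fermat.Agent.S36.Val.DeltaFun
import Fermat.Agent.S36.Val.EmbGen
import Fermat.Agent.S36.Val.ExtRing
import Fermat.Agent.S36.Val.ExtRingE
import Fermat.Agent.S36.Val.GVApi
import Fermat.Agent.S36.Val.GVOps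
import Fermat.Agent.S36.Val.Indep
import Fermat.Agent.S36.Val.JTw
import Fermat.Agent.S36.Val.LevelMaps
import Fermat.Agent.S36.Val.Main1
import Fermat.Agent.S36.Val.Main2
import Fermat.Agent.S36.Val.Mid
import Fermat.Agent.S36.Val.NormProd
import Fermat.Agent.S36.Val.NormU
import Fermat.Agent.S36.Val.OrdOf
import Fermat.Agent.S36.Val.OverAll
import Fermat.Agent.S36.Val.PM
import Fermat.Agent.S36.Val.PhiGen
import Fermat.Agent.S36.Val.PhiLevel
import Fermat.Agent.S36.Val.Sat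
import Fermat.Agent.S36.Val.Series1
import Fermat.Agent.S36.Val.UnifR
import Fermat.Agent.S36.Val.Vert
import Fermat.Agent.S36.Base.Unram
import Fermat.Agent.S36.Base.DVR
import Fermat.Agent.S36.Base.Descent
import Fermat.Agent.S36.Base.Span
import Fermat.Agent.S36.Base.Frac
import Fermat.Agent.S36.Base.Fin
import Fermat.Agent.CAR.NR.Main

/-!
# S36 / Val : everything of `Interface.lean`, `Interface2.lean` unconditionally (helper88)
-/

set_option autoImplicit false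

namespace Fermat.Agent.S36.Val

open Fermat.Agent
open Fermat.Agent.S24 (Qbar FF)
open Fermat.Agent.S36.Base

theorem all_PhiLevel : Stmt_PhiLevel := stmt_PhiLevel stmt_ExtRingE stmt_PhiGen

theorem all_OverAll : Stmt_OverAll :=
  stmt_OverAll all_PhiLevel stmt_OverOf stmt_GVApi stmt_GVExpand stmt_GVTw

theorem all_Descent : Base.Stmt_Descent := Base.stmt_Descent Base.stmt_Span

theorem all_SpanE : Base.Stmt_SpanE := Base.stmt_SpanE Base.stmt_Span

theorem all_DVR : Base.Stmt_DVR := Base.stmt_DVR Base.stmt_Unram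

theorem all_Fin : Base.Stmt_Fin := Base.stmt_Fin Base.stmt_LinDisj

theorem all_UnifR : Stmt_UnifR :=
  stmt_UnifR Base.stmt_Unram Base.stmt_Frac all_Descent stmt_GVApi

theorem all_PM : Stmt_PM := stmt_PM stmt_PhiGen stmt_GVApi stmt_JTw

theorem all_Indep : Stmt_Indep :=
  stmt_Indep stmt_PhiGen all_PhiLevel stmt_GVApi stmt_GVExpand stmt_IndepPow stmt_JFrob

theorem all_DegE : Stmt_DegE :=
  stmt_DegE stmt_DegQ all_SpanE Base.stmt_LinDisj stmt_ExtRing stmt_PhiGen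

theorem all_DegenAbs : Stmt_DegenAbs :=
  stmt_DegenAbs CAR.NR.stmt_FundEq CAR.NR.stmt_OrdNorm CAR.NR.stmt_RedNorm stmt_OrdOf stmt_DegLE

theorem all_Class2 : Stmt_Class2 := stmt_Class2 CAR.NR.stmt_FundEq stmt_DegLE

/-- **[M1]** unconditionally. -/
theorem all_Main1 : Stmt_Main1 :=
  stmt_Main1 all_DegenAbs all_Class2 all_OverAll all_UnifR all_PM all_Indep all_DegE
    stmt_LevelConst stmt_OrdOf

theorem all_CenFin : Stmt_CenFin :=
  stmt_CenFin stmt_CenAbs stmt_VertInv stmt_OrdOf KL.stmt_polyRConcrete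

/-- **[M2]** unconditionally. -/
theorem all_Main2 : Stmt_Main2 :=
  stmt_Main2 all_Main1 all_CenFin stmt_VertOver stmt_LevelConst all_DVR all_Fin

/-- **[M3]** unconditionally. -/
theorem all_NormU : Stmt_NormU := stmt_NormU all_Main1 stmt_NormProd stmt_ExtRing

theorem all_AL : Stmt_AL := stmt_AL stmt_ExtRing

theorem all_Mid : Stmt_Mid := stmt_Mid stmt_EmbGen stmt_DeltaFun

theorem all_MidSat : Stmt_MidSat := stmt_MidSat stmt_SatFG

/-- **[Q8]** existence of a context. -/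
theorem all_ExCtx : Stmt_ExCtx := by
  intro A r M _ _ _ _ hr hrM hA
  have hc1 : Nat.Coprime r M := (Nat.Prime.coprime_iff_not_dvd hr).2 hrM
  obtain ⟨-, ⟨W1⟩⟩ := all_AL r M hc1
  obtain ⟨-, ⟨W2⟩⟩ := all_AL (r ^ 2) M (Nat.Coprime.pow_left 2 hc1)
  obtain ⟨D⟩ := all_Mid r M hr hrM
  obtain ⟨i01, hi01⟩ := (stmt_LevelMaps A M (r * M)).1 (Dvd.intro_left r rfl)
  obtain ⟨i12, hi12⟩ := (stmt_LevelMaps A (r * M) (r ^ 2 * M)).1 ⟨r, by ring⟩
  obtain ⟨v12, hv12⟩ := (stmt_LevelMaps A (r * M) (r ^ 2 * M)).2 r ⟨1, by ring⟩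
  obtain ⟨v01, hv01⟩ := (stmt_LevelMaps A M (r * M)).2 r (dvd_refl _)
  exact ⟨⟨⟨hr, hrM, hA, W1, W2, D, all_MidSat A r M hr hrM D, i01, i12, v12, hi01, hi12, hv12⟩⟩,
    v01, hv01⟩

end Fermat.Agent.S36.Val
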