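import Fermat.Agent.S36.Val.Interface3
import Fermat.Agent.S36.Val.GVApi
import Fermat.Agent.S36.Val.Indep
import Fermat.Agent.S36.Val.PhiLevel

/-!
# S36 / Val, [Q5] : the Frobenius congruences of `1/j, 1/j_r, 1/j_{r²}` (`Stmt_JVal`)
-/

set_option autoImplicit false

noncomputable section

namespace Fermat.Agent.S36.Val

open Fermat.Agent
open Fermat.Agent.S24 (Qbar FF)
open Fermat.Agent.INJ.Inst (kA)
open Fermat.Agent.S36.Base
open Fermat.Agent.ES.Mid (tw)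
open Fermat.Agent.CAR (NR.IsUnif)
open ModularCurve (qExpand coeffMap)

section Abs

variable {A : ValuationSubring Qbar} {F : Type*} [Field F] (φ : F →+* LaurentSeries Qbar)
  (h : ∀ x, Sat A (φ x))

/-- the inverse of an element with non zero reduction is a unit. -/
theorem JVal_unit {a : F} (h1 : GInt A (φ a)) (h2 : gred A (φ a) ≠ 0) :
    (gv φ h).valuation a⁻¹ = 1 := by
  rw [map_inv₀, (gv_eq_one_iff φ h a).2 ⟨h1, h2⟩, inv_one]

/-- congruences between inverses. -/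
theorem JVal_cong {a b : F} (e : ℕ) (ha : GInt A (φ a)) (hb : GInt A (φ b))
    (hb0 : gred A (φ b) ≠ 0) (hab : gred A (φ a) = gred A (φ b) ^ e) :
    (gv φ h).valuation (a⁻¹ - b⁻¹ ^ e) < 1 := by
  have ha0 : gred A (φ a) ≠ 0 := by rw [hab]; exact pow_ne_zero _ hb0
  rw [gv_lt_one_iff, map_sub, map_pow, map_inv₀, map_inv₀]
  refine ⟨(ha.inv ha0).sub ((hb.inv hb0).pow e), ?_⟩
  rw [gred_sub (ha.inv ha0) ((hb.inv hb0).pow e), gred_pow (hb.inv hb0), gred_inv ha ha0,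
    gred_inv hb hb0, hab, inv_pow, sub_self]

end Abs

/-- `IsUnif` only depends on the valuation. -/
theorem JVal_isUnif_congr {L : Type*} [Field L] {W : ValuationSubring L} {a b : L}
    (ha : NR.IsUnif W a) (hab : W.valuation b = W.valuation a) : NR.IsUnif W b := by
  refine ⟨fun h0 => ?_, by rw [hab]; exact ha.lt_one, fun x hx => by rw [hab]; exact ha.exists_zpow x hx⟩
  rw [h0, map_zero] at hab
  exact ha.ne_zero ((W.valuation.zero_iff).1 hab.symm)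

theorem JVal_jd_ne_zero (k : Type) [CommRing k] [Nontrivial k] {d : ℕ} (hd : d ≠ 0) :
    S28.jd k d ≠ 0 := by
  intro h
  have h2 := congrArg HahnSeries.order h
  rw [S28.order_jd hd, HahnSeries.order_zero] at h2
  omega

theorem stmt_JVal (hP : Stmt_PhiGen) (hJ : Stmt_JFrob) (hT : Stmt_GVTw) (hM1 : Stmt_Main1)
    (hPM : Stmt_PM) : Stmt_JVal := by
  intro A r M _ _ _ _ C X X1 X2 hX hX1 hX2
  obtain ⟨hPA, -, hPC, -, hPMl, hPMt, -⟩ := hP A
  have hr := C.hr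
  have hr0 : r ≠ 0 := hr.ne_zero
  have hr2 : r ^ 2 ≠ 0 := pow_ne_zero _ hr0
  have hch : (r : kA A) = 0 := Indep_char hr C.hA
  have hF := (hJ (kA A) r hr hch).1
  have hF1 : S28.jd (kA A) r = S28.jd (kA A) 1 ^ r := by rw [hF 1 one_pos, mul_one]
  have hF2 : S28.jd (kA A) (r ^ 2) = S28.jd (kA A) r ^ r := by rw [hF r hr.pos, sq]
  have hk : ∀ d : ℕ, d ≠ 0 → gred A (S28.jd Qbar d) ≠ 0 := fun d hd => by
    rw [Indep_gred_jd]; exact JVal_jd_ne_zero (kA A) hd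
  have hd1 : 1 ∣ r ^ 2 * M := one_dvd _
  have hdr : r ∣ r ^ 2 * M := ⟨r * M, by ring⟩
  have hdrr : r ^ 2 ∣ r ^ 2 * M := Dvd.intro _ rfl
  -- images
  have hA1 : phiA A (r ^ 2 * M) (jE A (r ^ 2 * M) 1) = S28.jd Qbar 1 := hPA _ _ hd1
  have hAr : phiA A (r ^ 2 * M) (jE A (r ^ 2 * M) r) = S28.jd Qbar r := hPA _ _ hdr
  have hArr : phiA A (r ^ 2 * M) (jE A (r ^ 2 * M) (r ^ 2)) = S28.jd Qbar (r ^ 2) := hPA _ _ hdrr
  have hC1 : phiC A C.W2 (jE A (r ^ 2 * M) 1) = S28.jd Qbar (r ^ 2) := by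
    have h2 := hPC (r ^ 2) M C.W2 1 1 (one_dvd _) (one_dvd _)
    rwa [mul_one, Nat.div_one, mul_one] at h2
  have hCr : phiC A C.W2 (jE A (r ^ 2 * M) r) = S28.jd Qbar r := by
    have h2 := hPC (r ^ 2) M C.W2 r 1 (Dvd.intro_left r (by ring)) (one_dvd _)
    have h3 : r ^ 2 / r = r := by rw [sq, Nat.mul_div_cancel _ hr.pos]
    rwa [mul_one, mul_one, h3] at h2
  have hCrr : phiC A C.W2 (jE A (r ^ 2 * M) (r ^ 2)) = S28.jd Qbar 1 := by
    have h1 := hPC (r ^ 2) M C.W2 (r ^ 2) 1 dvd_rfl (one_dvd _)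
    rwa [mul_one, Nat.div_self (Nat.pos_of_ne_zero hr2), mul_one] at h1
  have hM1' : phiM A C.D (jE A (r ^ 2 * M) 1) = S28.jd Qbar 1 := hPMl r M C.D 1 (one_dvd _)
  have hMr : phiM A C.D (jE A (r ^ 2 * M) r) = S28.jd Qbar r := hPMl r M C.D r (Dvd.intro _ rfl)
  have hMrr : phiM A C.D (jE A (r ^ 2 * M) (r ^ 2)) = tw C.D.ζ (S28.jd Qbar 1) := by
    have h1 := hPMt r M C.D 1 (one_dvd _)
    rwa [mul_one] at h1
  obtain ⟨hTi, hTr⟩ := hT A r hr C.hA C.D.ζ C.D.prim.pow_eq_one (S28.jd Qbar 1) (Indep_gint_jd 1)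
  have hO0 : C.O 0 = OA A (r ^ 2 * M) := rfl
  have hO1 : C.O 1 = OM A C.D C.hS := rfl
  have hO2 : C.O 2 = OC A C.W2 := rfl
  have hne : ∀ d : ℕ, d ≠ 0 → d ∣ r ^ 2 * M → jE A (r ^ 2 * M) d ≠ 0 := by
    intro d hd hdN h0
    have := hPA (r ^ 2 * M) d hdN
    rw [h0, map_zero] at this
    exact JVal_jd_ne_zero Qbar hd this.symm
  have hJ1 := hne 1 one_ne_zero hd1
  have hJr := hne r hr0 hdr
  have hJrr := hne (r ^ 2) hr2 hdrr
  obtain ⟨hpM0, -, -, -, -⟩ := hPM A r M C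
  have hpM : C.pM = jE A (r ^ 2 * M) (r ^ 2) - jE A (r ^ 2 * M) 1 := rfl
  have hvX2 : (C.O 1).valuation X2 = 1 := by
    rw [hO1, hX2]
    exact JVal_unit (phiM A C.D) _ (by rw [hMrr]; exact hTi)
      (by rw [hMrr, hTr]; exact hk 1 one_ne_zero)
  refine ⟨by rw [hX]; exact inv_ne_zero hJ1, by rw [hX1]; exact inv_ne_zero hJr,
    by rw [hX2]; exact inv_ne_zero hJrr, ?_, ⟨?_, ?_, ?_⟩, ⟨?_, ?_, ?_⟩, ⟨?_, ?_, ?_⟩, ?_, ?_, ?_,
    ?_, ?_⟩
  · rw [hX, hX2]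
    intro h
    exact hpM0 (by rw [hpM, inv_injective h, sub_self])
  · rw [hO0, hX]
    exact JVal_unit (phiA A (r ^ 2 * M)) _ (by rw [hA1]; exact Indep_gint_jd 1)
      (by rw [hA1]; exact hk 1 one_ne_zero)
  · rw [hO0, hX, hX1]
    exact JVal_cong (phiA A (r ^ 2 * M)) _ r (by rw [hAr]; exact Indep_gint_jd r)
      (by rw [hA1]; exact Indep_gint_jd 1) (by rw [hA1]; exact hk 1 one_ne_zero)
      (by rw [hAr, hA1, Indep_gred_jd, Indep_gred_jd, hF1])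
  · rw [hO0, hX1, hX2]
    exact JVal_cong (phiA A (r ^ 2 * M)) _ r (by rw [hArr]; exact Indep_gint_jd _)
      (by rw [hAr]; exact Indep_gint_jd r) (by rw [hAr]; exact hk r hr0)
      (by rw [hArr, hAr, Indep_gred_jd, Indep_gred_jd, hF2])
  · rw [hO1, hX]
    exact JVal_unit (phiM A C.D) _ (by rw [hM1']; exact Indep_gint_jd 1)
      (by rw [hM1']; exact hk 1 one_ne_zero)
  · rw [hO1, hX, hX1]
    exact JVal_cong (phiM A C.D) _ r (by rw [hMr]; exact Indep_gint_jd r)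
      (by rw [hM1']; exact Indep_gint_jd 1) (by rw [hM1']; exact hk 1 one_ne_zero)
      (by rw [hMr, hM1', Indep_gred_jd, Indep_gred_jd, hF1])
  · rw [hO1, hX, hX2]
    have := JVal_cong (phiM A C.D) (fun _ => C.hS _) (a := jE A (r ^ 2 * M) (r ^ 2))
      (b := jE A (r ^ 2 * M) 1) 1
      (by rw [hMrr]; exact hTi)
      (by rw [hM1']; exact Indep_gint_jd 1) (by rw [hM1']; exact hk 1 one_ne_zero)
      (by rw [hMrr, hM1', hTr, pow_one])
    rwa [pow_one] at this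
  · rw [hO2, hX2]
    exact JVal_unit (phiC A C.W2) _ (by rw [hCrr]; exact Indep_gint_jd 1)
      (by rw [hCrr]; exact hk 1 one_ne_zero)
  · rw [hO2, hX1, hX2]
    exact JVal_cong (phiC A C.W2) _ r (by rw [hCr]; exact Indep_gint_jd r)
      (by rw [hCrr]; exact Indep_gint_jd 1) (by rw [hCrr]; exact hk 1 one_ne_zero)
      (by rw [hCr, hCrr, Indep_gred_jd, Indep_gred_jd, hF1])
  · rw [hO2, hX, hX1]
    exact JVal_cong (phiC A C.W2) _ r (by rw [hC1]; exact Indep_gint_jd _)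
      (by rw [hCr]; exact Indep_gint_jd r) (by rw [hCr]; exact hk r hr0)
      (by rw [hC1, hCr, Indep_gred_jd, Indep_gred_jd, hF2])
  · have hU : NR.IsUnif (C.O 1) C.pM := (hM1 A r M C).1 1
    refine JVal_isUnif_congr hU ?_
    have e : X2 / X - 1 = -(C.pM * X2) := by
      rw [hX, hX2, hpM]
      field_simp
      ring
    rw [e, Valuation.map_neg, map_mul, hvX2, mul_one]
  · rw [hX, map_inv₀, PhiLevel_incl_jE A C.i12 C.hi12 (one_dvd _) hd1]
  · rw [hX1, map_inv₀, PhiLevel_incl_jE A C.i12 C.hi12 (Dvd.intro _ rfl) hdr]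
  · rw [hX1, map_inv₀, PhiLevel_V_jE A C.v12 C.hv12 (one_dvd _) (by rw [mul_one]; exact hdr),
      mul_one]
  · rw [hX2, map_inv₀, PhiLevel_V_jE A C.v12 C.hv12 (Dvd.intro _ rfl) (by rw [← sq]; exact hdrr),
      ← sq]

end Fermat.Agent.S36.Val

end
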