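import Fermat.Agent.S36.Val.Interface3
import Fermat.Agent.S36.Val.Vert

/-!
# S36 / Val, task Q6 : `i12 F₁` and `v12 F₁` are unramified at `mid`
-/

set_option autoImplicit false

namespace Fermat.Agent.S36.Val

open Fermat.Agent
open Fermat.Agent.CAR (NR.IsUnif)

/-- an element of positive valuation is divisible by the uniformiser. -/
theorem Q6_div_mem {K : Type*} [Field K] {V : ValuationSubring K} {ϖ : K} (hU : NR.IsUnif V ϖ)
    {x : K} (hx : V.valuation x < 1) : x / ϖ ∈ V := by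
  by_cases h0 : x = 0
  · rw [h0, zero_div]
    exact V.zero_mem
  obtain ⟨j, hj⟩ := hU.exists_zpow x h0
  have hv0 : V.valuation ϖ ≠ 0 := (V.valuation.ne_zero_iff).2 hU.ne_zero
  rcases le_or_gt j 0 with hj0 | hj0
  · exfalso
    obtain ⟨n, hn⟩ := Int.eq_ofNat_of_zero_le (neg_nonneg.2 hj0)
    have hjn : j = -(n : ℤ) := by omega
    rw [hj, hjn, zpow_neg, zpow_natCast] at hx
    have h1 : V.valuation ϖ ^ n ≤ 1 := pow_le_one' hU.lt_one.le n
    have h2 : 0 < V.valuation ϖ ^ n := zero_lt_iff.2 (pow_ne_zero _ hv0)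
    exact absurd hx (not_lt.2 ((one_le_inv₀ h2).2 h1))
  · obtain ⟨n, hn⟩ := Int.eq_ofNat_of_zero_le (by omega : 0 ≤ j - 1)
    have hjn : j = (n : ℤ) + 1 := by omega
    rw [← V.valuation_le_one_iff, map_div₀, hj, hjn, zpow_add₀ hv0, zpow_one, zpow_natCast,
      mul_div_cancel_right₀ _ hv0]
    exact pow_le_one' hU.lt_one.le n

theorem Q6_abs {K L : Type*} [Field K] [Field L] {π : K →+* L} {V : ValuationSubring K}
    {W : ValuationSubring L} (h : Over π V W) (r : ℕ) (hU : NR.IsUnif V (r : K)) (x : K)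
    (hx : W.valuation (π x) < 1) : π x / (r : L) ∈ W := by
  have h1 := Q6_div_mem hU ((C2_over_lt h x).1 hx)
  have h2 := (h _).2 h1
  rwa [map_div₀, map_natCast] at h2

theorem stmt_MidUnram (hOv : Stmt_OverAll) (hU : Stmt_UnifR) : Stmt_MidUnram := by
  intro A r M _ _ _ _ C
  obtain ⟨-, h2, -, -, h5, -⟩ := hOv A r M C
  obtain ⟨hU1, hU2⟩ := hU A r C.hr C.hA
  exact ⟨fun x hx => Q6_abs h2 r (hU1 (r * M)) x hx,
    fun x hx => Q6_abs h5 r (hU2 r M C.W1) x hx⟩

end Fermat.Agent.S36.Val
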