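import Fermat.Agent.S36.Val.Interface3
import Fermat.Agent.S36.Val.Class2

/-!
# S36 / Val, package [Q1] : complement to `Stmt_Class2`

uniformisers, residue degree one at `W₁`, and an element with `ord = (0, 1)`.
-/

set_option autoImplicit false

noncomputable section

namespace Fermat.Agent.S36.Val

open Fermat.Agent
open Fermat.Agent.CAR (NR.IsUnif)

/-- `v (s - 1) < 1 → v s = 1`. -/
theorem Class2b_val_one {L : Type*} [Field L] (W : ValuationSubring L) {s : L}
    (h : W.valuation (s - 1) < 1) : W.valuation s = 1 := by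
  have h1 : W.valuation ((1 : L) + (s - 1)) = W.valuation (1 : L) :=
    Valuation.map_add_eq_of_lt_left _ (by rwa [map_one])
  rw [map_one] at h1
  rwa [add_sub_cancel] at h1

/-- the combination `s₁ ^ 2 + ρ * s₂`. -/
theorem Class2b_comb {L : Type*} [Field L] (W₁ W₃ : ValuationSubring L) {ρ s₁ s₂ : L}
    (hρ0 : ρ ≠ 0) (hρ1 : W₁.valuation ρ < 1) (hρ3 : W₃.valuation ρ < 1)
    (h11 : W₁.valuation (s₁ - 1) ≤ W₁.valuation ρ) (h13 : W₃.valuation (s₁ - 0) ≤ W₃.valuation ρ)
    (h21 : s₂ ∈ W₁) (h23 : W₃.valuation (s₂ - 1) ≤ W₃.valuation ρ) :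
    W₁.valuation (s₁ ^ 2 + ρ * s₂) = 1 ∧ W₃.valuation (s₁ ^ 2 + ρ * s₂) = W₃.valuation ρ := by
  have a1 : W₁.valuation s₁ = 1 := Class2b_val_one W₁ (lt_of_le_of_lt h11 hρ1)
  have a2 : W₃.valuation s₂ = 1 := Class2b_val_one W₃ (lt_of_le_of_lt h23 hρ3)
  rw [sub_zero] at h13
  have hρpos : 0 < W₃.valuation ρ := zero_lt_iff.2 ((map_ne_zero _).2 hρ0)
  constructor
  · have h : W₁.valuation (ρ * s₂) < W₁.valuation (s₁ ^ 2) := by
      rw [map_pow, a1, one_pow, map_mul]
      calc W₁.valuation ρ * W₁.valuation s₂ ≤ W₁.valuation ρ * 1 :=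
            mul_le_mul_right ((W₁.valuation_le_one_iff _).2 h21) _
        _ < 1 := by rwa [mul_one]
    rw [Valuation.map_add_eq_of_lt_left _ h, map_pow, a1, one_pow]
  · have h : W₃.valuation (s₁ ^ 2) < W₃.valuation (ρ * s₂) := by
      rw [map_pow, map_mul, a2, mul_one, sq]
      calc W₃.valuation s₁ * W₃.valuation s₁ ≤ W₃.valuation ρ * W₃.valuation ρ :=
            mul_le_mul' h13 h13
        _ < W₃.valuation ρ * 1 := by
            exact (mul_lt_mul_iff_right₀ hρpos).2 hρ3
        _ = W₃.valuation ρ := mul_one _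
    rw [Valuation.map_add_eq_of_lt_right _ h, map_mul, a2, mul_one]

theorem stmt_Class2b (hFE : CAR.NR.Stmt_FundEq) (hAP : CAR.NR.Stmt_ApproxPi) (hD : Stmt_DegLE) :
    Stmt_Class2b := by
  intro K L _ _ _ π r V W₁ W₃ g hr hdeg hV h1 h3 hne hres
  let _ : Algebra K L := π.toAlgebra
  obtain ⟨hfd, hrank⟩ := (hD K L π (r + 1)).1 hdeg
  have : FiniteDimensional K L := hfd
  have hrL : (r : L) = π (r : K) := (map_natCast π r).symm
  have hr0 : (r : L) ≠ 0 := by
    rw [hrL]
    exact (map_ne_zero π).2 hV.ne_zero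
  have hr1 : W₁.valuation (r : L) < 1 := by
    rw [hrL]
    exact (Class2_over_lt h1 _).2 hV.lt_one
  have hr3 : W₃.valuation (r : L) < 1 := by
    rw [hrL]
    exact (Class2_over_lt h3 _).2 hV.lt_one
  have hb1 : CAR.NR.ResIndepFam V W₁ (fun _ : Fin 1 => (1 : L)) := by
    refine ⟨fun _ => W₁.one_mem, fun c _ hc l => ?_⟩
    have hl : l = 0 := Subsingleton.elim _ _
    subst hl
    have hc' : W₁.valuation (∑ l : Fin 1, π (c l) * 1) < 1 := hc
    rw [Fin.sum_univ_one, mul_one] at hc'
    exact (Class2_over_lt h1 _).1 hc'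
  let D : CAR.NR.ExtData K L Bool :=
    { V := V
      π := (r : K)
      W := fun i => cond i W₃ W₁
      ϖ := fun _ => (r : L)
      e := fun _ => 1
      f := fun i => cond i r 1
      b := fun i => Bool.rec (motive := fun i => Fin (cond i r 1) → L) (fun _ => 1)
        (fun l => g ^ (l : ℕ)) i
      hπ := hV
      inj := by
        intro i j hij
        cases i <;> cases j
        · rfl
        · exact absurd hij hne
        · exact absurd hij.symm hne
        · rfl
      hover := by
        intro i a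
        cases i
        · exact h1 a
        · exact h3 a
      ϖ_ne := fun _ => hr0
      ϖ_lt := by
        intro i
        cases i
        · exact hr1
        · exact hr3
      e_pos := fun _ => le_rfl
      he := by
        intro i
        rw [pow_one, map_natCast]
      hb := by
        intro i
        cases i
        · exact hb1
        · exact hres
      deg := by
        rw [Fintype.sum_bool]
        show Module.finrank K L ≤ 1 * r + 1 * 1
        rw [one_mul, one_mul]
        exact hrank }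
  obtain ⟨hU, -, hRes, -⟩ := hFE K L Bool D
  have hπr : algebraMap K L D.π = (r : L) := map_natCast π r
  refine ⟨hU false, hU true, ?_, ?_⟩
  · intro y hy
    obtain ⟨c, -, hc⟩ := hRes false y ((W₁.valuation_le_one_iff y).1 hy.le)
    refine ⟨c (0 : Fin 1), ?_⟩
    have hc' : W₁.valuation (y - ∑ l : Fin 1, π (c l) * 1) < 1 := hc
    rwa [Fin.sum_univ_one, mul_one] at hc'
  · obtain ⟨s₁, -, hs₁⟩ := hAP K L Bool D (fun i => cond i 0 1) (by
      intro i
      cases i
      · exact W₁.one_mem
      · exact W₃.zero_mem)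
    obtain ⟨s₂, hs₂m, hs₂⟩ := hAP K L Bool D (fun i => cond i 1 0) (by
      intro i
      cases i
      · exact W₁.zero_mem
      · exact W₃.one_mem)
    have e1 := hs₁ false
    have e2 := hs₁ true
    have e3 := hs₂ true
    rw [hπr] at e1 e2 e3
    exact ⟨s₁ ^ 2 + (r : L) * s₂, Class2b_comb W₁ W₃ hr0 hr1 hr3 e1 e2 (hs₂m false) e3⟩

end Fermat.Agent.S36.Val

end
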