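import Fermat.Agent.S36.Val.Interface3
import Fermat.Agent.S36.Val.DegE
import Fermat.Agent.S36.Val.DegQ
import Fermat.Agent.S36.Val.ExtRing
import Fermat.Agent.S36.Base.Descent
import Fermat.Agent.S36.Base.Span

/-!
# S36 / Val, task VAL-Q3' : the degree of `v01 = (q ↦ q ^ r)`, level `M` to level `r * M`.
-/

set_option autoImplicit false

noncomputable section

namespace Fermat.Agent.S36.Val

open Fermat.Agent
open Fermat.Agent.S24 (Qbar FF)
open Fermat.Agent.S36.Base
open ModularCurve (qExpand coeffMap)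

section

variable {A : ValuationSubring Qbar} {r M : ℕ} [NeZero r] [NeZero M] [NeZero (r * M)]
  [NeZero (r ^ 2 * M)]

/-- the inclusion `FF M → FF (r M)`. -/
def DegV01_iota (r M : ℕ) [NeZero M] [NeZero (r * M)] : FF M →ₐ[Qbar] FF (r * M) :=
  IntermediateField.inclusion (DegE_bar_mono ⟨r, by ring⟩)

omit [NeZero r] [NeZero (r ^ 2 * M)] in
theorem DegV01_coe_iota (c : FF M) :
    ((DegV01_iota r M c : FF (r * M)) : LaurentSeries Qbar) = (c : LaurentSeries Qbar) :=
  IntermediateField.coe_inclusion _ c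

/-- `c ↦ W_r c`. -/
def DegV01_f (C : Ctx A r M) : FF M →+* LaurentSeries Qbar :=
  (incl (r * M)).toRingHom.comp
    ((C.W1.W : FF (r * M) →+* FF (r * M)).comp (DegV01_iota r M).toRingHom)

/-- `c ↦ V_r c`. -/
def DegV01_g (r M : ℕ) [NeZero r] : FF M →+* LaurentSeries Qbar :=
  (qExpand Qbar r).comp (incl M).toRingHom

theorem DegV01_f_apply (C : Ctx A r M) (c : FF M) :
    DegV01_f C c = ((C.W1.W (DegV01_iota r M c) : FF (r * M)) : LaurentSeries Qbar) := rfl

omit [NeZero M] [NeZero (r * M)] [NeZero (r ^ 2 * M)] in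
theorem DegV01_g_apply (c : FF M) :
    DegV01_g r M c = qExpand Qbar r (c : LaurentSeries Qbar) := rfl

theorem DegV01_f_const (C : Ctx A r M) (c : Qbar) :
    DegV01_f C (algebraMap Qbar (FF M) c) = algebraMap Qbar (LaurentSeries Qbar) c := by
  rw [DegV01_f_apply, AlgHom.commutes, AlgEquiv.commutes]
  rfl

omit [NeZero M] [NeZero (r * M)] [NeZero (r ^ 2 * M)] in
theorem DegV01_g_const (c : Qbar) :
    DegV01_g r M (algebraMap Qbar (FF M) c) = algebraMap Qbar (LaurentSeries Qbar) c := by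
  rw [DegV01_g_apply]
  exact DegE_qExpand_const c

theorem DegV01_fg_gen (C : Ctx A r M) (d : ℕ) (y : FF M) (hd : d ∣ M) (hy : IsJ y d) :
    DegV01_f C y = DegV01_g r M y := by
  have hd0 : d ≠ 0 := by
    rintro rfl
    exact NeZero.ne M (Nat.eq_zero_of_zero_dvd hd)
  have hd1 : r / 1 * d ∣ r * M := by
    rw [Nat.div_one]
    exact Nat.mul_dvd_mul_left r hd
  have hy2 : IsJ (DegV01_iota r M y) (1 * d) := by
    rw [IsJ, DegV01_coe_iota, one_mul]
    exact hy
  have e1 : C.W1.W (DegV01_iota r M y)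
      = ⟨S28.jd Qbar (r / 1 * d), INJ.Inst.jd_mem_bar (NeZero.ne _) hd1⟩ :=
    C.W1.gen 1 d _ _ (one_dvd r) hd hy2 rfl
  rw [DegV01_f_apply, DegV01_g_apply, e1, hy]
  show S28.jd Qbar (r / 1 * d) = qExpand Qbar r (S28.jd Qbar d)
  rw [DegE_qExpand_jd hd0, Nat.div_one]

theorem DegV01_fg (hExt : Stmt_ExtRing) (C : Ctx A r M) : DegV01_f C = DegV01_g r M :=
  hExt M (LaurentSeries Qbar) (DegV01_f C) (DegV01_g r M)
    (fun c => (DegV01_f_const C c).trans (DegV01_g_const c).symm) (DegV01_fg_gen C)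

/-- `W_r` on level `M` is `V_r`. -/
theorem DegV01_W (hExt : Stmt_ExtRing) (C : Ctx A r M) (c : FF M) :
    ((C.W1.W (DegV01_iota r M c) : FF (r * M)) : LaurentSeries Qbar)
      = qExpand Qbar r (c : LaurentSeries Qbar) := by
  rw [← DegV01_f_apply, ← DegV01_g_apply, DegV01_fg hExt C]

theorem DegV01_main (hQ : Stmt_DegQ) (hS : Base.Stmt_SpanE) (hLD : Base.Stmt_LinDisj)
    (hExt : Stmt_ExtRing) (C : Ctx A r M) (v01 : FE A M →+* FE A (r * M)) (hv : IsVE A r v01) :
    DegLE v01 (r + 1) := by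
  intro v
  obtain ⟨c, hc0, hc⟩ := DegE_hQ hQ r M (r * M) (r + 1) C.hr rfl (by rw [if_neg C.hrM])
    (fun i => ((C.W1.W (emb A (r * M) (v i)) : FF (r * M)) : LaurentSeries Qbar))
    (fun i => (C.W1.W (emb A (r * M) (v i))).2)
  have h1 : ∑ i, DegV01_iota r M (c i) * C.W1.W (emb A (r * M) (v i)) = 0 := by
    apply (incl (r * M)).toRingHom.injective
    rw [map_sum, map_zero, ← hc]
    refine Finset.sum_congr rfl fun i _ => ?_
    rw [map_mul]
    rfl
  have h2 : ∑ i, C.W1.W (DegV01_iota r M (c i)) * emb A (r * M) (v i) = 0 := by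
    have := congrArg C.W1.W h1
    rw [map_sum, map_zero] at this
    simp only [map_mul, C.W1.invol] at this
    exact this
  have h3 : ∑ i, qExpand Qbar r (c i : LaurentSeries Qbar) * cmE A (v i : Base.LE A) = 0 := by
    have := congrArg (incl (r * M)).toRingHom h2
    rw [map_sum, map_zero] at this
    rw [← this]
    refine Finset.sum_congr rfl fun i _ => ?_
    rw [map_mul, ← DegV01_W hExt C (c i)]
    rfl
  refine DegE_descent hS hLD A _ _ (qExpand Qbar r) DegE_qExpand_const v01 (fun x => ?_) v c hc0 h3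
  rw [hv x]
  exact ModularCurve.coeffMap_qExpand _ r _

end

/-- **VAL-Q3'** (explicit hypotheses). -/
theorem stmt_DegV01' (hQ : Stmt_DegQ) (hS : Base.Stmt_SpanE) (hLD : Base.Stmt_LinDisj)
    (hExt : Stmt_ExtRing) : Stmt_DegV01 := by
  intro A r M _ _ _ _ C v01 hv
  exact DegV01_main hQ hS hLD hExt C v01 hv

/-- **VAL-Q3'**. -/
theorem stmt_DegV01 : Stmt_DegV01 :=
  stmt_DegV01' stmt_DegQ (Base.stmt_SpanE Base.stmt_Span) Base.stmt_LinDisj stmt_ExtRing

end Fermat.Agent.S36.Val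

end
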