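import Fermat.Agent.S36.Val.Interface3
import Fermat.Agent.S36.Val.Vert

/-!
# S36 / Val / Q4 : the residue fields of the three valuation rings (`Stmt_ResAll`)
-/

set_option autoImplicit false

noncomputable section

namespace Fermat.Agent.S36.Val

open Fermat.Agent
open Fermat.Agent.S24 (Qbar FF)
open Fermat.Agent.S36.Base
open Fermat.Agent.ES.Mid (tw)
open Fermat.Agent.CAR (NR.IsUnif)
open ModularCurve (qExpand coeffMap)

/-- composition of "residue degree one". -/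
theorem ResAll_comp {K L E : Type*} [Field K] [Field L] [Field E] (π : K →+* L) (ρ : L →+* E)
    (W : ValuationSubring L) (U : ValuationSubring E) (hOv : Over ρ W U)
    (h1 : ∀ y : E, U.valuation y = 1 → ∃ y' : L, U.valuation (y - ρ y') < 1)
    (h2 : ∀ y : L, W.valuation y = 1 → ∃ y' : K, W.valuation (y - π y') < 1) :
    ∀ y : E, U.valuation y = 1 → ∃ y' : K, U.valuation (y - ρ (π y')) < 1 := by
  intro y hy
  obtain ⟨y₁, hy₁⟩ := h1 y hy
  have h3 : U.valuation (ρ y₁) = 1 := by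
    have e : ρ y₁ = y - (y - ρ y₁) := by ring
    rw [e, Valuation.map_sub_eq_of_lt_left _ (by rw [hy]; exact hy₁), hy]
  obtain ⟨y', hy'⟩ := h2 y₁ ((C2_over_eq hOv y₁).1 h3)
  refine ⟨y', ?_⟩
  have e : y - ρ (π y') = (y - ρ y₁) + ρ (y₁ - π y') := by rw [map_sub]; ring
  rw [e]
  exact Valuation.map_add_lt _ hy₁ ((C2_over_lt hOv _).2 hy')

/-- composition of `Over`. -/
theorem ResAll_over {K L E : Type*} [Field K] [Field L] [Field E] {π : K →+* L} {ρ : L →+* E}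
    {V : ValuationSubring K} {W : ValuationSubring L} {U : ValuationSubring E}
    (h1 : Over ρ W U) (h2 : Over π V W) : Over (ρ.comp π) V U :=
  fun a => (h1 (π a)).trans (h2 a)

/-- translation `VUnit / VPos ↔ valuation`. -/
theorem ResAll_res (hO : Stmt_OrdOf) {K L : Type} [Field K] [Field L] (W : ValuationSubring L)
    (ϖ : L) (hu : NR.IsUnif W ϖ) (π : K →+* L)
    (h : ∀ y : L, VUnit (ordOf W ϖ) y → ∃ y' : K, VPos (ordOf W ϖ) (y - π y')) :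
    ∀ y : L, W.valuation y = 1 → ∃ y' : K, W.valuation (y - π y') < 1 := by
  obtain ⟨-, -, -, h4, h5, -⟩ := hO L W ϖ hu
  intro y hy
  obtain ⟨y', hy'⟩ := h y ((h5 y).2 hy)
  exact ⟨y', (h4 _).1 hy'⟩

/-- **[Q4]** -/
theorem stmt_ResAll (hV : Stmt_V01) (hDV : Stmt_DegV01) (hC : Stmt_Class2b) (hM1 : Stmt_Main1)
    (hOv : Stmt_OverAll) (hU : Stmt_UnifR) (hI : Stmt_Indep) (hDeg : Stmt_DegE) (hO : Stmt_OrdOf)
    (hL : Stmt_PhiLevel) : Stmt_ResAll := by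
  intro A r M _ _ _ _ C v01 hv
  obtain ⟨hV1, hV2, hV3, hV4, hV5, -⟩ := hV A r M C v01 hv
  have hDV' := hDV A r M C v01 hv
  obtain ⟨hu, -, -, -, -, -, ⟨D₁, hD₁, -⟩, ⟨D₂, hD₂, -⟩, -, -⟩ := hM1 A r M C
  obtain ⟨o1, o2, o3, o4, o5, o6, o7, o8⟩ := hOv A r M C
  obtain ⟨hUA, hUC⟩ := hU A r C.hr C.hA
  obtain ⟨-, -, -, -, -, -, hI7, hI8⟩ := hI A r M C
  obtain ⟨-, -, hDeg3⟩ := hDeg A r M C
  obtain ⟨l1, l2, l3, l4, l5, l6, l7, l8⟩ := hL A r M C
  have hr0 : 0 < r := C.hr.pos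
  -- level `F₁ / F₀`
  have a1 : ∀ y, (OA A (r * M)).valuation y = 1 →
      ∃ y' : FE A M, (OA A (r * M)).valuation (y - C.i01 y') < 1 :=
    (hC _ _ C.i01 r (OA A M) (OA A (r * M)) (OC A C.W1) (jE A (r * M) r) hr0 hDeg3 (hUA M) o7 o8
      hI8 hI7).2.2.1
  have a2 : ∀ y, (OC A C.W1).valuation y = 1 →
      ∃ y' : FE A M, (OC A C.W1).valuation (y - v01 y') < 1 :=
    (hC _ _ v01 r (OA A M) (OC A C.W1) (OA A (r * M)) (jE A (r * M) 1) hr0 hDV' (hUA M) hV4 hV3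
      hI8.symm hV5).2.2.1
  -- level `F₂ / F₁`
  have b1 : ∀ y, (C.O 0).valuation y = 1 →
      ∃ y' : FE A (r * M), (C.O 0).valuation (y - C.i12 y') < 1 :=
    ResAll_res hO (C.O 0) (C.unif 0) (hu 0) C.i12 (by rw [← hD₁]; exact D₁.res₁)
  have b2 : ∀ y, (C.O 1).valuation y = 1 →
      ∃ y' : FE A (r * M), (C.O 1).valuation (y - C.i12 y') < 1 :=
    ResAll_res hO (C.O 1) (C.unif 1) (hu 1) C.i12 (by rw [← hD₁]; exact D₁.res₂)
  have b3 : ∀ y, (C.O 1).valuation y = 1 →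
      ∃ y' : FE A (r * M), (C.O 1).valuation (y - C.v12 y') < 1 :=
    ResAll_res hO (C.O 1) (C.unif 1) (hu 1) C.v12 (by rw [← hD₂]; exact D₂.res₂)
  have b4 : ∀ y, (C.O 2).valuation y = 1 →
      ∃ y' : FE A (r * M), (C.O 2).valuation (y - C.v12 y') < 1 :=
    ResAll_res hO (C.O 2) (C.unif 2) (hu 2) C.v12 (by rw [← hD₂]; exact D₂.res₁)
  refine ⟨ResAll_comp _ _ _ _ o1 b1 a1, ResAll_comp _ _ _ _ o2 b2 a1,
    ResAll_comp _ _ _ _ o5 b3 a2, ResAll_comp _ _ _ _ o6 b4 a2, ?_, ?_, ?_, ?_, ?_, ?_, ?_⟩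
  · intro X
    have h0 : Over (C.v12.comp v01) (OA A M) (C.O 0) := ResAll_over o4 hV3
    have h1 : Over (C.v12.comp v01) (OA A M) (C.O 1) := ResAll_over o5 hV4
    have h2 : Over (C.v12.comp v01) (OA A M) (C.O 2) := ResAll_over o6 hV4
    revert X
    exact Fin.forall_fin_succ.2 ⟨h0, Fin.forall_fin_succ.2 ⟨h1, Fin.forall_fin_succ.2
      ⟨h2, fun i => i.elim0⟩⟩⟩
  · intro x; rw [l4, hV1]
  · intro x; rw [l6, hV2]
  · intro x; rw [l5, hV2]
  · intro x; rw [l1, l7]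
  · intro x; rw [l2, l7]
  · intro x; rw [l3, l8]

end Fermat.Agent.S36.Val

end
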