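import Fermat.Agent.S36.Val.Interface3
import Fermat.Agent.S36.Val.PhiLevel
import Fermat.Agent.S36.Val.OverAll
import Fermat.Agent.S36.Val.Indep
import Fermat.Agent.S36.Val.LevelMaps

/-!
# S36 / Val, task VAL-Q3 : `q ↦ q ^ r` from level `M` to level `r * M` (`Stmt_V01`)
-/

set_option autoImplicit false

noncomputable section

namespace Fermat.Agent.S36.Val

open Fermat.Agent
open Fermat.Agent.S24 (Qbar FF)
open Fermat.Agent.S36.Base
open ModularCurve (qExpand coeffMap)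

section

variable {A : ValuationSubring Qbar} {r M : ℕ} [NeZero r] [NeZero M] [NeZero (r * M)]
  [NeZero (r ^ 2 * M)]

theorem V01_c1 (v01 : FE A M →+* FE A (r * M)) (hv : IsVE A r v01) (x : FE A M) :
    phiA A (r * M) (v01 x) = qExpand Qbar r (phiA A M x) := by
  rw [PhiLevel_phiA, PhiLevel_phiA, hv x]
  exact ModularCurve.coeffMap_qExpand _ r _

theorem V01_c2 (hX : Stmt_ExtRingE) (hP : Stmt_PhiGen) (C : Ctx A r M)
    (v01 : FE A M →+* FE A (r * M)) (hv : IsVE A r v01) (x : FE A M) :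
    phiC A C.W1 (v01 x) = phiA A M x := by
  obtain ⟨hA1, hA2, hC1, hC2, -, -, -⟩ := hP A
  have := hX A M (LaurentSeries Qbar) ((phiC A C.W1).comp v01) (phiA A M) ?_ ?_
  · exact RingHom.congr_fun this x
  · intro c
    rw [RingHom.comp_apply, PhiLevel_V_alg A _ hv, hC2, hA2]
  · intro d hd
    rw [RingHom.comp_apply, PhiLevel_V_jE A _ hv hd (mul_dvd_mul_left r hd),
      hC1 r M C.W1 r d dvd_rfl hd, Nat.div_self (NeZero.pos r), one_mul, hA1 M d hd]

end

/-- **[Q3]** -/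
theorem stmt_V01 (hX : Stmt_ExtRingE) (hP : Stmt_PhiGen) (hO : Stmt_OverOf) (hG : Stmt_GVApi)
    (hE : Stmt_GVExpand) (hI : Stmt_IndepPow) (hJ : Stmt_JFrob) : Stmt_V01 := by
  intro A r M _ _ _ _ C v01 hv
  have c1 := V01_c1 v01 hv
  have c2 := V01_c2 hX hP C v01 hv
  refine ⟨c1, c2, ?_, ?_, ?_, X2_V_const A r v01 hv⟩
  · exact P3_over hO hG v01 (phiA A M) (fun _ => sat_incl A _ _) (phiA A (r * M))
      (fun _ => sat_incl A _ _) (qExpand Qbar r) (P3_expand hE A r) c1
  · exact P3_over hO hG v01 (phiA A M) (fun _ => sat_incl A _ _) (phiC A C.W1)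
      (fun _ => sat_incl A _ _) id (P3_id A) c2
  · exact Indep_general hE hI hJ C.hr C.hA v01 (phiA A M) (phiA A (r * M))
      (fun _ => sat_incl A _ _) (fun _ => sat_incl A _ _) c1 _
      ((hP A).1 (r * M) 1 (one_dvd _))

end Fermat.Agent.S36.Val

end
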