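import Fermat.Agent.S36.Val.GV
import Fermat.Agent.S36.ZAbs
import Fermat.Agent.S36.Dict.Defs

/-!
# S36 / Val : interface of the package [VAL3 + RED] (architect: helper88)

Levels `M` (`r ∤ M`), `r * M`, `r ^ 2 * M`; `F₀ = FE A M`, `F₁ = FE A (r * M)`, `F₂ = FE A (r ^ 2 * M)`.
Valuation rings: `OA A N` (Gauss), `OC A Wm` (Gauss ∘ Atkin-Lehner), `OM A D hS` (Gauss ∘ middle
embedding).  Goal: the fields `ord, ord_mul, ord_ϖ, cen₁, cen₁', cen₂, D₁, D₂` of `ZData`.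
-/

set_option autoImplicit false

noncomputable section

namespace Fermat.Agent.S36.Val

open Fermat.Agent
open Fermat.Agent.S24 (Qbar FF)
open Fermat.Agent.INJ.Inst (kA)
open Fermat.Agent.INJ.Inst.Gauss (IsRatio red rho inc)
open Fermat.Agent.S36.Base
open Fermat.Agent.ES.Mid (tw twProd compress)
open Fermat.Agent.KL (Chart PolyR cst crd FinOverR)
open Fermat.Agent.CAR (NR.IsUnif)
open ModularCurve (qExpand coeffMap)
open Polynomial

/-! ## 0. abstract notions -/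

section Abs

variable {K L : Type*} [Field K] [Field L]

/-- `W` lies over `V` with respect to `π`. -/
def Over (π : K →+* L) (V : ValuationSubring K) (W : ValuationSubring L) : Prop :=
  ∀ a : K, π a ∈ W ↔ a ∈ V

/-- `[L : π K] ≤ n`, elementwise. -/
def DegLE (π : K →+* L) (n : ℕ) : Prop :=
  ∀ v : Fin (n + 1) → L, ∃ c : Fin (n + 1) → K, c ≠ 0 ∧ ∑ i, π (c i) * v i = 0

/-- the residues of the `b l` are linearly independent over the residue field of `V`. -/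
def ResIndep (π : K →+* L) (V : ValuationSubring K) (W : ValuationSubring L) {n : ℕ}
    (b : Fin n → L) : Prop :=
  (∀ l, b l ∈ W) ∧ ∀ c : Fin n → K, (∀ l, c l ∈ V) →
    W.valuation (∑ l, π (c l) * b l) < 1 → ∀ l, V.valuation (c l) < 1

end Abs

/-- [O1] API of `ordOf`. -/
def Stmt_OrdOf : Prop :=
  ∀ (L : Type) [Field L] (W : ValuationSubring L) (ϖ : L), NR.IsUnif W ϖ →
    (∀ z : L, z ≠ 0 → W.valuation z = W.valuation ϖ ^ ordOf W ϖ z) ∧
    (∀ (z : L) (n : ℤ), W.valuation z = W.valuation ϖ ^ n → ordOf W ϖ z = n) ∧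
    (∀ x y : L, x ≠ 0 → y ≠ 0 → ordOf W ϖ (x * y) = ordOf W ϖ x + ordOf W ϖ y) ∧
    (∀ z : L, VPos (ordOf W ϖ) z ↔ W.valuation z < 1) ∧
    (∀ z : L, VUnit (ordOf W ϖ) z ↔ W.valuation z = 1) ∧
    ordOf W ϖ ϖ = 1

/-- [O2] `Over` from one-directional information. -/
def Stmt_OverOf : Prop :=
  ∀ (K L : Type) [Field K] [Field L] (π : K →+* L) (V : ValuationSubring K)
    (W : ValuationSubring L), (∀ a ∈ V, π a ∈ W) →
    (∀ a : K, V.valuation a < 1 → W.valuation (π a) < 1) →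
    Over π V W ∧ (∀ a : K, W.valuation (π a) < 1 ↔ V.valuation a < 1) ∧
      (∀ a : K, W.valuation (π a) = 1 ↔ V.valuation a = 1)

/-- [O3] `DegLE` and `finrank`. -/
def Stmt_DegLE : Prop :=
  ∀ (K L : Type) [Field K] [Field L] (π : K →+* L) (n : ℕ),
    (DegLE π n ↔ @FiniteDimensional K L _ _ π.toAlgebra.toModule ∧
      @Module.finrank K L _ _ π.toAlgebra.toModule ≤ n)

/-- [D1] **the abstract degeneracy datum** (from `NR.Stmt_FundEq/OrdNorm/RedNorm`). -/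
def Stmt_DegenAbs : Prop :=
  ∀ (A₀ K L : Type) [CommRing A₀] [Field K] [Field L] [CharZero K] [Algebra A₀ K] [Algebra A₀ L]
    (π : K →+* L) (r : ℕ) (V V' : ValuationSubring K) (W₁ W₂ W₃ : ValuationSubring L)
    (ϖ₂ g : L) (g' : K), r.Prime → (∀ a : A₀, π (algebraMap A₀ K a) = algebraMap A₀ L a) →
    DegLE π r → NR.IsUnif V (r : K) → NR.IsUnif V' (r : K) →
    Over π V W₁ → Over π V W₂ → Over π V' W₃ → W₁ ≠ W₂ →
    ϖ₂ ≠ 0 → W₂.valuation ϖ₂ < 1 → W₂.valuation (r : L) ≤ W₂.valuation ϖ₂ ^ (r - 1) →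
    g' ∈ V' → W₃.valuation (g ^ r - π g') < 1 →
    ResIndep π V' W₃ (fun i : Fin r => g ^ (i : ℕ)) →
    NR.IsUnif W₁ (r : L) ∧ NR.IsUnif W₂ ϖ₂ ∧ NR.IsUnif W₃ (r : L) ∧
    W₂.valuation (r : L) = W₂.valuation ϖ₂ ^ (r - 1) ∧
    (∀ W' : ValuationSubring L, Over π V W' → W' = W₁ ∨ W' = W₂) ∧
    (∀ W' : ValuationSubring L, Over π V' W' → W' = W₃) ∧
    @Module.finrank K L _ _ π.toAlgebra.toModule = r ∧
    ∃ D : Degen A₀ L K (ordOf W₁ (r : L)) (ordOf W₂ ϖ₂) (ordOf W₃ (r : L)) r, D.π = π ∧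
      ∀ x : L, D.N x = @Algebra.norm K L _ _ π.toAlgebra x

/-- [D2] classification for a degree `r + 1` extension with `(e, f) = (1, 1), (1, r)`. -/
def Stmt_Class2 : Prop :=
  ∀ (K L : Type) [Field K] [Field L] [CharZero K] (π : K →+* L) (r : ℕ)
    (V : ValuationSubring K) (W₁ W₃ : ValuationSubring L) (g : L), 0 < r →
    DegLE π (r + 1) → NR.IsUnif V (r : K) → Over π V W₁ → Over π V W₃ → W₁ ≠ W₃ →
    ResIndep π V W₃ (fun i : Fin r => g ^ (i : ℕ)) →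
    ∀ W' : ValuationSubring L, Over π V W' → W' = W₁ ∨ W' = W₃

/-- [D3] the norm is the product over `n = [L : K]` distinct embeddings. -/
def Stmt_NormProd : Prop :=
  ∀ (K L Ω : Type) [Field K] [Field L] [Field Ω] [CharZero K] (π : K →+* L) (n : ℕ)
    (ι : K →+* Ω) (σ : Fin n → (L →+* Ω)), @FiniteDimensional K L _ _ π.toAlgebra.toModule →
    @Module.finrank K L _ _ π.toAlgebra.toModule = n → Function.Injective σ →
    (∀ j, (σ j).comp π = ι) →
    ∀ x : L, ι (@Algebra.norm K L _ _ π.toAlgebra x) = ∏ j, σ j x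

/-! ## 1. vertical valuation rings and minimal primes over `ϖ` of a chart -/

/-- `O` is a "vertical" valuation ring with respect to the coordinate `t`: it contains `A₀[t]`, `ϖ`
is not a unit, and its restriction to `Frac(A₀)(t)` is the Gauss valuation ring. -/
def IsVert (A₀ : Type) {F : Type} [CommRing A₀] [Field F] [Algebra A₀ F] (ϖ : A₀) (t : F)
    (O : ValuationSubring F) : Prop :=
  (∀ a : A₀, algebraMap A₀ F a ∈ O) ∧ t ∈ O ∧ O.valuation (algebraMap A₀ F ϖ) < 1 ∧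
    ∀ p : A₀[X], (∃ i, ¬ ϖ ∣ p.coeff i) → O.valuation (aeval t p) = 1

/-- `B_P = O`. -/
def IsCenV {B F : Type*} [CommRing B] [Field F] [Algebra B F] (P : Ideal B)
    (O : ValuationSubring F) : Prop :=
  ∀ z : F, (PosAt P z ↔ O.valuation z < 1) ∧ (UnitAt P z ↔ O.valuation z = 1) ∧
    (IntAt P z ↔ z ∈ O)

/-- [C1] dictionary: minimal primes over `ϖ` of the chart `↔` vertical valuation rings. -/
def Stmt_CenAbs : Prop :=
  ∀ (A₀ F : Type) [CommRing A₀] [IsDomain A₀] [IsDiscreteValuationRing A₀] [Field F] [CharZero F]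
    [Algebra A₀ F] [FaithfulSMul A₀ F] (ϖ : A₀) (t : F), Irreducible ϖ → Transcendental A₀ t →
    FinOverR (PolyR A₀ t) F →
    (∀ P ∈ (Ideal.span {cst A₀ t ϖ}).minimalPrimes, ∃ O : ValuationSubring F,
      IsVert A₀ ϖ t O ∧ IsCenV P O) ∧
    (∀ O : ValuationSubring F, IsVert A₀ ϖ t O →
      ∃ P ∈ (Ideal.span {cst A₀ t ϖ}).minimalPrimes, IsCenV P O)

/-- [C2] `t ↔ t⁻¹`. -/
def Stmt_VertInv : Prop :=
  ∀ (A₀ F : Type) [CommRing A₀] [IsDomain A₀] [Field F] [Algebra A₀ F] (ϖ : A₀) (t : F)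
    (O : ValuationSubring F), Prime ϖ → IsVert A₀ ϖ t O → IsVert A₀ ϖ t⁻¹ O

/-- [C3] restriction and extension of vertical valuation rings. -/
def Stmt_VertOver : Prop :=
  ∀ (A₀ K L : Type) [CommRing A₀] [Field K] [Field L] [Algebra A₀ K] [Algebra A₀ L]
    (π : K →+* L) (ϖ : A₀) (t : K) (V : ValuationSubring K) (W : ValuationSubring L),
    (∀ a : A₀, π (algebraMap A₀ K a) = algebraMap A₀ L a) → Over π V W →
    (IsVert A₀ ϖ t V ↔ IsVert A₀ ϖ (π t) W)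

/-! ## 2. Gauss calculus on series -/

/-- [G1] calculus of `GInt`, `gred`, and the valuation of `gv`. -/
def Stmt_GVApi : Prop :=
  ∀ A : ValuationSubring Qbar,
    (∀ y : LaurentSeries A, GInt A (inc A y) ∧ gred A (inc A y) = rho (resA A) y) ∧
    (∀ (x : LaurentSeries Qbar) (f g : LaurentSeries A), rho (resA A) g ≠ 0 →
      x * inc A g = inc A f → GInt A x ∧ gred A x = rho (resA A) f / rho (resA A) g) ∧
    (∀ x y, GInt A x → GInt A y → GInt A (x + y) ∧ gred A (x + y) = gred A x + gred A y) ∧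
    (∀ x y, GInt A x → GInt A y → GInt A (x * y) ∧ gred A (x * y) = gred A x * gred A y) ∧
    (∀ x, GInt A x → GInt A (-x) ∧ gred A (-x) = - gred A x) ∧
    (∀ x, GInt A x → gred A x ≠ 0 → GInt A x⁻¹ ∧ gred A x⁻¹ = (gred A x)⁻¹) ∧
    (∀ x, ¬ GInt A x → gred A x = 0) ∧
    (∀ (F : Type) [Field F] (φ : F →+* LaurentSeries Qbar) (h : ∀ x, Sat A (φ x)) (x : F),
      ((gv φ h).valuation x < 1 ↔ GInt A (φ x) ∧ gred A (φ x) = 0) ∧
      ((gv φ h).valuation x = 1 ↔ GInt A (φ x) ∧ gred A (φ x) ≠ 0))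

/-- [G2] ratios of series with finitely generated coefficient modules are saturated. -/
def Stmt_SatFG : Prop :=
  ∀ (A : ValuationSubring Qbar) (x a b : LaurentSeries Qbar), ES.Mid.INT.FGCoeff a →
    ES.Mid.INT.FGCoeff b → b ≠ 0 → x * b = a → Sat A x

/-- the values of the middle embedding are saturated. -/
def MidSat (A : ValuationSubring Qbar) {r M : ℕ} [NeZero (r ^ 2 * M)] (D : MidData r M) : Prop :=
  ∀ y, Sat A (D.φ y)

/-- [G3] -/
def Stmt_MidSat : Prop :=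
  ∀ (A : ValuationSubring Qbar) (r M : ℕ) [NeZero (r ^ 2 * M)], r.Prime → ¬ r ∣ M →
    ∀ D : MidData r M, MidSat A D

/-- [G4] `q ↦ q ^ e` and the Gauss valuation. -/
def Stmt_GVExpand : Prop :=
  ∀ (A : ValuationSubring Qbar) (e : ℕ) [NeZero e] (x : LaurentSeries Qbar), GInt A x →
    GInt A (qExpand Qbar e x) ∧ gred A (qExpand Qbar e x) = qExpand (kA A) e (gred A x)

/-- [G5] `q ↦ ζ q`, `ζ ^ r = 1`, `r` the residue characteristic, and the Gauss valuation. -/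
def Stmt_GVTw : Prop :=
  ∀ (A : ValuationSubring Qbar) (r : ℕ), r.Prime → A.LiesOverPrime r → ∀ ζ : Qbarˣ, ζ ^ r = 1 →
    ∀ x : LaurentSeries Qbar, GInt A x → GInt A (tw ζ x) ∧ gred A (tw ζ x) = gred A x

/-- [S1] powers of a series with a simple pole are independent over `k((q^r))`. -/
def Stmt_IndepPow : Prop :=
  ∀ (k : Type) [Field k] (r : ℕ) [NeZero r] (y : LaurentSeries k), y.order = -1 →
    ∀ c : Fin r → LaurentSeries k, ∑ i, qExpand k r (c i) * y ^ (i : ℕ) = 0 → ∀ i, c i = 0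

/-- [S2] `j(q)^r = j(q^r)` in characteristic `r`; order of `j`. -/
def Stmt_JFrob : Prop :=
  ∀ (k : Type) [Field k] (r : ℕ), r.Prime → (r : k) = 0 →
    (∀ d : ℕ, 0 < d → S28.jd k d ^ r = S28.jd k (r * d)) ∧ (S28.jd k 1).order = -1

/-- [S3] `j(ζ q) - j(q) = (ζ - 1) h` with `h` primitive, and `r / (ζ - 1)^(r-1) ∈ A`. -/
def Stmt_JTw : Prop :=
  ∀ (A : ValuationSubring Qbar) (r : ℕ), r.Prime → A.LiesOverPrime r → ∀ ζ : Qbarˣ,
    IsPrimitiveRoot ζ r →
    (∃ h : LaurentSeries A, rho (resA A) h ≠ 0 ∧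
      tw ζ (S28.jd Qbar 1) - S28.jd Qbar 1
        = algebraMap Qbar (LaurentSeries Qbar) ((ζ : Qbar) - 1) * inc A h) ∧
    ((ζ : Qbar) - 1 ∈ A ∧ ((ζ : Qbar) - 1)⁻¹ ∉ A) ∧ (r : Qbar) / ((ζ : Qbar) - 1) ^ (r - 1) ∈ A

/-! ## 3. the valuation rings on `FE A N` -/

variable (A : ValuationSubring Qbar)

theorem sat_incl (N : ℕ) [NeZero N] (y : FF N) : Sat A (incl N y) := by
  intro hy
  have hy' : y ≠ 0 := fun h => hy (by rw [h, map_zero])
  exact INJ.Inst.satF N A y hy'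

/-- `x ↦` its `q`-expansion. -/
def phiA (N : ℕ) : FE A N →+* LaurentSeries Qbar := (incl N).toRingHom.comp (emb A N)

/-- `x ↦` the `q`-expansion of `W x`. -/
def phiC {Q M : ℕ} [NeZero (Q * M)] (Wm : ALMap Q M) : FE A (Q * M) →+* LaurentSeries Qbar :=
  (incl (Q * M)).toRingHom.comp ((Wm.W : FF (Q * M) →+* FF (Q * M)).comp (emb A (Q * M)))

/-- `x ↦` the `q`-expansion of `x ∘ δ`. -/
def phiM {r M : ℕ} [NeZero (r ^ 2 * M)] (D : MidData r M) :
    FE A (r ^ 2 * M) →+* LaurentSeries Qbar :=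
  D.φ.toRingHom.comp (emb A (r ^ 2 * M))

/-- The Gauss valuation ring of `FE A N`. -/
def OA (N : ℕ) [NeZero N] : ValuationSubring (FE A N) :=
  gv (A := A) (phiA A N) (fun _ => sat_incl A N _)

/-- Gauss `∘ W_Q`. -/
def OC {Q M : ℕ} [NeZero (Q * M)] (Wm : ALMap Q M) : ValuationSubring (FE A (Q * M)) :=
  gv (A := A) (phiC A Wm) (fun _ => sat_incl A (Q * M) _)

/-- Gauss `∘` (middle embedding). -/
def OM {r M : ℕ} [NeZero (r ^ 2 * M)] (D : MidData r M) (hS : MidSat A D) :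
    ValuationSubring (FE A (r ^ 2 * M)) :=
  gv (A := A) (phiM A D) (fun _ => hS _)

/-- `π` is the inclusion. -/
def IsInclE {N₁ N₂ : ℕ} (π : FE A N₁ →+* FE A N₂) : Prop :=
  ∀ x : FE A N₁, ((π x : FE A N₂) : Base.LE A) = (x : Base.LE A)

/-- `π` is `q ↦ q ^ r`. -/
def IsVE (r : ℕ) [NeZero r] {N₁ N₂ : ℕ} (π : FE A N₁ →+* FE A N₂) : Prop :=
  ∀ x : FE A N₁, ((π x : FE A N₂) : Base.LE A) = qExpand (IE A) r (x : Base.LE A)

/-- `y ∈ FE A N` is the generator `j(q^d)`. -/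
def IsJE {N : ℕ} (y : FE A N) (d : ℕ) : Prop := (y : Base.LE A) = S28.jd (IE A) d

end Fermat.Agent.S36.Val

end
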