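import Fermat.Agent.S36.Val.Interface3

/-!
# S36 / Val : the Fricke involution preserves `FE A N` (`Stmt_FrickeE`)
-/

set_option autoImplicit false

noncomputable section

namespace Fermat.Agent.S36.Val

open Fermat.Agent
open Fermat.Agent.S24 (Qbar FF)
open Fermat.Agent.S36.Base

theorem FrickeE_invol (N : ℕ) [NeZero N] (z : FF N) :
    INJ.Inst.frickeEquiv N (INJ.Inst.frickeEquiv N z) = z :=
  DFunLike.congr_fun (INJ.Inst.frickeHom_comp_self N) z

theorem stmt_FrickeE (hD : Base.Stmt_Descent) (hG : Dict.Stmt_FrickeGal) : Stmt_FrickeE := by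
  intro A N _
  have hex : ∀ x : FE A N, ∃ y : FE A N, emb A N y = INJ.Inst.frickeEquiv N (emb A N x) := by
    intro x
    apply hD A N
    intro σ hσ
    rw [← hG, Base.gal_emb A N x hσ]
  choose w hw using hex
  have hinj := Base.emb_injective A N
  have hww : ∀ x, w (w x) = x := by
    intro x
    apply hinj
    rw [hw, hw, FrickeE_invol]
  refine ⟨{ toFun := w, invFun := w, left_inv := hww, right_inv := hww, map_mul' := ?_,
            map_add' := ?_ }, hw, ?_⟩
  · intro x y
    apply hinj
    rw [hw, map_mul, map_mul, map_mul, hw, hw]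
  · intro x y
    apply hinj
    rw [hw, map_add, map_add, map_add, hw, hw]
  · intro c
    apply hinj
    show emb A N (w _) = _
    rw [hw, Base.emb_algebraMap, AlgEquiv.commutes]

end Fermat.Agent.S36.Val

end
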