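import Fermat.Agent.S36.Val.EmbDefs
import Fermat.Agent.S36.Base.Defs
import Fermat.Agent.INJ.Inst.Gauss
import Fermat.Agent.CAR.NR.Interface

/-!
# S36 / Val : Gauss valuation rings attached to ring homomorphisms `F → ℚ̄((q))` (helper88)

`A` a valuation subring of `ℚ̄`.  For a field `F` and `φ : F →+* ℚ̄((q))` all of whose values are
"saturated" (`Sat`: a constant times a ratio of primitive `A`-integral series),
`gv A φ h : ValuationSubring F` is the pull back of the Gauss valuation ring and
`gred A (φ x)` the reduction of `x`.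
-/

set_option autoImplicit false

noncomputable section

namespace Fermat.Agent.S36.Val

open Fermat.Agent
open Fermat.Agent.S24 (Qbar FF)
open Fermat.Agent.INJ.Inst (kA)
open Fermat.Agent.INJ.Inst.Gauss (IsRatio red rho inc)

variable (A : ValuationSubring Qbar)

/-- the residue map of `A`. -/
abbrev resA : A →+* kA A := IsLocalRing.residue A

/-- `x` is Gauss-integral: `x = f / g`, `f g ∈ A((q))`, `g` primitive. -/
def GInt (x : LaurentSeries Qbar) : Prop := ∃ f g : LaurentSeries A, IsRatio (resA A) x f g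

/-- the Gauss reduction (junk value `0` if `x` is not Gauss-integral). -/
def gred (x : LaurentSeries Qbar) : LaurentSeries (kA A) := red (resA A) x

/-- `x` is a constant times a ratio of primitive integral series. -/
def Sat (x : LaurentSeries Qbar) : Prop :=
  x ≠ 0 → ∃ (α : Qbar) (f g : LaurentSeries A), α ≠ 0 ∧ rho (resA A) f ≠ 0 ∧ rho (resA A) g ≠ 0 ∧
    x * inc A g = algebraMap Qbar (LaurentSeries Qbar) α * inc A f

variable {A}

/-- The pull back of the Gauss valuation ring. -/
def gv {F : Type*} [Field F] (φ : F →+* LaurentSeries Qbar) (h : ∀ x, Sat A (φ x)) :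
    ValuationSubring F where
  carrier := {x | GInt A (φ x)}
  mul_mem' := by
    rintro x y ⟨f, g, h1⟩ ⟨f', g', h2⟩
    exact ⟨_, _, by rw [map_mul]; exact h1.mul h2⟩
  one_mem' := ⟨1, 1, by rw [map_one]; exact INJ.Inst.Gauss.isRatio_one⟩
  add_mem' := by
    rintro x y ⟨f, g, h1⟩ ⟨f', g', h2⟩
    exact ⟨_, _, by rw [map_add]; exact h1.add h2⟩
  zero_mem' := ⟨0, 1, by rw [map_zero]; exact INJ.Inst.Gauss.isRatio_zero⟩
  neg_mem' := by
    rintro x ⟨f, g, h1⟩
    exact ⟨_, _, by rw [map_neg]; exact h1.neg⟩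
  mem_or_inv_mem' := by
    intro x
    by_cases hx : x = 0
    · left
      rw [hx]
      exact ⟨0, 1, by rw [map_zero]; exact INJ.Inst.Gauss.isRatio_zero⟩
    have hx' : φ x ≠ 0 := (map_ne_zero φ).2 hx
    obtain ⟨α, f, g, hα, hf, hg, he⟩ := h x hx'
    rcases A.mem_or_inv_mem α with hα' | hα'
    · left
      refine ⟨HahnSeries.single 0 ⟨α, hα'⟩ * f, g, hg, ?_⟩
      rw [map_mul, INJ.Inst.Gauss.inc_single, he]
    · right
      refine ⟨HahnSeries.single 0 ⟨α⁻¹, hα'⟩ * g, f, hf, ?_⟩
      have hα0 : algebraMap Qbar (LaurentSeries Qbar) α ≠ 0 := by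
        rw [Ne, map_eq_zero]; exact hα
      rw [map_mul, INJ.Inst.Gauss.inc_single, map_inv₀, map_inv₀]
      field_simp
      rw [mul_comm, ← he, mul_comm]

theorem mem_gv {F : Type*} [Field F] (φ : F →+* LaurentSeries Qbar) (h : ∀ x, Sat A (φ x))
    (x : F) : x ∈ gv φ h ↔ GInt A (φ x) := Iff.rfl

/-- The order of `x` with respect to the "uniformiser" `ϖ` of `W` (junk value `0`). -/
def ordOf {L : Type*} [Field L] (W : ValuationSubring L) (ϖ x : L) : ℤ :=
  open Classical in
  if h : ∃ j : ℤ, W.valuation x = W.valuation ϖ ^ j then h.choose else 0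

end Fermat.Agent.S36.Val

end
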