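import Fermat.Agent.S36.Val.Interface3

/-!
# S36 / Val : [Q9] the level casts `N = r ^ 2 * M`, `N / r = r * M` in `Stmt_Inst`.
-/

set_option autoImplicit false

noncomputable section

namespace Fermat.Agent.S36.Val

open Fermat.Agent
open Fermat.Agent.S24 (Qbar FF)
open Fermat.Agent.S36.Base

/-- the conclusion of `Stmt_Inst` with independent levels `N`, `N1`. -/
def Q9_Body (N N1 r : ℕ) [NeZero N] [NeZero r] [NeZero N1] (A : ValuationSubring Qbar)
    [IsDiscreteValuationRing (AE A)] (m : ℕ) : Prop :=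
  ∃ Z : ZData (AE A) (FE A N) (FE A N1) (Base.LE A),
    Z.m = m ∧ Z.r = r ∧ Z.ϖ = ((r : ℕ) : AE A) ∧
    (∀ (ζ : Qbarˣ), IsPrimitiveRoot ζ r → ∀ u : FE A N,
      cmE A ((Z.D₂.N u : FE A N1) : Base.LE A) = Dict.formalU r ζ (cmE A (u : Base.LE A))) ∧
    (∃ w₁ : FE A N1 ≃+* FE A N1,
      (∀ c : IE A, w₁ (algebraMap (IE A) (FE A N1) c) = algebraMap (IE A) (FE A N1) c) ∧
      ∀ (ζ : Qbarˣ), IsPrimitiveRoot ζ r → ∀ u : FE A N,
        cmE A ((w₁ (Z.D₁.N u) : FE A N1) : Base.LE A)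
          = Dict.formalU r ζ
            ((INJ.Inst.frickeEquiv N (emb A N u) : FF N) : LaurentSeries Qbar)) ∧
    (∀ u : FE A N, ES.Mid.IsDiv N m (emb A N u) →
      HDiv (KL.cst (AE A) Z.t Z.ϖ) m u ∧ HDiv (KL.cst (AE A) Z.t⁻¹ Z.ϖ) m u)

theorem Q9_aux (h : Stmt_InstRM) (N N1 r M : ℕ) [iN : NeZero N] [NeZero r] [iN1 : NeZero N1]
    (hN : N = r ^ 2 * M) (hN1 : N1 = r * M) (hr : r.Prime) (hrM : ¬ r ∣ M)
    (haux : Dict.auxLevel r ∣ M) (A : ValuationSubring Qbar) (hA : A.LiesOverPrime r)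
    [IsDiscreteValuationRing (AE A)] (m : ℕ) (hm : 0 < m) (hrm : ¬ r ∣ m) :
    Q9_Body N N1 r A m := by
  subst hN hN1
  have : NeZero M := ⟨fun h0 => hrM (h0 ▸ dvd_zero r)⟩
  exact h r M hr hrM haux A hA m hm hrm

theorem stmt_InstCast : Stmt_InstCast := by
  intro h N r _ _ _ hr hfac haux A hA _ m hm hrm
  have hN0 : N ≠ 0 := NeZero.ne N
  obtain ⟨M, hN, hrM⟩ : ∃ M, N = r ^ 2 * M ∧ ¬ r ∣ M := by
    refine ⟨N / r ^ N.factorization r, ?_, Nat.not_dvd_ordCompl hr hN0⟩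
    rw [← hfac]
    exact (Nat.ordProj_mul_ordCompl_eq_self N r).symm
  have hN1 : N / r = r * M := by
    rw [hN, pow_two, mul_assoc]
    exact Nat.mul_div_cancel_left _ hr.pos
  have hcop : Nat.Coprime (Dict.auxLevel r) r := by
    unfold Dict.auxLevel
    split_ifs with h2
    · subst h2; decide
    · have : Nat.Coprime 2 r := (Nat.coprime_primes Nat.prime_two hr).2 (Ne.symm h2)
      exact Nat.Coprime.pow_left 2 this
  have haux' : Dict.auxLevel r ∣ M := by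
    rw [hN] at haux
    exact (Nat.Coprime.pow_right 2 hcop).dvd_of_dvd_mul_left haux
  exact Q9_aux h N (N / r) r M hN hN1 hr hrM haux' A hA m hm hrm

end Fermat.Agent.S36.Val

end
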