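import Fermat.Agent.S36.Val.Interface2
import Fermat.Agent.S36.GeoInterface

/-!
# S36 / Val : interface, part 3 : what REG / LOC / INST consume (helper88)

* `Stmt_Class2b`, `Stmt_PC` : the element `pC` with `ord = (0, 0, 1)`;
* `Stmt_V01`, `Stmt_ResAll` : `q ↦ q ^ r` from level `M` to level `r * M`, residue fields;
* `Stmt_JVal`, `Stmt_MidUnram` : the Frobenius congruences of `1/j, 1/j_r, 1/j_{r²}`;
* `Stmt_FrickeE` : the Fricke involution on `FE A N`;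
* `Stmt_ExCtx` : existence of a context.
-/

set_option autoImplicit false

noncomputable section

namespace Fermat.Agent.S36.Val

open Fermat.Agent
open Fermat.Agent.S24 (Qbar FF)
open Fermat.Agent.INJ.Inst (kA)
open Fermat.Agent.S36.Base
open Fermat.Agent.ES.Mid (tw)
open Fermat.Agent.CAR (NR.IsUnif)
open ModularCurve (qExpand coeffMap)

/-- [Q1] complement to `Stmt_Class2` : uniformisers, residue degree one at `W₁`, and an element with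
`ord = (0, 1)`. -/
def Stmt_Class2b : Prop :=
  ∀ (K L : Type) [Field K] [Field L] [CharZero K] (π : K →+* L) (r : ℕ)
    (V : ValuationSubring K) (W₁ W₃ : ValuationSubring L) (g : L), 0 < r →
    DegLE π (r + 1) → NR.IsUnif V (r : K) → Over π V W₁ → Over π V W₃ → W₁ ≠ W₃ →
    ResIndep π V W₃ (fun i : Fin r => g ^ (i : ℕ)) →
    NR.IsUnif W₁ (r : L) ∧ NR.IsUnif W₃ (r : L) ∧
    (∀ y : L, W₁.valuation y = 1 → ∃ y' : K, W₁.valuation (y - π y') < 1) ∧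
    ∃ s : L, W₁.valuation s = 1 ∧ W₃.valuation s = W₃.valuation (r : L)

/-- [Q2] the element `pC`. -/
def Stmt_PC : Prop :=
  ∀ (A : ValuationSubring Qbar) (r M : ℕ) [NeZero r] [NeZero M] [NeZero (r * M)]
    [NeZero (r ^ 2 * M)] (C : Ctx A r M),
    ∃ pC : FE A (r ^ 2 * M), pC ≠ 0 ∧ C.ord 0 pC = 0 ∧ C.ord 1 pC = 0 ∧ C.ord 2 pC = 1

/-- [Q3] `v01 = (q ↦ q ^ r)` from level `M` to level `r * M`. -/
def Stmt_V01 : Prop :=
  ∀ (A : ValuationSubring Qbar) (r M : ℕ) [NeZero r] [NeZero M] [NeZero (r * M)]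
    [NeZero (r ^ 2 * M)] (C : Ctx A r M) (v01 : FE A M →+* FE A (r * M)), IsVE A r v01 →
    (∀ x, phiA A (r * M) (v01 x) = qExpand Qbar r (phiA A M x)) ∧
    (∀ x, phiC A C.W1 (v01 x) = phiA A M x) ∧
    Over v01 (OA A M) (OA A (r * M)) ∧ Over v01 (OA A M) (OC A C.W1) ∧
    ResIndep v01 (OA A M) (OA A (r * M)) (fun i : Fin r => jE A (r * M) 1 ^ (i : ℕ)) ∧
    (∀ a : AE A, v01 (algebraMap (AE A) (FE A M) a) = algebraMap (AE A) (FE A (r * M)) a)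

/-- [Q3'] the degree of `v01`. -/
def Stmt_DegV01 : Prop :=
  ∀ (A : ValuationSubring Qbar) (r M : ℕ) [NeZero r] [NeZero M] [NeZero (r * M)]
    [NeZero (r ^ 2 * M)] (_C : Ctx A r M) (v01 : FE A M →+* FE A (r * M)), IsVE A r v01 →
    DegLE v01 (r + 1)

/-- [Q4] residue fields: the residue fields of the three valuation rings are the residue field of
the Gauss ring of level `M`, via the inclusion (`A`, `mid`) resp. via `q ↦ q^(r²)` (`mid`, `C`). -/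
def Stmt_ResAll : Prop :=
  ∀ (A : ValuationSubring Qbar) (r M : ℕ) [NeZero r] [NeZero M] [NeZero (r * M)]
    [NeZero (r ^ 2 * M)] (C : Ctx A r M) (v01 : FE A M →+* FE A (r * M)), IsVE A r v01 →
    (∀ y, (C.O 0).valuation y = 1 →
      ∃ y' : FE A M, (C.O 0).valuation (y - C.i12 (C.i01 y')) < 1) ∧
    (∀ y, (C.O 1).valuation y = 1 →
      ∃ y' : FE A M, (C.O 1).valuation (y - C.i12 (C.i01 y')) < 1) ∧
    (∀ y, (C.O 1).valuation y = 1 →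
      ∃ y' : FE A M, (C.O 1).valuation (y - C.v12 (v01 y')) < 1) ∧
    (∀ y, (C.O 2).valuation y = 1 →
      ∃ y' : FE A M, (C.O 2).valuation (y - C.v12 (v01 y')) < 1) ∧
    (∀ X, Over (C.v12.comp v01) (OA A M) (C.O X)) ∧
    (∀ x, phiA A (r ^ 2 * M) (C.v12 (v01 x)) = qExpand Qbar r (qExpand Qbar r (phiA A M x))) ∧
    (∀ x, phiM A C.D (C.v12 (v01 x)) = tw C.D.ζ (phiA A M x)) ∧
    (∀ x, phiC A C.W2 (C.v12 (v01 x)) = phiA A M x) ∧
    (∀ x, phiA A (r ^ 2 * M) (C.i12 (C.i01 x)) = phiA A M x) ∧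
    (∀ x, phiM A C.D (C.i12 (C.i01 x)) = phiA A M x) ∧
    (∀ x, phiC A C.W2 (C.i12 (C.i01 x)) = qExpand Qbar r (qExpand Qbar r (phiA A M x)))

/-- [Q5] the facts on `X = 1/j`, `X1 = 1/j_r`, `X2 = 1/j_{r²}` consumed by `Reg.Stmt_Chart2`. -/
def Stmt_JVal : Prop :=
  ∀ (A : ValuationSubring Qbar) (r M : ℕ) [NeZero r] [NeZero M] [NeZero (r * M)]
    [NeZero (r ^ 2 * M)] (C : Ctx A r M) (X X1 X2 : FE A (r ^ 2 * M)),
    X = (jE A (r ^ 2 * M) 1)⁻¹ → X1 = (jE A (r ^ 2 * M) r)⁻¹ → X2 = (jE A (r ^ 2 * M) (r ^ 2))⁻¹ →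
    X ≠ 0 ∧ X1 ≠ 0 ∧ X2 ≠ 0 ∧ X2 ≠ X ∧
    ((C.O 0).valuation X = 1 ∧ (C.O 0).valuation (X1 - X ^ r) < 1 ∧
      (C.O 0).valuation (X2 - X1 ^ r) < 1) ∧
    ((C.O 1).valuation X = 1 ∧ (C.O 1).valuation (X1 - X ^ r) < 1 ∧
      (C.O 1).valuation (X2 - X) < 1) ∧
    ((C.O 2).valuation X2 = 1 ∧ (C.O 2).valuation (X1 - X2 ^ r) < 1 ∧
      (C.O 2).valuation (X - X1 ^ r) < 1) ∧
    NR.IsUnif (C.O 1) (X2 / X - 1) ∧
    C.i12 (jE A (r * M) 1)⁻¹ = X ∧ C.i12 (jE A (r * M) r)⁻¹ = X1 ∧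
    C.v12 (jE A (r * M) 1)⁻¹ = X1 ∧ C.v12 (jE A (r * M) r)⁻¹ = X2

/-- [Q6] the subfields `i12 F₁`, `v12 F₁` are unramified at `mid` : `r` is a uniformiser there. -/
def Stmt_MidUnram : Prop :=
  ∀ (A : ValuationSubring Qbar) (r M : ℕ) [NeZero r] [NeZero M] [NeZero (r * M)]
    [NeZero (r ^ 2 * M)] (C : Ctx A r M),
    (∀ x, (C.O 1).valuation (C.i12 x) < 1 → C.i12 x / (r : FE A (r ^ 2 * M)) ∈ C.O 1) ∧
    (∀ x, (C.O 1).valuation (C.v12 x) < 1 → C.v12 x / (r : FE A (r ^ 2 * M)) ∈ C.O 1)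

/-- [Q7] the Fricke involution preserves `FE A N`. -/
def Stmt_FrickeE : Prop :=
  ∀ (A : ValuationSubring Qbar) (N : ℕ) [NeZero N], ∃ w : FE A N ≃+* FE A N,
    (∀ x, emb A N (w x) = INJ.Inst.frickeEquiv N (emb A N x)) ∧
    (∀ c : IE A, w (algebraMap (IE A) (FE A N) c) = algebraMap (IE A) (FE A N) c)

/-- [Q8] existence of a context. -/
def Stmt_ExCtx : Prop :=
  ∀ (A : ValuationSubring Qbar) (r M : ℕ) [NeZero r] [NeZero M] [NeZero (r * M)]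
    [NeZero (r ^ 2 * M)], r.Prime → ¬ r ∣ M → A.LiesOverPrime r →
    Nonempty (Ctx A r M) ∧ ∃ v01 : FE A M →+* FE A (r * M), IsVE A r v01

/-- [Q9] `Stmt_Inst` at the levels `r ^ 2 * M`, `r * M`. -/
def Stmt_InstRM : Prop :=
  ∀ (r M : ℕ) [NeZero r] [NeZero M] [NeZero (r * M)] [NeZero (r ^ 2 * M)], r.Prime → ¬ r ∣ M →
    Dict.auxLevel r ∣ M → ∀ A : ValuationSubring Qbar, A.LiesOverPrime r →
    ∀ [IsDiscreteValuationRing (AE A)] (m : ℕ), 0 < m → ¬ r ∣ m →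
    ∃ Z : ZData (AE A) (FE A (r ^ 2 * M)) (FE A (r * M)) (Base.LE A),
      Z.m = m ∧ Z.r = r ∧ Z.ϖ = ((r : ℕ) : AE A) ∧
      (∀ (ζ : Qbarˣ), IsPrimitiveRoot ζ r → ∀ u : FE A (r ^ 2 * M),
        cmE A ((Z.D₂.N u : FE A (r * M)) : Base.LE A)
          = Dict.formalU r ζ (cmE A (u : Base.LE A))) ∧
      (∃ w₁ : FE A (r * M) ≃+* FE A (r * M),
        (∀ c : IE A, w₁ (algebraMap (IE A) (FE A (r * M)) c)
          = algebraMap (IE A) (FE A (r * M)) c) ∧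
        ∀ (ζ : Qbarˣ), IsPrimitiveRoot ζ r → ∀ u : FE A (r ^ 2 * M),
          cmE A ((w₁ (Z.D₁.N u) : FE A (r * M)) : Base.LE A)
            = Dict.formalU r ζ
              ((INJ.Inst.frickeEquiv (r ^ 2 * M) (emb A (r ^ 2 * M) u) : FF (r ^ 2 * M)) :
                LaurentSeries Qbar)) ∧
      (∀ u : FE A (r ^ 2 * M), ES.Mid.IsDiv (r ^ 2 * M) m (emb A (r ^ 2 * M) u) →
        HDiv (KL.cst (AE A) Z.t Z.ϖ) m u ∧ HDiv (KL.cst (AE A) Z.t⁻¹ Z.ϖ) m u)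

/-- [Q9] the level casts `N = r ^ 2 * M`, `N / r = r * M`. -/
def Stmt_InstCast : Prop := Stmt_InstRM → Stmt_Inst

end Fermat.Agent.S36.Val

end
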