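import Fermat.Agent.S36.Val.Interface3
import Fermat.Agent.S36.Val.Vert

/-!
# S36 / Val / Q2 : the element `pC` with `ord = (0, 0, 1)`
-/

set_option autoImplicit false

noncomputable section

namespace Fermat.Agent.S36.Val

open Fermat.Agent
open Fermat.Agent.S24 (Qbar)
open Fermat.Agent.S36.Base
open Fermat.Agent.CAR (NR.IsUnif)

theorem PC_abs (hO : Stmt_OrdOf) {K L : Type} [Field K] [Field L] (π : K →+* L) (r : ℕ)
    (VA VC : ValuationSubring K) (O : Fin 3 → ValuationSubring L) (u : Fin 3 → L)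
    (hu : ∀ X, NR.IsUnif (O X) (u X)) (hu2 : u 2 = (r : L)) (o0 : Over π VA (O 0))
    (o1 : Over π VA (O 1)) (o2 : Over π VC (O 2)) (hr : (r : K) ≠ 0) (s : K)
    (hs1 : VA.valuation s = 1) (hs3 : VC.valuation s = VC.valuation (r : K)) :
    π s ≠ 0 ∧ ordOf (O 0) (u 0) (π s) = 0 ∧ ordOf (O 1) (u 1) (π s) = 0 ∧
      ordOf (O 2) (u 2) (π s) = 1 := by
  have hs0 : s ≠ 0 := by
    rintro rfl
    rw [map_zero] at hs1
    exact zero_ne_one hs1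
  refine ⟨(map_ne_zero π).2 hs0, ?_, ?_, ?_⟩
  · exact (hO L (O 0) (u 0) (hu 0)).2.1 (π s) 0 (by rw [zpow_zero]; exact (C2_over_eq o0 s).2 hs1)
  · exact (hO L (O 1) (u 1) (hu 1)).2.1 (π s) 0 (by rw [zpow_zero]; exact (C2_over_eq o1 s).2 hs1)
  · refine (hO L (O 2) (u 2) (hu 2)).2.1 (π s) 1 ?_
    rw [zpow_one, hu2]
    have hvr : VC.valuation (r : K) ≠ 0 := (map_ne_zero _).2 hr
    have h1 : VC.valuation (s / (r : K)) = 1 := by
      rw [map_div₀, hs3, div_self hvr]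
    have h2 := (C2_over_eq o2 (s / (r : K))).2 h1
    rw [map_div₀, map_natCast, map_div₀] at h2
    have hr' : (r : L) ≠ 0 := by
      rw [← map_natCast π]
      exact (map_ne_zero π).2 hr
    have hvr' : (O 2).valuation (r : L) ≠ 0 := (map_ne_zero _).2 hr'
    exact (div_eq_one_iff_eq hvr').1 h2

/-- [Q2] -/
theorem stmt_PC (hC : Stmt_Class2b) (hOv : Stmt_OverAll) (hU : Stmt_UnifR) (hI : Stmt_Indep)
    (hDeg : Stmt_DegE) (hO : Stmt_OrdOf) (hM1 : Stmt_Main1) (_hOO : Stmt_OverOf) : Stmt_PC := by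
  intro A r M _ _ _ _ C
  obtain ⟨oi0, oi1, oi2, -, -, -, o0A, o0C⟩ := hOv A r M C
  obtain ⟨hUA, -⟩ := hU A r C.hr C.hA
  obtain ⟨-, -, -, -, -, -, hR1, hAC⟩ := hI A r M C
  obtain ⟨-, -, hd01⟩ := hDeg A r M C
  obtain ⟨-, -, -, s, hs1, hs3⟩ := hC (FE A M) (FE A (r * M)) C.i01 r (OA A M) (OA A (r * M))
    (OC A C.W1) (jE A (r * M) r) C.hr.pos hd01 (hUA M) o0A o0C hAC hR1
  have hr0 : ((r : ℕ) : FE A (r * M)) ≠ 0 := Nat.cast_ne_zero.2 C.hr.ne_zero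
  obtain ⟨h0, h1, h2, h3⟩ := PC_abs hO C.i12 r (OA A (r * M)) (OC A C.W1) C.O C.unif
    (hM1 A r M C).1 rfl oi0 oi1 oi2 hr0 s hs1 hs3
  exact ⟨C.i12 s, h0, h1, h2, h3⟩

end Fermat.Agent.S36.Val

end
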