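import Fermat.Agent.S36.Val.Interface

/-!
# S36 / Val, task VAL-G2 : saturation (`Stmt_SatFG`, `Stmt_MidSat`)
-/

set_option autoImplicit false
set_option synthInstance.maxHeartbeats 400000

noncomputable section

namespace Fermat.Agent.S36.Val

open Fermat.Agent
open Fermat.Agent.S24 (Qbar FF funAlg jFunD jAlg jBar)
open Fermat.Agent.S24.QX (qExpHom)
open Fermat.Agent.INJ.Inst (kA)
open Fermat.Agent.INJ.Inst.Gauss (IsRatio red rho inc)
open Fermat.Agent.ES.Mid (tw)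
open Fermat.Agent.ES.Mid.INT (FGCoeff)
attribute [local instance] Fermat.Agent.S24.algQbarComplex

/-- normalisation of a nonzero series with finitely generated coefficient module. -/
theorem SatG2_norm (A : ValuationSubring Qbar) {a : LaurentSeries Qbar} (ha : a ≠ 0)
    (h : FGCoeff a) : ∃ (l : Qbar) (f : LaurentSeries A), l ≠ 0 ∧ rho (resA A) f ≠ 0 ∧
      inc A f = algebraMap Qbar (LaurentSeries Qbar) l * a := by
  obtain ⟨l, hl, hA, n, hn⟩ := ES.Mid.INT.exists_scale A ha h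
  set z : LaurentSeries Qbar := algebraMap Qbar (LaurentSeries Qbar) l * a with hz
  have hc : ∀ k, z.coeff k = l * a.coeff k := fun k => by
    rw [hz, ModularCurve.algebraMap_laurentSeries_eq_single, HahnSeries.coeff_single_zero_mul]
  refine ⟨l, ES.Mid.INT.lift A z (fun k => by rw [hc]; exact hA k), hl, ?_, ?_⟩
  · intro h0
    have h1 := congrArg (fun z => HahnSeries.coeff z n) h0
    simp only [ModularCurve.coeffMap_coeff, HahnSeries.coeff_zero] at h1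
    have h2 : (ES.Mid.INT.lift A z (fun k => by rw [hc]; exact hA k)).coeff n = 1 := by
      apply Subtype.ext
      show z.coeff n = 1
      rw [hc, hn]
    rw [h2, map_one] at h1
    exact one_ne_zero h1
  · exact ES.Mid.INT.coeffMap_lift A z _

/-- **[G2]** -/
theorem stmt_SatFG : Stmt_SatFG := by
  intro A x a b ha hb hb0 hxb hx
  have ha0 : a ≠ 0 := by rw [← hxb]; exact mul_ne_zero hx hb0
  obtain ⟨la, f, hla, hf, hfe⟩ := SatG2_norm A ha0 ha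
  obtain ⟨lb, g, hlb, hg, hge⟩ := SatG2_norm A hb0 hb
  refine ⟨lb * la⁻¹, f, g, mul_ne_zero hlb (inv_ne_zero hla), hf, hg, ?_⟩
  rw [hfe, hge, mul_left_comm, hxb, ← mul_assoc, ← map_mul, mul_assoc, inv_mul_cancel₀ hla,
    mul_one]

/-- twisting by a root of unity preserves `FGCoeff`. -/
theorem SatG2_tw {r : ℕ} (hr : 0 < r) {ζ : Qbarˣ} (hζ : ζ ^ r = 1) {x : LaurentSeries Qbar}
    (hx : FGCoeff x) : FGCoeff (tw ζ x) := by
  obtain ⟨C, hC, h⟩ := hx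
  refine ⟨Submodule.span ℤ (Set.range fun i : Fin r => ((ζ ^ (i : ℕ) : Qbarˣ) : Qbar)) * C,
    (Submodule.fg_span (Set.finite_range _)).mul hC, fun n => ?_⟩
  rw [ES.Mid.tw_coeff]
  refine Submodule.mul_mem_mul (Submodule.subset_span ?_) (h n)
  have hr' : (0 : ℤ) < (r : ℤ) := by exact_mod_cast hr
  have h0 : 0 ≤ n % (r : ℤ) := Int.emod_nonneg _ hr'.ne'
  have h1 : n % (r : ℤ) < r := Int.emod_lt_of_pos _ hr'
  refine ⟨⟨(n % (r : ℤ)).toNat, by omega⟩, ?_⟩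
  show ((ζ ^ (n % (r : ℤ)).toNat : Qbarˣ) : Qbar) = ((ζ ^ n : Qbarˣ) : Qbar)
  congr 1
  rw [← zpow_natCast, Int.toNat_of_nonneg h0]
  conv_rhs => rw [← Int.mul_ediv_add_emod n r, zpow_add, zpow_mul, zpow_natCast, hζ, one_zpow,
    one_mul]

theorem SatG2_dvd {r M d : ℕ} (hr : r.Prime) (hd : d ∣ r ^ 2 * M) :
    d ∣ r * M ∨ ∃ d', d' ∣ M ∧ d = r ^ 2 * d' := by
  obtain ⟨k₁, k₂, h1, h2, rfl⟩ := (Nat.dvd_mul).1 hd
  obtain ⟨m, hm, rfl⟩ := (Nat.dvd_prime_pow hr).1 h1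
  interval_cases m
  · left
    exact mul_dvd_mul (by simp) h2
  · left
    exact mul_dvd_mul (by simp) h2
  · right
    exact ⟨k₂, h2, rfl⟩

/-- the values of the middle embedding on `ℚ̄[j(q^d)]` have finitely generated coefficients. -/
theorem SatG2_fg {r M : ℕ} [NeZero (r ^ 2 * M)] (hr : r.Prime) (D : MidData r M)
    (θ : UpperHalfPlane → ℂ) (hθ : θ ∈ funAlg (r ^ 2 * M)) :
    FGCoeff (D.φ (qExpHom (r ^ 2 * M) ⟨θ, hθ⟩)) := by
  unfold funAlg at hθ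
  induction hθ using Algebra.adjoin_induction with
  | mem x hx =>
    obtain ⟨d, hd, rfl⟩ := hx
    have hd0 : NeZero d := ⟨fun h0 => NeZero.ne (r ^ 2 * M)
      (by rw [h0] at hd; exact Nat.eq_zero_of_zero_dvd hd)⟩
    have e1 : qExpHom (r ^ 2 * M) ⟨jFunD d, Algebra.subset_adjoin ⟨d, hd, rfl⟩⟩ =
        jBar (r ^ 2 * M) d hd := S24.QX.qExpHom_jAlg (r ^ 2 * M) d hd
    have hJ : IsJ (jBar (r ^ 2 * M) d hd) d := INJ.Inst.fricke_coe_jBar (r ^ 2 * M) d hd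
    rw [e1]
    rcases SatG2_dvd hr hd with h | ⟨d', hd', rfl⟩
    · rw [D.low d _ h hJ, ← INJ.Inst.fricke_coe_jBar (r ^ 2 * M) d hd]
      exact ES.Mid.INT.fgCoeff_jBarSeries d
    · have hd0' : NeZero d' := ⟨fun h0 => hd0.out (by rw [h0, mul_zero])⟩
      rw [D.top d' _ hd' hJ, ← INJ.Inst.fricke_coe_jBar M d' hd']
      exact SatG2_tw hr.pos D.prim.pow_eq_one (ES.Mid.INT.fgCoeff_jBarSeries d')
  | algebraMap c =>
    have e1 : qExpHom (r ^ 2 * M) ⟨algebraMap Qbar (UpperHalfPlane → ℂ) c,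
        Subalgebra.algebraMap_mem _ c⟩ = algebraMap Qbar (FF (r ^ 2 * M)) c :=
      AlgHom.commutes (qExpHom (r ^ 2 * M)) c
    rw [e1, AlgHom.commutes]
    exact ES.Mid.INT.fgCoeff_algebraMap c
  | add x y hx hy h h' =>
    have e1 : qExpHom (r ^ 2 * M) ⟨x + y, add_mem hx hy⟩ =
        qExpHom (r ^ 2 * M) ⟨x, hx⟩ + qExpHom (r ^ 2 * M) ⟨y, hy⟩ :=
      map_add (qExpHom (r ^ 2 * M)) ⟨x, hx⟩ ⟨y, hy⟩
    rw [e1, map_add]
    exact h.add h'
  | mul x y hx hy h h' =>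
    have e1 : qExpHom (r ^ 2 * M) ⟨x * y, mul_mem hx hy⟩ =
        qExpHom (r ^ 2 * M) ⟨x, hx⟩ * qExpHom (r ^ 2 * M) ⟨y, hy⟩ :=
      map_mul (qExpHom (r ^ 2 * M)) ⟨x, hx⟩ ⟨y, hy⟩
    rw [e1, map_mul]
    exact h.mul h'

/-- **[G3]** -/
theorem stmt_MidSat (h : Stmt_SatFG) : Stmt_MidSat := by
  intro A r M _ hr _ D y
  obtain ⟨a, b, hb, hab⟩ := INJ.Inst.fricke_frac (r ^ 2 * M) y
  have hqb : qExpHom (r ^ 2 * M) b ≠ 0 := fun h0 =>
    hb (S24.QX.qExpHom_injective (r ^ 2 * M) (h0.trans (map_zero _).symm))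
  refine h A (D.φ y) (D.φ (qExpHom (r ^ 2 * M) a)) (D.φ (qExpHom (r ^ 2 * M) b))
    (SatG2_fg hr D a.1 a.2) (SatG2_fg hr D b.1 b.2) ((map_ne_zero D.φ).2 hqb) ?_
  rw [← map_mul, hab]

end Fermat.Agent.S36.Val

end
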